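import Mathlib
import Fermat.Agent.S28.KeyAbstract

/-!
# Program DS, package (C), row C3 (Igusa for `X₁(M)`): the ABSTRACT algebra (IG-ALG)

`L = k((s))`, `J ∈ L` with a pole, `X` a finite set, `A ⊆ (X → L)` a subring containing the constants
from `k`, the constant family `J`, and such that `∏_ξ (Y - a ξ) ∈ k[J][Y]` for every `a ∈ A`
(`DscigAlg J A`).  Think: `X` = cusps-with-direction / conjugates, `a ξ` = expansion of the `ξ`-th
conjugate of an invariant function.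

* `DscigRel A ξ ξ'` : `∀ a ∈ A, a ξ = 0 ↔ a ξ' = 0` (the two evaluations have the same kernel);
* (A1) `dscig_exists_sep` : `¬ DscigRel A ξ ξ' → ∃ a ∈ A, a ξ ≠ 0 ∧ a ξ' = 0`;
* (A2) `dscig_sum_order` : for a class `O` and a unit `u` of `A` : `∑_{ξ ∈ O} ord (u ξ) = 0`;
* (A2') `dscig_rel_of_endo` : stability of the classes under semilinear symmetries;
* (A3) `dscig_exists_primitive` : if `X` is ONE class and `ξ₀` is separated from every other `ξ`,
  then some `a ∈ A` has `∏_ξ (Y - a ξ)` = the minimal polynomial of `a ξ₀` over `Frac k[J]`,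
  irreducible and separable of degree `|X|`, and every `b ξ₀` (`b ∈ A`) is a polynomial in `a ξ₀` over
  `Frac k[J]`.
-/

set_option autoImplicit false
set_option linter.style.haveILetI false

noncomputable section

namespace Fermat.Agent.DS

open Polynomial Fermat.Agent.S28

variable {k : Type*} [Field k]
variable {X : Type*} [Fintype X] [DecidableEq X]

/-- the standing hypotheses on the ring `A` of families of conjugates. -/
structure DscigAlg (J : LaurentSeries k) (A : Subring (X → LaurentSeries k)) : Prop where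
  order_neg : J.order < 0
  const_mem : ∀ c : k, (fun _ : X => algebraMap k (LaurentSeries k) c) ∈ A
  J_mem : (fun _ : X => J) ∈ A
  prod_mem : ∀ a ∈ A, ∀ i : ℕ,
    (∏ ξ : X, (Polynomial.X - Polynomial.C (a ξ))).coeff i ∈ polyRange J

variable {J : LaurentSeries k} {A : Subring (X → LaurentSeries k)}

omit [Fintype X] [DecidableEq X] in
theorem dscig_const_mem (hc : ∀ c : k, (fun _ : X => algebraMap k (LaurentSeries k) c) ∈ A)
    (hJ : (fun _ : X => J) ∈ A) (p : k[X]) :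
    (fun _ : X => Polynomial.aeval J p) ∈ A := by
  induction p using Polynomial.induction_on' with
  | add p q hp hq =>
    have e : (fun _ : X => Polynomial.aeval J (p + q)) =
        (fun _ : X => Polynomial.aeval J p) + (fun _ : X => Polynomial.aeval J q) := by
      funext ξ
      simp
    rw [e]
    exact A.add_mem hp hq
  | monomial n c =>
    have e : (fun _ : X => Polynomial.aeval J (Polynomial.monomial n c)) =
        (fun _ : X => algebraMap k (LaurentSeries k) c) * (fun _ : X => J) ^ n := by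
      funext ξ
      simp [Polynomial.aeval_monomial]
    rw [e]
    exact A.mul_mem (hc c) (A.pow_mem hJ n)

omit [Fintype X] [DecidableEq X] in
theorem dscig_eval_mem (hc : ∀ c : k, (fun _ : X => algebraMap k (LaurentSeries k) c) ∈ A)
    (hJ : (fun _ : X => J) ∈ A) (F : k[X][X]) {a : X → LaurentSeries k} (ha : a ∈ A) :
    (fun ξ : X => F.eval₂ (keyabsHom J) (a ξ)) ∈ A := by
  have e : (fun ξ : X => F.eval₂ (keyabsHom J) (a ξ)) =
      ∑ i ∈ Finset.range (F.natDegree + 1),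
        (fun _ : X => Polynomial.aeval J (F.coeff i)) * a ^ i := by
    funext ξ
    rw [Polynomial.eval₂_eq_sum_range, Finset.sum_apply]
    apply Finset.sum_congr rfl
    intro i _
    rfl
  rw [e]
  exact A.sum_mem fun i _ => A.mul_mem (dscig_const_mem hc hJ _) (A.pow_mem ha i)

/-- the two evaluations `ξ`, `ξ'` have the same kernel on `A`. -/
def DscigRel (A : Subring (X → LaurentSeries k)) (ξ ξ' : X) : Prop :=
  ∀ a ∈ A, (a ξ = 0 ↔ a ξ' = 0)

omit [Fintype X] [DecidableEq X] in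
theorem DscigRel.refl (ξ : X) : DscigRel A ξ ξ := fun _ _ => Iff.rfl

omit [Fintype X] [DecidableEq X] in
theorem DscigRel.symm {ξ ξ' : X} (h : DscigRel A ξ ξ') : DscigRel A ξ' ξ :=
  fun a ha => (h a ha).symm

omit [Fintype X] [DecidableEq X] in
theorem DscigRel.trans {ξ ξ' ξ'' : X} (h : DscigRel A ξ ξ') (h' : DscigRel A ξ' ξ'') :
    DscigRel A ξ ξ'' :=
  fun a ha => (h a ha).trans (h' a ha)

omit [DecidableEq X] in
theorem dscig_eval_prod_eq_zero (a : X → LaurentSeries k) (ξ : X) :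
    (∏ ξ' : X, (Polynomial.X - Polynomial.C (a ξ'))).eval (a ξ) = 0 := by
  rw [Polynomial.eval_prod]
  apply Finset.prod_eq_zero (Finset.mem_univ ξ)
  simp

omit [DecidableEq X] in
/-- (A1, flip) -/
theorem dscig_flip (h : DscigAlg J A) {a : X → LaurentSeries k} (ha : a ∈ A) {ξ ξ' : X}
    (h1 : a ξ ≠ 0) (h2 : a ξ' = 0) : ∃ b ∈ A, b ξ = 0 ∧ b ξ' ≠ 0 := by
  obtain ⟨Φ₀, hΦ₀m, hΦ₀⟩ := keyabs_lift_monic J _
    (Polynomial.monic_prod_of_monic _ _ fun ξ _ => Polynomial.monic_X_sub_C (a ξ))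
    (h.prod_mem a ha)
  obtain ⟨Ψ₀, hΨ₀, hnd⟩ :=
    Polynomial.exists_eq_pow_rootMultiplicity_mul_and_not_dvd Φ₀ hΦ₀m.ne_zero 0
  set n := Polynomial.rootMultiplicity 0 Φ₀
  rw [Polynomial.C_0, sub_zero] at hΨ₀ hnd
  have hev : ∀ y : LaurentSeries k, Φ₀.eval₂ (keyabsHom J) y =
      y ^ n * Ψ₀.eval₂ (keyabsHom J) y := by
    intro y
    conv_lhs => rw [hΨ₀]
    rw [Polynomial.eval₂_mul, Polynomial.eval₂_pow, Polynomial.eval₂_X]
  have hroot : ∀ ξ'' : X, Φ₀.eval₂ (keyabsHom J) (a ξ'') = 0 := by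
    intro ξ''
    rw [← Polynomial.eval_map, hΦ₀]
    exact dscig_eval_prod_eq_zero a ξ''
  refine ⟨fun ξ'' => Ψ₀.eval₂ (keyabsHom J) (a ξ''),
    dscig_eval_mem h.const_mem h.J_mem Ψ₀ ha, ?_, ?_⟩
  · have h3 := hroot ξ
    rw [hev] at h3
    exact (mul_eq_zero.1 h3).resolve_left (pow_ne_zero n h1)
  · show Ψ₀.eval₂ (keyabsHom J) (a ξ') ≠ 0
    rw [h2, Polynomial.eval₂_at_zero]
    intro h0
    apply hnd
    rw [Polynomial.X_dvd_iff]
    exact keyabs_hom_injective J h.order_neg (by rw [h0, map_zero])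

omit [DecidableEq X] in
/-- (A1) two inequivalent points are separated by an element of `A` vanishing at the second. -/
theorem dscig_exists_sep (h : DscigAlg J A) {ξ ξ' : X} (hne : ¬ DscigRel A ξ ξ') :
    ∃ a ∈ A, a ξ ≠ 0 ∧ a ξ' = 0 := by
  by_contra hcon
  apply hne
  intro a ha
  constructor
  · intro h0
    by_contra h1
    obtain ⟨b, hb, hb1, hb2⟩ := dscig_flip h ha h1 h0
    exact hcon ⟨b, hb, hb2, hb1⟩
  · intro h1
    by_contra h0
    exact hcon ⟨a, ha, h0, h1⟩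

/-- the partial norm of an element vanishing off `O` lies in `k[J]`. -/
theorem dscig_norm_mem (h : DscigAlg J A) (O : Finset X) {b : X → LaurentSeries k} (hb : b ∈ A)
    (hb0 : ∀ ξ, ξ ∉ O → b ξ = 0) : ∏ ξ ∈ O, b ξ ∈ polyRange J := by
  have h1 : (∏ ξ : X, (Polynomial.X - Polynomial.C (b ξ))) =
      (∏ ξ ∈ O, (Polynomial.X - Polynomial.C (b ξ))) * Polynomial.X ^ (Oᶜ).card := by
    rw [← Finset.prod_mul_prod_compl O]
    congr 1
    rw [← Finset.prod_const]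
    apply Finset.prod_congr rfl
    intro ξ hξ
    rw [hb0 ξ (Finset.mem_compl.1 hξ), Polynomial.C_0, sub_zero]
  have h2 := h.prod_mem b hb (0 + (Oᶜ).card)
  rw [h1, Polynomial.coeff_mul_X_pow, Polynomial.coeff_zero_eq_eval_zero, Polynomial.eval_prod] at h2
  simp only [Polynomial.eval_sub, Polynomial.eval_X, Polynomial.eval_C, zero_sub] at h2
  rw [Finset.prod_neg] at h2
  have h3 : ∏ ξ ∈ O, b ξ = (-1) ^ O.card * ((-1) ^ O.card * ∏ ξ ∈ O, b ξ) := by
    rw [← mul_assoc, ← pow_add, ← two_mul, pow_mul]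
    simp
  rw [h3]
  exact (polyRange J).mul_mem ((polyRange J).pow_mem ((polyRange J).neg_mem (polyRange J).one_mem) _) h2

omit [DecidableEq X] in
/-- an element of `A` vanishing exactly off the class `O`. -/
theorem dscig_exists_indicator (h : DscigAlg J A) (O : Finset X)
    (hO : ∀ ξ ∈ O, ∀ ξ', ξ' ∈ O ↔ DscigRel A ξ ξ') :
    ∃ b ∈ A, (∀ ξ ∈ O, b ξ ≠ 0) ∧ ∀ ξ, ξ ∉ O → b ξ = 0 := by
  classical
  rcases O.eq_empty_or_nonempty with hemp | ⟨ξ₁, hξ₁⟩
  · subst hemp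
    exact ⟨0, A.zero_mem, fun ξ hξ => absurd hξ (Finset.notMem_empty ξ), fun _ _ => rfl⟩
  have hb : ∀ ξ' : X, ∃ b ∈ A, b ξ₁ ≠ 0 ∧ (ξ' ∉ O → b ξ' = 0) := by
    intro ξ'
    by_cases hξ' : ξ' ∈ O
    · exact ⟨1, A.one_mem, one_ne_zero, fun h => absurd hξ' h⟩
    · obtain ⟨b, hbA, h1, h2⟩ := dscig_exists_sep h (fun hr => hξ' ((hO ξ₁ hξ₁ ξ').2 hr))
      exact ⟨b, hbA, h1, fun _ => h2⟩
  choose bf hbfA hbf1 hbf2 using hb
  refine ⟨∏ ξ' ∈ Oᶜ, bf ξ', A.prod_mem fun ξ' _ => hbfA ξ', ?_, ?_⟩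
  · intro ξ hξ
    rw [Finset.prod_apply, Finset.prod_ne_zero_iff]
    intro ξ' _ h0
    exact hbf1 ξ' (((hO ξ₁ hξ₁ ξ).1 hξ (bf ξ') (hbfA ξ')).2 h0)
  · intro ξ hξ
    rw [Finset.prod_apply]
    exact Finset.prod_eq_zero (Finset.mem_compl.2 hξ) (hbf2 ξ hξ)

/-- (A2), general form: if some `b ∈ A` vanishes exactly off `O`, then for a unit `u` of `A` the orders
of the `u ξ`, `ξ ∈ O`, sum to zero. -/
theorem dscig_sum_order_of_indicator (h : DscigAlg J A) (O : Finset X)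
    {b : X → LaurentSeries k} (hbA : b ∈ A) (hb1 : ∀ ξ ∈ O, b ξ ≠ 0) (hb0 : ∀ ξ, ξ ∉ O → b ξ = 0)
    {u u' : X → LaurentSeries k} (hu : u ∈ A) (hu' : u' ∈ A) (huu' : ∀ ξ, u ξ * u' ξ = 1) :
    ∑ ξ ∈ O, (u ξ).order = 0 := by
  have hu0 : ∀ ξ, u ξ ≠ 0 := fun ξ h0 => by
    have := huu' ξ
    rw [h0, zero_mul] at this
    exact zero_ne_one this
  have hu'inv : ∀ ξ, u' ξ = (u ξ)⁻¹ := fun ξ => eq_inv_of_mul_eq_one_right (huu' ξ)
  obtain ⟨p₁, hp₁⟩ := dscig_norm_mem h O hbA hb0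
  obtain ⟨p₂, hp₂⟩ := dscig_norm_mem h O (A.mul_mem hbA hu)
    (fun ξ hξ => by rw [Pi.mul_apply, hb0 ξ hξ, zero_mul])
  have hprodb : ∏ ξ ∈ O, b ξ ≠ 0 := Finset.prod_ne_zero_iff.mpr hb1
  have huprod : ∏ ξ ∈ O, u ξ ≠ 0 := Finset.prod_ne_zero_iff.mpr fun ξ _ => hu0 ξ
  have hinj := keyabs_hom_injective J h.order_neg
  set φ : FractionRing k[X] →+* LaurentSeries k := IsFractionRing.lift hinj with hφdef
  have hφ : φ.comp (algebraMap k[X] (FractionRing k[X])) = keyabsHom J :=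
    RingHom.ext fun p => by rw [RingHom.comp_apply, hφdef, IsFractionRing.lift_algebraMap]
  have hφa : ∀ p : k[X], φ (algebraMap k[X] (FractionRing k[X]) p) = Polynomial.aeval J p := by
    intro p
    rw [← RingHom.comp_apply, hφ]
    rfl
  set z : FractionRing k[X] := algebraMap k[X] (FractionRing k[X]) p₂ /
    algebraMap k[X] (FractionRing k[X]) p₁ with hzdef
  have hφz : φ z = ∏ ξ ∈ O, u ξ := by
    rw [hzdef, map_div₀, hφa, hφa]
    have e1 : (Polynomial.aeval J) p₁ = ∏ ξ ∈ O, b ξ := hp₁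
    have e2 : (Polynomial.aeval J) p₂ = ∏ ξ ∈ O, (b * u) ξ := hp₂
    rw [e1, e2]
    simp only [Pi.mul_apply]
    rw [Finset.prod_mul_distrib, mul_div_cancel_left₀ _ hprodb]
  have hz : z ≠ 0 := by
    intro h0
    rw [h0, map_zero] at hφz
    exact huprod hφz.symm
  have hφc : ∀ c : k, c ≠ 0 →
      HahnSeries.addVal ℤ k (φ (algebraMap k[X] (FractionRing k[X]) (C c))) = 0 := by
    intro c hc
    have h1 : φ (algebraMap k[X] (FractionRing k[X]) (C c)) = keyabsHom J (C c) := by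
      rw [← hφ]
      rfl
    rw [h1, keyabs_hom_const]
    exact keyabs_val_const c hc
  have hint1 : (φ.comp (algebraMap k[X] (FractionRing k[X]))).IsIntegralElem (φ z) := by
    rw [hφ, hφz]
    exact key_isIntegralElem_prod _ O _ fun ξ _ => keyabs_isIntegralElem J u (h.prod_mem u hu) ξ
  have hint2 : (φ.comp (algebraMap k[X] (FractionRing k[X]))).IsIntegralElem (φ z)⁻¹ := by
    rw [hφ, hφz, ← Finset.prod_inv_distrib]
    refine key_isIntegralElem_prod _ O _ fun ξ _ => ?_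
    rw [← hu'inv ξ]
    exact keyabs_isIntegralElem J u' (h.prod_mem u' hu') ξ
  have h3 := key_val_eq_zero (HahnSeries.addVal ℤ k) φ hφc hz hint1 hint2
  rw [hφz, key_val_prod,
    Finset.sum_congr rfl (fun ξ _ => HahnSeries.addVal_apply_of_ne (hu0 ξ)),
    ← WithTop.coe_sum, ← WithTop.coe_zero, WithTop.coe_eq_coe] at h3
  exact h3

/-- **(A2)** for a class `O` of `DscigRel` and a unit `u` of `A`, the orders of the `u ξ`, `ξ ∈ O`,
sum to zero. -/
theorem dscig_sum_order (h : DscigAlg J A) (O : Finset X)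
    (hO : ∀ ξ ∈ O, ∀ ξ', ξ' ∈ O ↔ DscigRel A ξ ξ')
    {u u' : X → LaurentSeries k} (hu : u ∈ A) (hu' : u' ∈ A) (huu' : ∀ ξ, u ξ * u' ξ = 1) :
    ∑ ξ ∈ O, (u ξ).order = 0 := by
  obtain ⟨b, hbA, hb1, hb0⟩ := dscig_exists_indicator h O hO
  exact dscig_sum_order_of_indicator h O hbA hb1 hb0 hu hu' huu'

/-- (A2) for the whole of `X`. -/
theorem dscig_sum_order_univ (h : DscigAlg J A)
    {u u' : X → LaurentSeries k} (hu : u ∈ A) (hu' : u' ∈ A) (huu' : ∀ ξ, u ξ * u' ξ = 1) :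
    ∑ ξ : X, (u ξ).order = 0 :=
  dscig_sum_order_of_indicator h Finset.univ A.one_mem (fun _ _ => one_ne_zero)
    (fun ξ hξ => absurd (Finset.mem_univ ξ) hξ) hu hu' huu'

omit [Fintype X] [DecidableEq X] in
/-- **(A2')** a symmetry `T` of `X` covered by an injective endomorphism `θ` of `k((s))` preserves
the classes. -/
theorem dscig_rel_of_endo (θ : LaurentSeries k →+* LaurentSeries k) (T : X → X)
    (hθ : ∀ a ∈ A, ∀ ξ, a (T ξ) = θ (a ξ)) (ξ : X) : DscigRel A ξ (T ξ) := by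
  intro a ha
  rw [hθ a ha ξ]
  exact (map_eq_zero_iff θ θ.injective).symm

/-! ### (A3) the endgame -/

omit [Fintype X] [DecidableEq X] in
theorem dscig_pow_injective (hJ : J.order < 0) : Function.Injective (fun n : ℕ => J ^ n) := by
  have hJ0 : J ≠ 0 := by
    rintro rfl
    simp at hJ
  intro n m hnm
  have h1 := keyabs_val_pow J hJ0 n
  have h2 := keyabs_val_pow J hJ0 m
  simp only at hnm
  rw [hnm, h2, WithTop.coe_eq_coe] at h1
  have h3 : (m : ℤ) = n := mul_right_cancel₀ hJ.ne h1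
  exact_mod_cast h3.symm

/-- a single element of `A` separating `ξ₀` from all the other points. -/
theorem dscig_exists_sep_all (h : DscigAlg J A) (ξ₀ : X)
    (hsep : ∀ ξ, ξ ≠ ξ₀ → ∃ a ∈ A, a ξ ≠ a ξ₀) (S : Finset X) :
    ∃ a ∈ A, ∀ ξ ∈ S, ξ ≠ ξ₀ → a ξ ≠ a ξ₀ := by
  classical
  induction S using Finset.induction_on with
  | empty => exact ⟨0, A.zero_mem, fun ξ hξ => absurd hξ (Finset.notMem_empty ξ)⟩
  | insert ξ₁ S' hξ₁ ih =>
    obtain ⟨a, haA, ha⟩ := ih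
    by_cases h10 : ξ₁ = ξ₀
    · refine ⟨a, haA, fun ξ hξ hne => ?_⟩
      rcases Finset.mem_insert.1 hξ with rfl | hξ'
      · exact absurd h10 hne
      · exact ha ξ hξ' hne
    obtain ⟨a₁, ha₁A, ha₁⟩ := hsep ξ₁ h10
    -- the bad exponents
    set bad : X → ℕ → Prop := fun ξ n =>
      (a ξ - a ξ₀) + J ^ n * (a₁ ξ - a₁ ξ₀) = 0 with hbad
    have huniq : ∀ ξ ∈ insert ξ₁ S', ξ ≠ ξ₀ → ∀ n m, bad ξ n → bad ξ m → n = m := by
      intro ξ hξ hne n m hn hm
      by_cases hd : a₁ ξ - a₁ ξ₀ = 0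
      · exfalso
        rcases Finset.mem_insert.1 hξ with rfl | hξ'
        · exact ha₁ (sub_eq_zero.1 hd)
        · have h1 : bad ξ n := hn
          simp only [hbad, hd, mul_zero, add_zero] at h1
          exact ha ξ hξ' hne (sub_eq_zero.1 h1)
      · have h1 : (J ^ n - J ^ m) * (a₁ ξ - a₁ ξ₀) = 0 := by
          have e1 : (a ξ - a ξ₀) + J ^ n * (a₁ ξ - a₁ ξ₀) = 0 := hn
          have e2 : (a ξ - a ξ₀) + J ^ m * (a₁ ξ - a₁ ξ₀) = 0 := hm
          linear_combination e1 - e2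
        have h2 : J ^ n = J ^ m := sub_eq_zero.1 ((mul_eq_zero.1 h1).resolve_right hd)
        exact dscig_pow_injective h.order_neg h2
    set f : X → ℕ := fun ξ => if hex : ∃ n, bad ξ n then hex.choose else 0 with hf
    obtain ⟨n₀, hn₀⟩ := Infinite.exists_notMem_finset ((insert ξ₁ S').image f)
    refine ⟨a + (fun _ : X => J) ^ n₀ * a₁, A.add_mem haA (A.mul_mem (A.pow_mem h.J_mem n₀) ha₁A),
      fun ξ hξ hne heq => ?_⟩
    have hb : bad ξ n₀ := by
      have e : a ξ + J ^ n₀ * a₁ ξ = a ξ₀ + J ^ n₀ * a₁ ξ₀ := heq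
      show (a ξ - a ξ₀) + J ^ n₀ * (a₁ ξ - a₁ ξ₀) = 0
      linear_combination e
    have hex : ∃ n, bad ξ n := ⟨n₀, hb⟩
    have hfξ : f ξ = hex.choose := by
      rw [hf]
      simp only
      rw [dif_pos hex]
    have h1 : n₀ = f ξ := by
      rw [hfξ]
      exact huniq ξ hξ hne _ _ hb hex.choose_spec
    exact hn₀ (Finset.mem_image.2 ⟨ξ, hξ, h1.symm⟩)

omit [DecidableEq X] in
/-- the trace of an element of `A` lies in `k[J]`. -/
theorem dscig_trace_mem (h : DscigAlg J A) [Nonempty X] {c : X → LaurentSeries k} (hc : c ∈ A) :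
    ∑ ξ : X, c ξ ∈ polyRange J := by
  have h1 := Polynomial.prod_X_sub_C_nextCoeff (s := (Finset.univ : Finset X)) c
  have hdeg : (∏ ξ : X, (Polynomial.X - Polynomial.C (c ξ))).natDegree = Fintype.card X := by
    rw [Polynomial.natDegree_finsetProd_X_sub_C_eq_card, Finset.card_univ]
  have hpos : 0 < (∏ ξ : X, (Polynomial.X - Polynomial.C (c ξ))).natDegree := by
    rw [hdeg]
    exact Fintype.card_pos
  rw [Polynomial.nextCoeff_of_natDegree_pos hpos] at h1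
  have h2 := h.prod_mem c hc ((∏ ξ : X, (Polynomial.X - Polynomial.C (c ξ))).natDegree - 1)
  rw [h1] at h2
  have h3 := (polyRange J).neg_mem h2
  rwa [neg_neg] at h3

/-- the Lagrange numerator `∑_ξ b ξ ∏_{ξ' ≠ ξ} (Y - a ξ')` has coefficients in `k[J]`. -/
theorem dscig_lagrange_mem (h : DscigAlg J A) [Nonempty X] {a b : X → LaurentSeries k}
    (ha : a ∈ A) (hb : b ∈ A) (m : ℕ) :
    (∑ ξ : X, Polynomial.C (b ξ) *
      ∏ ξ' ∈ Finset.univ.erase ξ, (Polynomial.X - Polynomial.C (a ξ'))).coeff m ∈ polyRange J := by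
  set Φ : (LaurentSeries k)[X] := ∏ ξ : X, (Polynomial.X - Polynomial.C (a ξ)) with hΦ
  have hdiv : ∀ ξ : X, ∏ ξ' ∈ Finset.univ.erase ξ, (Polynomial.X - Polynomial.C (a ξ')) =
      Φ /ₘ (Polynomial.X - Polynomial.C (a ξ)) := by
    intro ξ
    rw [hΦ, ← Finset.mul_prod_erase Finset.univ _ (Finset.mem_univ ξ),
      Polynomial.mul_divByMonic_cancel_left _ (Polynomial.monic_X_sub_C (a ξ))]
  rw [Polynomial.finsetSum_coeff]
  have e : ∀ ξ : X, (Polynomial.C (b ξ) *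
      ∏ ξ' ∈ Finset.univ.erase ξ, (Polynomial.X - Polynomial.C (a ξ'))).coeff m =
      ∑ i ∈ Finset.Icc (m + 1) Φ.natDegree, Φ.coeff i * (b * a ^ (i - (m + 1))) ξ := by
    intro ξ
    rw [Polynomial.coeff_C_mul, hdiv, Polynomial.coeff_divByMonic_X_sub_C, Finset.mul_sum]
    apply Finset.sum_congr rfl
    intro i _
    rw [Pi.mul_apply, Pi.pow_apply]
    ring
  rw [Finset.sum_congr rfl (fun ξ _ => e ξ), Finset.sum_comm]
  refine (polyRange J).sum_mem fun i _ => ?_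
  rw [← Finset.mul_sum]
  exact (polyRange J).mul_mem (h.prod_mem a ha i)
    (dscig_trace_mem h (A.mul_mem hb (A.pow_mem ha _)))

/-- **(A3)** if `X` is one class and `ξ₀` is separated from every other point, then some `a ∈ A` has
`∏_ξ (Y - a ξ)` irreducible and separable over `Frac k[J]`, and every `b ξ` is the value at `a ξ` of
a fixed rational expression over `Frac k[J]`. -/
theorem dscig_exists_primitive (h : DscigAlg J A) (ξ₀ : X)
    (hone : ∀ a ∈ A, a ξ₀ = 0 → ∀ ξ, a ξ = 0)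
    (hsep : ∀ ξ, ξ ≠ ξ₀ → ∃ a ∈ A, a ξ ≠ a ξ₀)
    {K₀ : Type*} [Field K₀] [Algebra k[X] K₀] [IsFractionRing k[X] K₀]
    (φ : K₀ →+* LaurentSeries k) (hφ : φ.comp (algebraMap k[X] K₀) = keyabsHom J) :
    ∃ a ∈ A, ∃ Φ : K₀[X], Φ.Monic ∧ Irreducible Φ ∧ Φ.Separable ∧
      Φ.map φ = ∏ ξ : X, (Polynomial.X - Polynomial.C (a ξ)) ∧ Function.Injective a ∧
      ∀ b ∈ A, ∃ G : K₀[X], ∀ ξ, b ξ * (derivative Φ).eval₂ φ (a ξ) = G.eval₂ φ (a ξ) := by
  have : Nonempty X := ⟨ξ₀⟩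
  obtain ⟨a, haA, hasep'⟩ := dscig_exists_sep_all h ξ₀ hsep Finset.univ
  have hasep : ∀ ξ, ξ ≠ ξ₀ → a ξ ≠ a ξ₀ := fun ξ hne => hasep' ξ (Finset.mem_univ ξ) hne
  obtain ⟨Φ₀, hΦ₀m, hΦ₀⟩ := keyabs_lift_monic J _
    (Polynomial.monic_prod_of_monic _ _ fun ξ _ => Polynomial.monic_X_sub_C (a ξ))
    (h.prod_mem a haA)
  set Φ : K₀[X] := Φ₀.map (algebraMap k[X] K₀) with hΦdef
  have hΦm : Φ.Monic := hΦ₀m.map _
  have hΦmap : Φ.map φ = ∏ ξ : X, (Polynomial.X - Polynomial.C (a ξ)) := by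
    rw [hΦdef, Polynomial.map_map, hφ, hΦ₀]
  letI : Algebra K₀ (LaurentSeries k) := φ.toAlgebra
  have halg : algebraMap K₀ (LaurentSeries k) = φ := RingHom.algebraMap_toAlgebra φ
  have hroot : ∀ ξ, Φ.eval₂ φ (a ξ) = 0 := fun ξ => by
    rw [← Polynomial.eval_map, hΦmap]
    exact dscig_eval_prod_eq_zero a ξ
  have hintg : ∀ ξ, IsIntegral K₀ (a ξ) := fun ξ => ⟨Φ, hΦm, by rw [halg]; exact hroot ξ⟩
  set μ := minpoly K₀ (a ξ₀) with hμdef
  have hμm : μ.Monic := minpoly.monic (hintg ξ₀)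
  have hμirr : Irreducible μ := minpoly.irreducible (hintg ξ₀)
  have hμdvd : μ ∣ Φ := minpoly.dvd K₀ (a ξ₀) (by rw [Polynomial.aeval_def, halg]; exact hroot ξ₀)
  have hμev0 : Polynomial.eval₂ φ (a ξ₀) μ = 0 := by
    rw [← halg, ← Polynomial.aeval_def]
    exact minpoly.aeval K₀ (a ξ₀)
  have hAinj : Function.Injective (algebraMap k[X] K₀) := IsFractionRing.injective k[X] K₀
  -- every `a ξ` is a root of `μ`
  have hμroot : ∀ ξ, μ.eval₂ φ (a ξ) = 0 := by
    obtain ⟨b, hbM, hb⟩ := IsLocalization.integerNormalization_spec (nonZeroDivisors k[X]) μ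
    set μ₀ : k[X][X] := IsLocalization.integerNormalization (nonZeroDivisors k[X]) μ with hμ₀def
    have hb0 : algebraMap k[X] K₀ (b : k[X]) ≠ 0 := by
      intro h0
      have h1 : (b : k[X]) = 0 := hAinj (by rw [h0, map_zero])
      exact nonZeroDivisors.ne_zero hbM h1
    have hμ₀ev : ∀ z : LaurentSeries k, μ₀.eval₂ (keyabsHom J) z =
        φ (algebraMap k[X] K₀ (b : k[X])) * Polynomial.eval₂ φ z μ := by
      intro z
      have h1 : μ₀.eval₂ (keyabsHom J) z = (μ₀.map (algebraMap k[X] K₀)).eval₂ φ z := by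
        rw [Polynomial.eval₂_map, hφ]
      rw [h1, hb, Algebra.smul_def, Polynomial.algebraMap_apply, Polynomial.eval₂_mul,
        Polynomial.eval₂_C]
    have hφb0 : φ (algebraMap k[X] K₀ (b : k[X])) ≠ 0 := by
      rw [Ne, map_eq_zero]
      exact hb0
    have h0 := hone _ (dscig_eval_mem h.const_mem h.J_mem μ₀ haA)
      (by show μ₀.eval₂ (keyabsHom J) (a ξ₀) = 0; rw [hμ₀ev, hμev0, mul_zero])
    intro ξ
    have h1 : μ₀.eval₂ (keyabsHom J) (a ξ) = 0 := h0 ξ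
    rw [hμ₀ev] at h1
    exact (mul_eq_zero.1 h1).resolve_left hφb0
  have hsimple : ∏ ξ ∈ Finset.univ.erase ξ₀, (a ξ₀ - a ξ) ≠ 0 :=
    Finset.prod_ne_zero_iff.mpr fun ξ hξ =>
      sub_ne_zero.mpr (hasep ξ (Finset.ne_of_mem_erase hξ)).symm
  have hprodne : (∏ ξ : X, (Polynomial.X - Polynomial.C (a ξ)) : (LaurentSeries k)[X]) ≠ 0 :=
    Finset.prod_ne_zero_iff.mpr fun ξ _ => Polynomial.X_sub_C_ne_zero (a ξ)
  -- `Φ = μ`
  obtain ⟨Q, hQ⟩ := hμdvd
  have hQm : Q.Monic := hμm.of_mul_monic_left (hQ ▸ hΦm)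
  have hQ1 : Q = 1 := by
    by_contra hQne
    have hQdeg : (Q.map φ).degree ≠ 0 := by
      rw [Polynomial.degree_map]
      intro h0
      exact hQne (hQm.degree_le_zero_iff_eq_one.1 h0.le)
    have hQ'dvd : Q.map φ ∣ ∏ ξ : X, (Polynomial.X - Polynomial.C (a ξ)) := by
      rw [← hΦmap, hQ, Polynomial.map_mul]
      exact dvd_mul_left _ _
    have hsplit : (Q.map φ).Splits :=
      (Polynomial.Splits.prod fun g _ => Polynomial.Splits.X_sub_C (a g)).of_dvd hprodne hQ'dvd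
    obtain ⟨y, hy⟩ := hsplit.exists_eval_eq_zero hQdeg
    have hy2 : (∏ ξ : X, (Polynomial.X - Polynomial.C (a ξ))).eval y = 0 :=
      Polynomial.eval_eq_zero_of_dvd_of_eval_eq_zero hQ'dvd hy
    rw [Polynomial.eval_prod, Finset.prod_eq_zero_iff] at hy2
    obtain ⟨ξ₁, -, hξ₁⟩ := hy2
    rw [Polynomial.eval_sub, Polynomial.eval_X, Polynomial.eval_C, sub_eq_zero] at hξ₁
    subst hξ₁
    have h1 : minpoly K₀ (a ξ₁) ∣ μ :=
      minpoly.dvd K₀ (a ξ₁) (by rw [Polynomial.aeval_def, halg]; exact hμroot ξ₁)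
    have h2 : minpoly K₀ (a ξ₁) ∣ Q :=
      minpoly.dvd K₀ (a ξ₁) (by rw [Polynomial.aeval_def, halg, ← Polynomial.eval_map]; exact hy)
    have h3 : minpoly K₀ (a ξ₁) = μ :=
      Polynomial.eq_of_monic_of_associated (minpoly.monic (hintg ξ₁)) hμm
        ((minpoly.irreducible (hintg ξ₁)).associated_of_dvd hμirr h1)
    have h4 : μ * μ ∣ Φ := by
      rw [hQ]
      exact mul_dvd_mul_left μ (h3 ▸ h2)
    have h5 : (Polynomial.X - Polynomial.C (a ξ₀)) ∣ μ.map φ :=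
      Polynomial.dvd_iff_isRoot.mpr (by rw [Polynomial.IsRoot, Polynomial.eval_map]; exact hμev0)
    have h6 : (Polynomial.X - Polynomial.C (a ξ₀)) * (Polynomial.X - Polynomial.C (a ξ₀)) ∣
        ∏ ξ : X, (Polynomial.X - Polynomial.C (a ξ)) := by
      rw [← hΦmap]
      refine (mul_dvd_mul h5 h5).trans ?_
      rw [← Polynomial.map_mul]
      exact Polynomial.map_dvd φ h4
    rw [← Finset.mul_prod_erase Finset.univ _ (Finset.mem_univ ξ₀)] at h6
    have h7 : (Polynomial.X - Polynomial.C (a ξ₀)) ∣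
        ∏ ξ ∈ Finset.univ.erase ξ₀, (Polynomial.X - Polynomial.C (a ξ)) :=
      (mul_dvd_mul_iff_left (Polynomial.X_sub_C_ne_zero (a ξ₀))).mp h6
    rw [Polynomial.dvd_iff_isRoot, Polynomial.IsRoot, Polynomial.eval_prod] at h7
    simp only [Polynomial.eval_sub, Polynomial.eval_X, Polynomial.eval_C] at h7
    exact hsimple h7
  have hΦμ : Φ = μ := by rw [hQ, hQ1, mul_one]
  have hΦirr : Irreducible Φ := hΦμ ▸ hμirr
  -- derivative
  have hder : ∀ ξ, (derivative Φ).eval₂ φ (a ξ) =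
      ∏ ξ'' ∈ Finset.univ.erase ξ, (a ξ - a ξ'') := by
    intro ξ
    rw [← Polynomial.eval_map, ← Polynomial.derivative_map, hΦmap]
    exact keyabs_eval_derivative a ξ
  have hΦsep : Φ.Separable := by
    rw [Polynomial.separable_iff_derivative_ne_zero hΦirr]
    intro h0
    have h1 := hder ξ₀
    rw [h0, Polynomial.eval₂_zero] at h1
    exact hsimple h1.symm
  have hinj : Function.Injective a := by
    have h1 : (Φ.map φ).Separable := hΦsep.map
    rw [hΦmap] at h1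
    exact Polynomial.separable_prod_X_sub_C_iff.mp h1
  refine ⟨a, haA, Φ, hΦm, hΦirr, hΦsep, hΦmap, hinj, fun b hbA => ?_⟩
  obtain ⟨G₀, hG₀⟩ := keyabs_lift J _ (dscig_lagrange_mem h haA hbA)
  refine ⟨G₀.map (algebraMap k[X] K₀), fun ξ => ?_⟩
  rw [hder, Polynomial.eval₂_map, hφ, ← Polynomial.eval_map, hG₀]
  exact (keyabs_eval_lagrange a b ξ).symm

end Fermat.Agent.DS
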