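import Mathlib

/-!
# Program DS (S48), package (C), row C3 (Igusa for `X₁(M)`): the action of `SL(2, ℤ)` on row vectors
`v = (r, t) ∈ (ℤ/M)²` and admissible pairs of vectors (conventions (C1), (C3) of the row chief).  (helper2)
-/

set_option autoImplicit false

open scoped MatrixGroups

namespace Fermat.Agent.DS

/-- `v · γ` for a row vector `v = (r, t) ∈ (ℤ/M)²`. -/
def dscigAct (M : ℕ) (γ : SL(2, ℤ)) (v : ZMod M × ZMod M) : ZMod M × ZMod M :=
  (v.1 * (γ 0 0 : ZMod M) + v.2 * (γ 1 0 : ZMod M), v.1 * (γ 0 1 : ZMod M) + v.2 * (γ 1 1 : ZMod M))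

/-- admissible pairs of vectors: `v, w ≠ 0`, `v ≠ ±w`. -/
def DscigAdm (M : ℕ) (v w : ZMod M × ZMod M) : Prop := v ≠ 0 ∧ w ≠ 0 ∧ v ≠ w ∧ v ≠ -w

theorem dscig_sl_det (γ : SL(2, ℤ)) : γ 0 0 * γ 1 1 - γ 0 1 * γ 1 0 = 1 := by
  have := γ.det_coe
  rwa [Matrix.det_fin_two] at this

theorem dscigAct_one (M : ℕ) (v : ZMod M × ZMod M) : dscigAct M 1 v = v := by
  unfold dscigAct
  ext <;> simp

theorem dscigAct_mul (M : ℕ) (γ δ : SL(2, ℤ)) (v : ZMod M × ZMod M) :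
    dscigAct M (γ * δ) v = dscigAct M δ (dscigAct M γ v) := by
  unfold dscigAct
  ext
  · simp only [Matrix.SpecialLinearGroup.coe_mul, Matrix.mul_apply, Fin.sum_univ_two]
    push_cast
    ring
  · simp only [Matrix.SpecialLinearGroup.coe_mul, Matrix.mul_apply, Fin.sum_univ_two]
    push_cast
    ring

theorem dscigAct_inv_act (M : ℕ) (γ : SL(2, ℤ)) (v : ZMod M × ZMod M) :
    dscigAct M γ⁻¹ (dscigAct M γ v) = v := by
  rw [← dscigAct_mul, mul_inv_cancel, dscigAct_one]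

theorem dscigAct_act_inv (M : ℕ) (γ : SL(2, ℤ)) (v : ZMod M × ZMod M) :
    dscigAct M γ (dscigAct M γ⁻¹ v) = v := by
  rw [← dscigAct_mul, inv_mul_cancel, dscigAct_one]

theorem dscigAct_injective (M : ℕ) (γ : SL(2, ℤ)) : Function.Injective (dscigAct M γ) := by
  intro v w h
  rw [← dscigAct_inv_act M γ v, ← dscigAct_inv_act M γ w, h]

theorem dscigAct_zero (M : ℕ) (γ : SL(2, ℤ)) : dscigAct M γ 0 = 0 := by
  unfold dscigAct
  ext <;> simp

theorem dscigAct_neg (M : ℕ) (γ : SL(2, ℤ)) (v : ZMod M × ZMod M) :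
    dscigAct M γ (-v) = -dscigAct M γ v := by
  unfold dscigAct
  ext
  · simp only [Prod.fst_neg, Prod.snd_neg]
    ring
  · simp only [Prod.fst_neg, Prod.snd_neg]
    ring

theorem dscigAct_ne_zero (M : ℕ) (γ : SL(2, ℤ)) {v : ZMod M × ZMod M} (hv : v ≠ 0) :
    dscigAct M γ v ≠ 0 := by
  intro h
  apply hv
  apply dscigAct_injective M γ
  rw [h, dscigAct_zero]

theorem dscigAdm_act (M : ℕ) (γ : SL(2, ℤ)) {v w : ZMod M × ZMod M} (h : DscigAdm M v w) :
    DscigAdm M (dscigAct M γ v) (dscigAct M γ w) := by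
  obtain ⟨hv, hw, h1, h2⟩ := h
  refine ⟨dscigAct_ne_zero M γ hv, dscigAct_ne_zero M γ hw, ?_, ?_⟩
  · intro h
    exact h1 (dscigAct_injective M γ h)
  · intro h
    rw [← dscigAct_neg] at h
    exact h2 (dscigAct_injective M γ h)

theorem dscigAdm_neg (M : ℕ) {v w : ZMod M × ZMod M} (h : DscigAdm M v w) :
    DscigAdm M (-v) (-w) := by
  obtain ⟨hv, hw, h1, h2⟩ := h
  refine ⟨neg_ne_zero.mpr hv, neg_ne_zero.mpr hw, ?_, ?_⟩
  · intro h
    exact h1 (neg_injective h)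
  · intro h
    rw [neg_neg] at h
    apply h2
    rw [← h, neg_neg]

end Fermat.Agent.DS
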