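import Mathlib
import Fermat.Agent.DS.C.Igusa.Act

/-!
# Program DS, package (C), row C3 (Igusa for `X₁(M)`): cosets and row vectors (IG-X)

`SL(2,ℤ)` acts on the right on row vectors `v = (r, t) : ZMod M × ZMod M` (`dscigAct M γ v = v·γ`,
`Igusa/Act.lean` of helper2).
`dscigGamma M = {γ | (1,0)·γ = ±(1,0)}` (first row `≡ ±(1,0)` mod `M`), `dscigRow M g = (1,0)·g⁻¹`
(the first row of `g⁻¹`), the index set of the conjugates is `SL(2,ℤ) ⧸ dscigGamma M` and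
`dscigVec M ξ = dscigRow M ξ.out`.
-/

set_option autoImplicit false

open scoped MatrixGroups

namespace Fermat.Agent.DS

variable (M : ℕ)

theorem dscigAct_smul (γ : SL(2, ℤ)) (a : ZMod M) (v : ZMod M × ZMod M) :
    dscigAct M γ (a * v.1, a * v.2) = (a * (dscigAct M γ v).1, a * (dscigAct M γ v).2) := by
  unfold dscigAct
  ext <;> simp only <;> ring

/-- the base vector `(1, 0)`. -/
def dscigE : ZMod M × ZMod M := (1, 0)

theorem dscigAct_E (γ : SL(2, ℤ)) :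
    dscigAct M γ (dscigE M) = (((γ 0 0 : ℤ) : ZMod M), ((γ 0 1 : ℤ) : ZMod M)) := by
  simp [dscigAct, dscigE]

/-- `Γz = {γ | (1,0)·γ = ±(1,0)}`. -/
def dscigGamma : Subgroup SL(2, ℤ) where
  carrier := {γ | dscigAct M γ (dscigE M) = dscigE M ∨ dscigAct M γ (dscigE M) = -dscigE M}
  one_mem' := Or.inl (dscigAct_one M _)
  mul_mem' := by
    rintro a b ha hb
    show dscigAct M (a * b) (dscigE M) = dscigE M ∨ dscigAct M (a * b) (dscigE M) = -dscigE M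
    rw [dscigAct_mul]
    rcases ha with ha | ha <;> rcases hb with hb | hb
    · left; rw [ha, hb]
    · right; rw [ha, hb]
    · right; rw [ha, dscigAct_neg, hb]
    · left; rw [ha, dscigAct_neg, hb, neg_neg]
  inv_mem' := by
    rintro a ha
    show dscigAct M a⁻¹ (dscigE M) = dscigE M ∨ dscigAct M a⁻¹ (dscigE M) = -dscigE M
    have h := dscigAct_inv_act M a (dscigE M)
    rcases ha with ha | ha
    · left; rw [ha] at h; exact h
    · right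
      rw [ha, dscigAct_neg] at h
      exact neg_eq_iff_eq_neg.mp h

theorem mem_dscigGamma {γ : SL(2, ℤ)} : γ ∈ dscigGamma M ↔
    dscigAct M γ (dscigE M) = dscigE M ∨ dscigAct M γ (dscigE M) = -dscigE M := Iff.rfl

theorem mem_dscigGamma_iff {γ : SL(2, ℤ)} : γ ∈ dscigGamma M ↔
    ((((γ 0 0 : ℤ) : ZMod M) = 1 ∧ ((γ 0 1 : ℤ) : ZMod M) = 0) ∨
      (((γ 0 0 : ℤ) : ZMod M) = -1 ∧ ((γ 0 1 : ℤ) : ZMod M) = 0)) := by
  rw [mem_dscigGamma, dscigAct_E, dscigE]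
  simp only [Prod.mk.injEq, Prod.neg_mk, neg_zero]

/-- the first row of `g⁻¹` mod `M`. -/
def dscigRow (g : SL(2, ℤ)) : ZMod M × ZMod M := dscigAct M g⁻¹ (dscigE M)

theorem dscigRow_mul_left (γ g : SL(2, ℤ)) :
    dscigRow M (γ * g) = dscigAct M γ⁻¹ (dscigRow M g) := by
  unfold dscigRow
  rw [mul_inv_rev, dscigAct_mul]

theorem dscigRow_mul_right (g : SL(2, ℤ)) {h : SL(2, ℤ)} (hh : h ∈ dscigGamma M) :
    dscigRow M (g * h) = dscigRow M g ∨ dscigRow M (g * h) = -dscigRow M g := by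
  unfold dscigRow
  rw [mul_inv_rev, dscigAct_mul]
  rcases (dscigGamma M).inv_mem hh with h1 | h1
  · left; rw [h1]
  · right; rw [h1, dscigAct_neg]

theorem dscigRow_eq_iff (g : SL(2, ℤ)) :
    (dscigRow M g = dscigE M ∨ dscigRow M g = -dscigE M) ↔ g ∈ dscigGamma M := by
  rw [← inv_mem_iff (H := dscigGamma M)]
  rfl

/-- the row vector of an element of `SL(2,ℤ)` has exact order `M`. -/
theorem dscigRow_primitive (g : SL(2, ℤ)) (a : ZMod M) (h1 : a * (dscigRow M g).1 = 0)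
    (h2 : a * (dscigRow M g).2 = 0) : a = 0 := by
  unfold dscigRow at h1 h2
  rw [dscigAct_E] at h1 h2
  simp only at h1 h2
  have hdet : ((g⁻¹ : SL(2, ℤ)) 0 0 : ℤ) * (g⁻¹ : SL(2, ℤ)) 1 1 -
      (g⁻¹ : SL(2, ℤ)) 0 1 * (g⁻¹ : SL(2, ℤ)) 1 0 = 1 := by
    have := (g⁻¹ : SL(2, ℤ)).det_coe
    rw [Matrix.det_fin_two] at this
    exact this
  have hdet' : (((g⁻¹ : SL(2, ℤ)) 0 0 : ℤ) : ZMod M) * (((g⁻¹ : SL(2, ℤ)) 1 1 : ℤ) : ZMod M) -
      (((g⁻¹ : SL(2, ℤ)) 0 1 : ℤ) : ZMod M) * (((g⁻¹ : SL(2, ℤ)) 1 0 : ℤ) : ZMod M) = 1 := by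
    have := congrArg (fun x : ℤ => (x : ZMod M)) hdet
    push_cast at this
    exact this
  calc a = a * 1 := (mul_one a).symm
    _ = a * ((((g⁻¹ : SL(2, ℤ)) 0 0 : ℤ) : ZMod M) * (((g⁻¹ : SL(2, ℤ)) 1 1 : ℤ) : ZMod M) -
      (((g⁻¹ : SL(2, ℤ)) 0 1 : ℤ) : ZMod M) * (((g⁻¹ : SL(2, ℤ)) 1 0 : ℤ) : ZMod M)) := by
        rw [hdet']
    _ = (a * (((g⁻¹ : SL(2, ℤ)) 0 0 : ℤ) : ZMod M)) * (((g⁻¹ : SL(2, ℤ)) 1 1 : ℤ) : ZMod M) -
      (a * (((g⁻¹ : SL(2, ℤ)) 0 1 : ℤ) : ZMod M)) * (((g⁻¹ : SL(2, ℤ)) 1 0 : ℤ) : ZMod M) := by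
        ring
    _ = 0 := by rw [h1, h2]; ring

/-! ### the coset space -/

/-- the row vector of a coset (well defined up to sign). -/
noncomputable def dscigVec (ξ : SL(2, ℤ) ⧸ dscigGamma M) : ZMod M × ZMod M :=
  dscigRow M ξ.out

theorem dscig_out_smul (γ : SL(2, ℤ)) (ξ : SL(2, ℤ) ⧸ dscigGamma M) :
    ∃ h ∈ dscigGamma M, (γ • ξ).out = γ * ξ.out * h := by
  have h : (γ * ξ.out)⁻¹ * (γ • ξ).out ∈ dscigGamma M := by
    rw [← QuotientGroup.eq, QuotientGroup.out_eq']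
    conv_rhs => rw [← QuotientGroup.out_eq' ξ]
    rfl
  exact ⟨_, h, by group⟩

theorem dscigVec_smul (γ : SL(2, ℤ)) (ξ : SL(2, ℤ) ⧸ dscigGamma M) :
    dscigVec M (γ • ξ) = dscigAct M γ⁻¹ (dscigVec M ξ) ∨
      dscigVec M (γ • ξ) = -dscigAct M γ⁻¹ (dscigVec M ξ) := by
  obtain ⟨h, hh, hout⟩ := dscig_out_smul M γ ξ
  unfold dscigVec
  rw [hout, ← dscigRow_mul_left]
  exact dscigRow_mul_right M (γ * ξ.out) hh

theorem dscigVec_one :
    dscigVec M ((1 : SL(2, ℤ)) : SL(2, ℤ) ⧸ dscigGamma M) = dscigE M ∨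
      dscigVec M ((1 : SL(2, ℤ)) : SL(2, ℤ) ⧸ dscigGamma M) = -dscigE M := by
  unfold dscigVec
  rw [dscigRow_eq_iff]
  have h := QuotientGroup.out_eq' ((1 : SL(2, ℤ)) : SL(2, ℤ) ⧸ dscigGamma M)
  rw [QuotientGroup.eq, mul_one, inv_mem_iff (H := dscigGamma M)] at h
  exact h

theorem dscig_eq_one_of_vec (ξ : SL(2, ℤ) ⧸ dscigGamma M)
    (h : dscigVec M ξ = dscigE M ∨ dscigVec M ξ = -dscigE M) :
    ξ = ((1 : SL(2, ℤ)) : SL(2, ℤ) ⧸ dscigGamma M) := by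
  unfold dscigVec at h
  rw [dscigRow_eq_iff] at h
  rw [← QuotientGroup.out_eq' ξ, QuotientGroup.eq]
  simpa using (dscigGamma M).inv_mem h

theorem dscigAct_T_zpow (n : ℤ) (v : ZMod M × ZMod M) :
    dscigAct M (ModularGroup.T ^ n) v = (v.1, v.1 * (n : ZMod M) + v.2) := by
  unfold dscigAct
  rw [ModularGroup.coe_T_zpow]
  simp

/-- every coset whose vector has first coordinate `±1` is a `T`-translate of the base coset. -/
theorem dscig_exists_T_pow [NeZero M] (ξ : SL(2, ℤ) ⧸ dscigGamma M)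
    (h : (dscigVec M ξ).1 = 1 ∨ (dscigVec M ξ).1 = -1) :
    ∃ n : ℕ, (ModularGroup.T ^ n) • ξ = ((1 : SL(2, ℤ)) : SL(2, ℤ) ⧸ dscigGamma M) := by
  set r : ZMod M := (dscigVec M ξ).1 with hr
  set t : ZMod M := (dscigVec M ξ).2 with ht
  have hrr : r * r = 1 := by rcases h with h | h <;> rw [h] <;> ring
  refine ⟨(r * t).val, dscig_eq_one_of_vec M _ ?_⟩
  have hact : dscigAct M (ModularGroup.T ^ (r * t).val)⁻¹ (dscigVec M ξ) = (r, 0) := by
    rw [← zpow_natCast, ← zpow_neg, dscigAct_T_zpow]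
    have e : (((-(((r * t).val : ℕ) : ℤ)) : ℤ) : ZMod M) = -(r * t) := by
      push_cast
      rw [ZMod.natCast_zmod_val]
    rw [e]
    ext
    · rfl
    · show r * -(r * t) + t = 0
      linear_combination (-t) * hrr
  rcases dscigVec_smul M (ModularGroup.T ^ (r * t).val) ξ with h1 | h1 <;>
    rw [h1, hact, dscigE] <;> rcases h with h | h <;> simp [h]

end Fermat.Agent.DS
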