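import Mathlib
import Fermat.Agent.DS.C.Igusa.Alg

/-!
# Program DS, package (C), row C3 (Igusa for `X₁(M)`), leaf IG-FIELD : the field-theoretic endgame

`dscig_field_endgame` (statement of helper9's `Igusa/Spec.lean` dcd913d, verbatim): if `A` is a ring
of families of conjugates (`DscigAlg J A`), `X` is one class, `ξ₀` is separated from every other
point, and `F ⊆ k((s))` is the field generated over `k` by the values `a ξ₀` (`a ∈ A`), then
`F / k(J)` is finite, separable, of degree `≥ |X|`.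

Route: (A3) `dscig_exists_primitive` with `K₀ = Frac k[X]` gives a primitive family `a` with
`Φ = ∏ (Y - a ξ)` irreducible separable over `K₀ ≅ k(J)` and the Lagrange clause; hence
`F = k(J)(a ξ₀)`.
-/

set_option autoImplicit false
set_option linter.style.haveILetI false
set_option linter.unusedSectionVars false

noncomputable section

namespace Fermat.Agent.DS

open Polynomial Fermat.Agent.S28 IntermediateField

/-- the abstract last step: a simple extension generated by a separable integral element. -/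
theorem dscigf_simple {E F : Type*} [Field E] [Field F] [Algebra E F] (α : F) (n : ℕ)
    (hα : IsIntegral E α) (hsep : IsSeparable E α) (hdeg : n ≤ (minpoly E α).natDegree)
    (htop : ∀ x : F, x ∈ E⟮α⟯) :
    FiniteDimensional E F ∧ Algebra.IsSeparable E F ∧ n ≤ Module.finrank E F := by
  have htop' : E⟮α⟯ = ⊤ := eq_top_iff.2 (fun x _ => htop x)
  let e : E⟮α⟯ ≃ₐ[E] F := (IntermediateField.equivOfEq htop').trans IntermediateField.topEquiv
  haveI := IntermediateField.adjoin.finiteDimensional hα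
  haveI : Algebra.IsSeparable E E⟮α⟯ :=
    (IntermediateField.isSeparable_adjoin_simple_iff_isSeparable E F).2 hsep
  refine ⟨Module.Finite.equiv e.toLinearEquiv, AlgEquiv.Algebra.isSeparable e, ?_⟩
  rw [← LinearEquiv.finrank_eq e.toLinearEquiv, IntermediateField.adjoin.finrank hα]
  exact hdeg

/-- **IG-FIELD** : the field-theoretic endgame. -/
theorem dscig_field_endgame {k : Type*} [Field k] {X : Type*} [Fintype X] [DecidableEq X]
    {J : LaurentSeries k} {A : Subring (X → LaurentSeries k)} (h : DscigAlg J A) (ξ₀ : X)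
    (hone : ∀ a ∈ A, a ξ₀ = 0 → ∀ ξ, a ξ = 0)
    (hsep : ∀ ξ, ξ ≠ ξ₀ → ∃ a ∈ A, a ξ ≠ a ξ₀)
    (F : IntermediateField k (LaurentSeries k)) (hJ : J ∈ F)
    (hAF : ∀ a ∈ A, a ξ₀ ∈ F)
    (hgen : ∀ x ∈ F, x ∈ IntermediateField.adjoin k {y | ∃ a ∈ A, y = a ξ₀}) :
    FiniteDimensional ↥k⟮(⟨J, hJ⟩ : F)⟯ F ∧ Algebra.IsSeparable ↥k⟮(⟨J, hJ⟩ : F)⟯ F ∧
      Fintype.card X ≤ Module.finrank ↥k⟮(⟨J, hJ⟩ : F)⟯ F := by
  classical
  -- the fraction field `K₀` of `k[X]` and `φ : K₀ → k((s))`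
  have hinj := keyabs_hom_injective J h.order_neg
  set φ : FractionRing k[X] →+* LaurentSeries k := IsFractionRing.lift hinj with hφdef
  have hφ : φ.comp (algebraMap k[X] (FractionRing k[X])) = keyabsHom J :=
    RingHom.ext fun p => by rw [RingHom.comp_apply, hφdef, IsFractionRing.lift_algebraMap]
  -- `E = k(J) ⊆ F`, `ι : E → k((s))`
  set J' : F := ⟨J, hJ⟩ with hJ'
  set Jg : ↥k⟮J'⟯ := ⟨J', mem_adjoin_simple_self k J'⟩ with hJg
  set ι : ↥k⟮J'⟯ →ₐ[k] LaurentSeries k := F.val.comp (k⟮J'⟯).val with hι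
  have hιJ : ι Jg = J := rfl
  have hιinj : Function.Injective ι := ι.toRingHom.injective
  -- `ψ₀ : k[X] → E`, `ψ : K₀ → E`
  set ψ₀ : k[X] →+* ↥k⟮J'⟯ := ((Polynomial.aeval Jg : k[X] →ₐ[k] ↥k⟮J'⟯) : k[X] →+* ↥k⟮J'⟯)
    with hψ₀
  have hιψ₀ : ∀ p : k[X], ι (ψ₀ p) = keyabsHom J p := by
    intro p
    have : ι (Polynomial.aeval Jg p) = Polynomial.aeval (ι Jg) p :=
      (Polynomial.aeval_algHom_apply ι Jg p).symm
    rw [hιJ] at this
    exact this
  have hψ₀inj : Function.Injective ψ₀ := by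
    intro p q hpq
    apply hinj
    rw [← hιψ₀ p, ← hιψ₀ q, hpq]
  set ψ : FractionRing k[X] →+* ↥k⟮J'⟯ := IsFractionRing.lift hψ₀inj with hψdef
  have hψalg : ∀ p : k[X], ψ (algebraMap k[X] (FractionRing k[X]) p) = ψ₀ p := fun p => by
    rw [hψdef, IsFractionRing.lift_algebraMap]
  have hιψ : (ι : ↥k⟮J'⟯ →+* LaurentSeries k).comp ψ = φ := by
    apply IsLocalization.ringHom_ext (nonZeroDivisors k[X])
    refine RingHom.ext fun p => ?_
    rw [RingHom.comp_apply, RingHom.comp_apply, RingHom.comp_apply, hψalg]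
    have h1 : φ (algebraMap k[X] (FractionRing k[X]) p) = keyabsHom J p := RingHom.congr_fun hφ p
    rw [h1]
    exact hιψ₀ p
  have hιψ' : ∀ z, ι (ψ z) = φ z := fun z => by
    rw [← hιψ]
    rfl
  have hψsurj : Function.Surjective ψ := by
    intro x
    obtain ⟨r, s, hrs⟩ := (mem_adjoin_simple_iff k (x : F)).1 x.2
    refine ⟨algebraMap k[X] (FractionRing k[X]) r / algebraMap k[X] (FractionRing k[X]) s, ?_⟩
    rw [map_div₀, hψalg, hψalg]
    apply Subtype.ext
    rw [hrs]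
    have e1 : ∀ p : k[X], ((ψ₀ p : ↥k⟮J'⟯) : F) = Polynomial.aeval J' p := by
      intro p
      have : (k⟮J'⟯).val (Polynomial.aeval Jg p) = Polynomial.aeval ((k⟮J'⟯).val Jg) p :=
        (Polynomial.aeval_algHom_apply (k⟮J'⟯).val Jg p).symm
      exact this
    push_cast
    rw [e1, e1]
  -- the primitive family
  obtain ⟨a, haA, Φ, hΦm, hΦirr, hΦsep, hΦmap, -, hLag⟩ :=
    dscig_exists_primitive h ξ₀ hone hsep φ hφ
  set α : F := ⟨a ξ₀, hAF a haA⟩ with hα
  -- evaluation of polynomials over `K₀` at `α`, computed in `k((s))`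
  have hcomp : ∀ p : (FractionRing k[X])[X],
      ((Polynomial.aeval α (p.map ψ) : F) : LaurentSeries k) = p.eval₂ φ (a ξ₀) := by
    intro p
    rw [Polynomial.aeval_def, Polynomial.eval₂_map]
    have : ((Polynomial.eval₂ ((algebraMap ↥k⟮J'⟯ F).comp ψ) α p : F) : LaurentSeries k) =
        (F.val : ↥F →+* LaurentSeries k)
          (Polynomial.eval₂ ((algebraMap ↥k⟮J'⟯ F).comp ψ) α p) := rfl
    rw [this, Polynomial.hom_eval₂]
    have h2 : ((F.val : ↥F →+* LaurentSeries k).comp ((algebraMap ↥k⟮J'⟯ F).comp ψ)) = φ := by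
      rw [← hιψ]
      rfl
    rw [h2]
    rfl
  have hroot : Φ.eval₂ φ (a ξ₀) = 0 := by
    rw [← Polynomial.eval_map, hΦmap]
    exact dscig_eval_prod_eq_zero a ξ₀
  have hrootF : Polynomial.aeval α (Φ.map ψ) = 0 := by
    apply Subtype.ext
    rw [hcomp, hroot]
    rfl
  have hαint : IsIntegral ↥k⟮J'⟯ α := ⟨Φ.map ψ, hΦm.map ψ, by rwa [← Polynomial.aeval_def]⟩
  have hαsep : IsSeparable ↥k⟮J'⟯ α :=
    (hΦsep.map (f := ψ)).of_dvd (minpoly.dvd _ _ hrootF)
  -- the degree
  have hΦdeg : Φ.natDegree = Fintype.card X := by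
    have h1 : (Φ.map φ).natDegree = Φ.natDegree := Polynomial.natDegree_map φ
    rw [← h1, hΦmap, Polynomial.natDegree_finsetProd_X_sub_C_eq_card, Finset.card_univ]
  have hdeg : Fintype.card X ≤ (minpoly ↥k⟮J'⟯ α).natDegree := by
    obtain ⟨m', hm'⟩ := Polynomial.map_surjective ψ hψsurj (minpoly ↥k⟮J'⟯ α)
    have hm'ev : m'.eval₂ φ (a ξ₀) = 0 := by
      rw [← hcomp, hm', minpoly.aeval]
      rfl
    have hm'ne : m' ≠ 0 := by
      intro h0
      rw [h0, Polynomial.map_zero] at hm'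
      exact (minpoly.ne_zero hαint) hm'.symm
    have hdvd : Φ ∣ m' := by
      by_contra hnd
      obtain ⟨u, v, huv⟩ := (hΦirr.coprime_iff_not_dvd).2 hnd
      have := congrArg (Polynomial.eval₂ φ (a ξ₀)) huv
      rw [Polynomial.eval₂_add, Polynomial.eval₂_mul, Polynomial.eval₂_mul, hroot, hm'ev,
        mul_zero, mul_zero, add_zero, Polynomial.eval₂_one] at this
      exact zero_ne_one this
    have := Polynomial.natDegree_le_of_dvd hdvd hm'ne
    rw [hΦdeg] at this
    rw [← hm', Polynomial.natDegree_map]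
    exact this
  -- generation
  have hDne : (derivative Φ).eval₂ φ (a ξ₀) ≠ 0 := by
    obtain ⟨u, v, huv⟩ := hΦsep
    intro h0
    have := congrArg (Polynomial.eval₂ φ (a ξ₀)) huv
    rw [Polynomial.eval₂_add, Polynomial.eval₂_mul, Polynomial.eval₂_mul, hroot, h0,
      mul_zero, mul_zero, add_zero, Polynomial.eval₂_one] at this
    exact zero_ne_one this
  have haevmem : ∀ p : (↥k⟮J'⟯)[X], Polynomial.aeval α p ∈ (↥k⟮J'⟯)⟮α⟯ := fun p =>
    IntermediateField.algebra_adjoin_le_adjoin _ _ (Polynomial.aeval_mem_adjoin_singleton _ α)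
  have hgenmem : ∀ b ∈ A, ∀ hb' : b ξ₀ ∈ F, (⟨b ξ₀, hb'⟩ : F) ∈ (↥k⟮J'⟯)⟮α⟯ := by
    intro b hb hb'
    obtain ⟨G, hG⟩ := hLag b hb
    set DF : F := Polynomial.aeval α ((derivative Φ).map ψ) with hDF
    set GF : F := Polynomial.aeval α (G.map ψ) with hGF
    have hDF0 : DF ≠ 0 := by
      intro h0
      apply hDne
      rw [← hcomp, ← hDF, h0]
      rfl
    have hrel : (⟨b ξ₀, hb'⟩ : F) * DF = GF := by
      apply Subtype.ext
      have : (((⟨b ξ₀, hb'⟩ : F) * DF : F) : LaurentSeries k) = b ξ₀ * (DF : LaurentSeries k) := rfl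
      rw [this, hDF, hGF, hcomp, hcomp]
      exact hG ξ₀
    have : (⟨b ξ₀, hb'⟩ : F) = GF / DF := by
      rw [eq_div_iff hDF0]
      exact hrel
    rw [this]
    exact div_mem (haevmem _) (haevmem _)
  have htop : ∀ x : F, x ∈ (↥k⟮J'⟯)⟮α⟯ := by
    intro x
    set T : IntermediateField k (LaurentSeries k) :=
      (((↥k⟮J'⟯)⟮α⟯).restrictScalars k).map F.val with hT
    have hle : IntermediateField.adjoin k {y | ∃ a ∈ A, y = a ξ₀} ≤ T := by
      rw [IntermediateField.adjoin_le_iff]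
      rintro y ⟨b, hb, rfl⟩
      rw [hT]
      exact ⟨⟨b ξ₀, hAF b hb⟩, hgenmem b hb _, rfl⟩
    obtain ⟨y, hy, hyx⟩ := hle (hgen x x.2)
    have : y = x := Subtype.ext hyx
    rw [← this]
    exact hy
  exact dscigf_simple α (Fintype.card X) hαint hαsep hdeg htop

end Fermat.Agent.DS
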