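import Mathlib
import Fermat.Agent.DS.C.Br.Defs
import Fermat.Agent.DS.C.Igusa.Cosets

/-!
# Program DS, package (C), row C3 (Igusa): `Γz = S·(±Γ₁(M))·S⁻¹` has the index of `±Γ₁(M)`
-/

set_option autoImplicit false

open scoped MatrixGroups

namespace Fermat.Agent.DS

theorem dscig_S_conj_apply (g : SL(2, ℤ)) :
    ((ModularGroup.S * g * ModularGroup.S⁻¹ : SL(2, ℤ)) 0 0 = g 1 1) ∧
    ((ModularGroup.S * g * ModularGroup.S⁻¹ : SL(2, ℤ)) 0 1 = -g 1 0) ∧
    ((ModularGroup.S * g * ModularGroup.S⁻¹ : SL(2, ℤ)) 1 0 = -g 0 1) ∧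
    ((ModularGroup.S * g * ModularGroup.S⁻¹ : SL(2, ℤ)) 1 1 = g 0 0) := by
  simp [Matrix.SpecialLinearGroup.coe_mul, Matrix.mul_apply, Fin.sum_univ_two, ModularGroup.S,
    Matrix.SpecialLinearGroup.coe_inv, Matrix.adjugate_fin_two, Matrix.vecMul, dotProduct]

/-- the conjugation by `S` as a multiplicative equivalence. -/
def dscigConjS : SL(2, ℤ) ≃* SL(2, ℤ) := MulAut.conj ModularGroup.S

theorem dscigConjS_apply (g : SL(2, ℤ)) :
    dscigConjS g = ModularGroup.S * g * ModularGroup.S⁻¹ := rfl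

theorem dscigGamma_eq_map (M : ℕ) :
    dscigGamma M = (dscbrGamma M).map (dscigConjS : SL(2, ℤ) →* SL(2, ℤ)) := by
  ext γ
  rw [Subgroup.mem_map]
  constructor
  · intro hγ
    refine ⟨dscigConjS.symm γ, ?_, by simp⟩
    obtain ⟨h00, h01, h10, h11⟩ := dscig_S_conj_apply (dscigConjS.symm γ)
    rw [← dscigConjS_apply, MulEquiv.apply_symm_apply] at h00 h01 h10 h11
    rw [mem_dscigGamma_iff] at hγ
    rw [mem_dscbrGamma]
    have e10 : (dscigConjS.symm γ) 1 0 = -γ 0 1 := by rw [h01]; ring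
    have hdet : (γ 0 0 : ℤ) * γ 1 1 - γ 0 1 * γ 1 0 = 1 := by
      have := γ.det_coe
      rw [Matrix.det_fin_two] at this
      exact this
    have hdet' : ((γ 0 0 : ℤ) : ZMod M) * ((γ 1 1 : ℤ) : ZMod M) -
        ((γ 0 1 : ℤ) : ZMod M) * ((γ 1 0 : ℤ) : ZMod M) = 1 := by
      have := congrArg (fun x : ℤ => (x : ZMod M)) hdet
      push_cast at this
      exact this
    rw [e10, ← h00, ← h11]
    push_cast
    rcases hγ with ⟨h1, h2⟩ | ⟨h1, h2⟩
    · rw [h1, h2] at hdet'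
      refine ⟨by rw [h2, neg_zero], Or.inl ⟨h1, ?_⟩⟩
      linear_combination hdet'
    · rw [h1, h2] at hdet'
      refine ⟨by rw [h2, neg_zero], Or.inr ⟨h1, ?_⟩⟩
      linear_combination -hdet'
  · rintro ⟨g, hg, rfl⟩
    obtain ⟨h00, h01, h10, h11⟩ := dscig_S_conj_apply g
    rw [mem_dscbrGamma] at hg
    rw [mem_dscigGamma_iff]
    show (((dscigConjS g) 0 0 : ℤ) : ZMod M) = 1 ∧ (((dscigConjS g) 0 1 : ℤ) : ZMod M) = 0 ∨
      (((dscigConjS g) 0 0 : ℤ) : ZMod M) = -1 ∧ (((dscigConjS g) 0 1 : ℤ) : ZMod M) = 0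
    rw [dscigConjS_apply, h00, h01]
    push_cast
    obtain ⟨h0, h | h⟩ := hg
    · exact Or.inl ⟨h.1, by rw [h0, neg_zero]⟩
    · exact Or.inr ⟨h.1, by rw [h0, neg_zero]⟩

theorem dscigGamma_index (M : ℕ) : (dscigGamma M).index = (dscbrGamma M).index := by
  rw [dscigGamma_eq_map]
  exact Subgroup.index_map_equiv (dscbrGamma M) dscigConjS

end Fermat.Agent.DS
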