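import Mathlib

/-!
# Program DS, package (C), row C3-KL : the combinatorial core of Igusa's theorem for `X₁(M)`
(helper27)

`b(x) = B₂({x/M})` on `ℤ/M`.  The orders at `∞` of the units
`W_{α,β}^ξ = (℘_{αξ} - ℘_{βξ})⁶/Δ` are `6 min(|α r_ξ|, |β r_ξ|) - M`, and
`6 min(|x|,|y|) - M = 3M (b(x+y) + b(x-y) - 2 b(x) - 2 b(y))`  (`dsckl_min_eq`).

* `dsckl_fourier` (KL') : an even `δ : ℤ/M → ℝ` with `∑ δ = 0` and `∑_r δ(r) b(t r) = 0` for all
  `t ≠ 0` is `0`  (Fourier series of `B₂` + diagonal dominance, `π²/6 - 1 < 1`);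
* `dsckl_parallelogram` : an even `φ` with the parallelogram law on admissible pairs vanishes off
  `0` (`6 ≤ M`);
* `dsckl_proportional`, `dsckl_orbit_eq_univ` : the orbit statement consumed by C3.
-/

set_option autoImplicit false

namespace Fermat.Agent.DS

open Real

/-! ### the Fourier series of `B₂` -/

theorem dsckl_bernoulli_two :
    Polynomial.bernoulli 2 = Polynomial.X ^ 2 - Polynomial.X + Polynomial.C (6⁻¹ : ℚ) := by
  rw [Polynomial.bernoulli]
  simp [Finset.sum_range_succ]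
  rw [Polynomial.monomial_one_right_eq_X_pow, Polynomial.monomial_one_one_eq_X]
  ring

theorem dsckl_B2_series {x : ℝ} (hx : x ∈ Set.Icc (0 : ℝ) 1) :
    HasSum (fun n : ℕ => 1 / (n : ℝ) ^ 2 * Real.cos (2 * π * n * x))
      (π ^ 2 * (x ^ 2 - x + 1 / 6)) := by
  have h := hasSum_one_div_nat_pow_mul_cos (k := 1) one_ne_zero hx
  rw [dsckl_bernoulli_two] at h
  simp only [mul_one, Polynomial.map_add, Polynomial.map_sub, Polynomial.map_pow, Polynomial.map_X,
    Polynomial.map_C, Polynomial.eval_add, Polynomial.eval_sub, Polynomial.eval_pow,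
    Polynomial.eval_X, Polynomial.eval_C] at h
  have h2 : ((-1 : ℝ) ^ (1 + 1) * (2 * π) ^ 2 / 2 / ((Nat.factorial 2 : ℕ) : ℝ) *
      (x ^ 2 - x + (algebraMap ℚ ℝ) 6⁻¹)) = π ^ 2 * (x ^ 2 - x + 1 / 6) := by
    have h3 : (algebraMap ℚ ℝ) 6⁻¹ = 1 / 6 := by simp
    have h4 : ((Nat.factorial 2 : ℕ) : ℝ) = 2 := by norm_num [Nat.factorial]
    rw [h3, h4]
    ring
  rw [h2] at h
  exact h

section zmod

variable {M : ℕ} [NeZero M]

/-- `b(x) = B₂({x/M})` -/
noncomputable def dscklB (x : ZMod M) : ℝ := ((x.val : ℝ) / M) ^ 2 - (x.val : ℝ) / M + 1 / 6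

/-- `c(x) = cos(2π x/M)` -/
noncomputable def dscklC (x : ZMod M) : ℝ := Real.cos (2 * π * (x.val : ℝ) / M)

theorem dsckl_cos_nat (k : ℕ) :
    Real.cos (2 * π * (k : ℝ) / M) = dscklC ((k : ZMod M)) := by
  have hM : (M : ℝ) ≠ 0 := Nat.cast_ne_zero.mpr (NeZero.ne M)
  unfold dscklC
  rw [ZMod.val_natCast]
  conv_lhs => rw [← Nat.mod_add_div k M]
  push_cast
  have : 2 * π * ((k % M : ℕ) + (M : ℝ) * (k / M : ℕ)) / M =
      2 * π * ((k % M : ℕ) : ℝ) / M + (k / M : ℕ) * (2 * π) := by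
    field_simp
  rw [this, Real.cos_add_nat_mul_two_pi]

theorem dsckl_cos_mul (m : ℕ) (x : ZMod M) :
    Real.cos (2 * π * m * ((x.val : ℝ) / M)) = dscklC ((m : ZMod M) * x) := by
  have h := dsckl_cos_nat (M := M) (m * x.val)
  have h2 : ((m * x.val : ℕ) : ZMod M) = (m : ZMod M) * x := by
    rw [Nat.cast_mul, ZMod.natCast_zmod_val]
  rw [h2] at h
  rw [← h]
  congr 1
  push_cast
  ring

/-- the Fourier series of `b` -/
theorem dsckl_B_series (x : ZMod M) :
    HasSum (fun m : ℕ => 1 / (m : ℝ) ^ 2 * dscklC ((m : ZMod M) * x)) (π ^ 2 * dscklB x) := by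
  have hM : (0 : ℝ) < M := Nat.cast_pos.mpr (NeZero.pos M)
  have hx : (x.val : ℝ) / M ∈ Set.Icc (0 : ℝ) 1 := by
    constructor
    · positivity
    · rw [div_le_one hM]
      exact_mod_cast (ZMod.val_lt x).le
  have h := dsckl_B2_series hx
  simp only [dsckl_cos_mul] at h
  exact h

/-! ### diagonal dominance -/

theorem dsckl_pi_sq_lt : π ^ 2 / 6 - 1 < 1 := by
  have h1 := Real.pi_lt_d2
  have h2 := Real.pi_pos
  nlinarith

/-- a term dominating the rest of an absolutely dominated series that sums to `0` vanishes -/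
theorem dsckl_dominant (f : ℕ → ℝ) (A : ℝ) (hA : |f 1| = A)
    (hb : ∀ m : ℕ, |f m| ≤ A * (1 / (m : ℝ) ^ 2)) (hf : HasSum f 0) : A = 0 := by
  classical
  have hA0 : 0 ≤ A := hA ▸ abs_nonneg _
  have hw : HasSum (fun m : ℕ => A * (1 / (m : ℝ) ^ 2)) (A * (π ^ 2 / 6)) :=
    hasSum_zeta_two.mul_left A
  have hG := hasSum_ite_sub_hasSum hw 1
  have hg := hasSum_ite_sub_hasSum hf 1
  have hbound : ‖∑' m : ℕ, (if m = 1 then 0 else f m)‖ ≤ A * (π ^ 2 / 6) - A * (1 / ((1 : ℕ) : ℝ) ^ 2) := by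
    refine tsum_of_norm_bounded hG fun m => ?_
    split_ifs
    · rw [norm_zero]
    · exact hb m
  rw [hg.tsum_eq, zero_sub, norm_neg, Real.norm_eq_abs, hA] at hbound
  have h3 := dsckl_pi_sq_lt
  simp only [Nat.cast_one, one_pow, div_one, mul_one] at hbound
  nlinarith

theorem dsckl_core (D : ZMod M → ℝ) (h0 : D 0 = 0)
    (h : ∀ t : ZMod M, t ≠ 0 →
      HasSum (fun m : ℕ => 1 / (m : ℝ) ^ 2 * D ((m : ZMod M) * t)) 0) :
    ∀ t, D t = 0 := by
  classical
  intro t
  induction' hd : addOrderOf t using Nat.strong_induction_on with d ih generalizing t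
  by_cases ht : t = 0
  · rw [ht, h0]
  set S := Finset.univ.filter (fun s : ZMod M => addOrderOf s = d) with hS
  have htS : t ∈ S := Finset.mem_filter.mpr ⟨Finset.mem_univ _, hd⟩
  obtain ⟨t₀, ht₀S, hmax⟩ := Finset.exists_max_image S (fun s => |D s|) ⟨t, htS⟩
  have ht₀d : addOrderOf t₀ = d := (Finset.mem_filter.mp ht₀S).2
  have ht₀ : t₀ ≠ 0 := by
    rintro rfl
    rw [addOrderOf_zero] at ht₀d
    rw [← ht₀d] at hd
    exact ht (AddMonoid.addOrderOf_eq_one_iff.mp hd)
  have hdpos : 0 < d := ht₀d ▸ addOrderOf_pos t₀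
  -- every `D (m t₀)` is bounded by `|D t₀|`
  have hbd : ∀ m : ℕ, |D ((m : ZMod M) * t₀)| ≤ |D t₀| := by
    intro m
    have hdvd : addOrderOf ((m : ZMod M) * t₀) ∣ d := by
      rw [← nsmul_eq_mul, ← ht₀d]
      exact addOrderOf_smul_dvd m
    rcases (Nat.le_of_dvd hdpos hdvd).lt_or_eq with hlt | heq
    · rw [ih _ hlt _ rfl, abs_zero]
      exact abs_nonneg _
    · exact hmax _ (Finset.mem_filter.mpr ⟨Finset.mem_univ _, heq⟩)
  have key : |D t₀| = 0 := by
    refine dsckl_dominant (fun m : ℕ => 1 / (m : ℝ) ^ 2 * D ((m : ZMod M) * t₀)) _ ?_ ?_ (h t₀ ht₀)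
    · simp
    · intro m
      rw [abs_mul, abs_of_nonneg (by positivity : (0 : ℝ) ≤ 1 / (m : ℝ) ^ 2), mul_comm]
      exact mul_le_mul_of_nonneg_right (hbd m) (by positivity)
  have := hmax t htS
  rw [key] at this
  exact abs_nonpos_iff.mp this

/-! ### orthogonality of the cosines (proof: helper10's `dsh_cos_orthogonality`, DS/H/Cos.lean) -/

open Complex in
theorem dsckl_C_eq_re (x : ZMod M) : dscklC x = (ZMod.stdAddChar x).re := by
  unfold dscklC
  rw [ZMod.stdAddChar_apply, ZMod.toCircle_apply]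
  have h : (2 * (Real.pi : ℂ) * I * (x.val : ℂ) / (M : ℂ)) =
      ((2 * Real.pi * (x.val : ℝ) / M : ℝ) : ℂ) * I := by
    push_cast
    ring
  rw [h, Complex.exp_ofReal_mul_I_re]

theorem dsckl_re_mul_re (z w : ℂ) :
    z.re * w.re = ((z * (starRingEnd ℂ) w).re + (z * w).re) / 2 := by
  simp only [Complex.mul_re, Complex.conj_re, Complex.conj_im]
  ring

theorem dsckl_sum_re (c : ZMod M) :
    ∑ k : ZMod M, (ZMod.stdAddChar (k * c)).re = if c = 0 then (M : ℝ) else 0 := by
  have h := AddChar.sum_mulShift (R := ZMod M) (R' := ℂ) c (ZMod.isPrimitive_stdAddChar M)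
  have h2 : (∑ k : ZMod M, ZMod.stdAddChar (k * c)).re =
      ∑ k : ZMod M, (ZMod.stdAddChar (k * c)).re := Complex.re_sum _ _
  rw [← h2, h]
  split_ifs
  · rw [ZMod.card]
    simp
  · simp

theorem dsckl_orthogonality (a b : ZMod M) :
    ∑ k : ZMod M, dscklC (k * a) * dscklC (k * b) =
      (M : ℝ) / 2 * ((if b = a then 1 else 0) + (if b = -a then 1 else 0)) := by
  have h1 : ∀ k : ZMod M, dscklC (k * a) * dscklC (k * b) =
      ((ZMod.stdAddChar (k * (a - b))).re + (ZMod.stdAddChar (k * (a + b))).re) / 2 := by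
    intro k
    rw [dsckl_C_eq_re, dsckl_C_eq_re, dsckl_re_mul_re, ← AddChar.map_neg_eq_conj,
      ← AddChar.map_add_eq_mul, ← AddChar.map_add_eq_mul]
    congr 3 <;> ring_nf
  rw [Finset.sum_congr rfl fun k _ => h1 k, ← Finset.sum_div, Finset.sum_add_distrib,
    dsckl_sum_re, dsckl_sum_re]
  have e1 : (a - b = 0) ↔ (b = a) := by rw [sub_eq_zero, eq_comm]
  have e2 : (a + b = 0) ↔ (b = -a) := by rw [add_comm, add_eq_zero_iff_eq_neg]
  simp only [e1, e2]
  split_ifs <;> ring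

/-! ### (KL') -/

/-- **(KL')**: an even function `δ` on `ℤ/M` of total mass `0` which is orthogonal to all the
functions `r ↦ B₂({t r/M})`, `t ≠ 0`, vanishes. -/
theorem dsckl_fourier (δ : ZMod M → ℝ) (heven : ∀ r, δ (-r) = δ r) (hsum : ∑ r, δ r = 0)
    (h : ∀ t : ZMod M, t ≠ 0 → ∑ r, δ r * dscklB (t * r) = 0) : δ = 0 := by
  classical
  set D : ZMod M → ℝ := fun n => ∑ r, δ r * dscklC (n * r) with hD
  have hD0 : D 0 = 0 := by
    simp only [hD, zero_mul]
    have : dscklC (0 : ZMod M) = 1 := by simp [dscklC]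
    simp only [this, mul_one]
    exact hsum
  have hDt : ∀ t : ZMod M, t ≠ 0 →
      HasSum (fun m : ℕ => 1 / (m : ℝ) ^ 2 * D ((m : ZMod M) * t)) 0 := by
    intro t ht
    have h1 : HasSum (fun m : ℕ => ∑ r, δ r * (1 / (m : ℝ) ^ 2 * dscklC ((m : ZMod M) * (t * r))))
        (∑ r, δ r * (π ^ 2 * dscklB (t * r))) :=
      hasSum_sum fun r _ => (dsckl_B_series (t * r)).mul_left (δ r)
    have h2 : ∑ r, δ r * (π ^ 2 * dscklB (t * r)) = 0 := by
      have : ∑ r, δ r * (π ^ 2 * dscklB (t * r)) = π ^ 2 * ∑ r, δ r * dscklB (t * r) := by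
        rw [Finset.mul_sum]
        exact Finset.sum_congr rfl fun r _ => by ring
      rw [this, h t ht, mul_zero]
    rw [h2] at h1
    convert h1 using 2 with m
    simp only [hD]
    rw [Finset.mul_sum]
    exact Finset.sum_congr rfl fun r _ => by rw [mul_assoc (m : ZMod M) t r]; ring
  have hDz := dsckl_core D hD0 hDt
  funext r₀
  have h3 : ∑ n : ZMod M, D n * dscklC (n * r₀) = 0 :=
    Finset.sum_eq_zero fun n _ => by rw [hDz n, zero_mul]
  simp only [hD, Finset.sum_mul] at h3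
  rw [Finset.sum_comm] at h3
  have h4 : ∀ r : ZMod M, ∑ n : ZMod M, δ r * dscklC (n * r) * dscklC (n * r₀) =
      δ r * ((M : ℝ) / 2 * ((if r₀ = r then 1 else 0) + (if r₀ = -r then 1 else 0))) := by
    intro r
    rw [← dsckl_orthogonality r r₀, Finset.mul_sum]
    exact Finset.sum_congr rfl fun n _ => by ring
  rw [Finset.sum_congr rfl fun r _ => h4 r] at h3
  have h5 : ∑ r : ZMod M, δ r * ((M : ℝ) / 2 * ((if r₀ = r then 1 else 0) +
      (if r₀ = -r then 1 else 0))) = (M : ℝ) / 2 * (δ r₀ + δ (-r₀)) := by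
    have : ∀ r : ZMod M, δ r * ((M : ℝ) / 2 * ((if r₀ = r then 1 else 0) +
        (if r₀ = -r then 1 else 0))) = (M : ℝ) / 2 * ((if r = r₀ then δ r else 0) +
        (if r = -r₀ then δ r else 0)) := by
      intro r
      have e1 : (r₀ = r) ↔ (r = r₀) := eq_comm
      have e2 : (r₀ = -r) ↔ (r = -r₀) := by rw [eq_neg_iff_add_eq_zero, eq_neg_iff_add_eq_zero, add_comm]
      simp only [e1, e2]
      split_ifs <;> ring
    rw [Finset.sum_congr rfl fun r _ => this r, ← Finset.mul_sum, Finset.sum_add_distrib,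
      Finset.sum_ite_eq' Finset.univ r₀, Finset.sum_ite_eq' Finset.univ (-r₀)]
    simp
  rw [h5, heven r₀] at h3
  have hM : (0 : ℝ) < M := Nat.cast_pos.mpr (NeZero.pos M)
  have : δ r₀ = 0 := by
    rcases mul_eq_zero.mp h3 with h6 | h6
    · linarith
    · linarith
  simpa using this

/-! ### the parallelogram law -/

theorem dsckl_natCast_ne_zero {n : ℕ} (h0 : 0 < n) (hn : n < M) : (n : ZMod M) ≠ 0 := by
  intro h
  rw [ZMod.natCast_eq_zero_iff] at h
  exact absurd (Nat.le_of_dvd h0 h) (not_le.mpr hn)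

/-- an even function on `ℤ/M` (`6 ≤ M`) satisfying the parallelogram law on all admissible pairs
vanishes outside `0` -/
theorem dsckl_parallelogram (hM : 6 ≤ M) (φ : ZMod M → ℝ) (heven : ∀ t, φ (-t) = φ t)
    (h : ∀ α β : ZMod M, α ≠ 0 → β ≠ 0 → α ≠ β → α ≠ -β →
      φ (α + β) + φ (α - β) = 2 * φ α + 2 * φ β) :
    ∀ t : ZMod M, t ≠ 0 → φ t = 0 := by
  set f : ℕ → ℝ := fun n => φ (n : ZMod M) with hf
  set c : ℝ := f 1 with hc
  set d : ℝ := f 2 - 4 * c with hd
  -- the recursion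
  have hrec : ∀ n : ℕ, 2 ≤ n → n + 2 ≤ M → f (n + 1) + f (n - 1) = 2 * f n + 2 * c := by
    intro n h2 hnM
    have h1 := h (n : ZMod M) 1 (dsckl_natCast_ne_zero (by omega) (by omega))
      (by
        have := dsckl_natCast_ne_zero (M := M) (n := 1) (by omega) (by omega)
        simpa using this)
      (by
        intro heq
        have h3 : ((n - 1 : ℕ) : ZMod M) = 0 := by
          rw [Nat.cast_sub (by omega), heq]; simp
        exact dsckl_natCast_ne_zero (by omega) (by omega) h3)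
      (by
        intro heq
        have h3 : ((n + 1 : ℕ) : ZMod M) = 0 := by
          rw [Nat.cast_add, heq]; simp
        exact dsckl_natCast_ne_zero (by omega) (by omega) h3)
    have e1 : (n : ZMod M) + 1 = ((n + 1 : ℕ) : ZMod M) := by push_cast; ring
    have e2 : (n : ZMod M) - 1 = ((n - 1 : ℕ) : ZMod M) := by
      rw [Nat.cast_sub (by omega)]; simp
    rw [e1, e2] at h1
    have e3 : φ (1 : ZMod M) = c := by simp [hc, hf]
    rw [e3] at h1
    exact h1
  -- the closed form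
  have hform : ∀ n : ℕ, 1 ≤ n → n + 2 ≤ M →
      f n = c * (n : ℝ) ^ 2 + d * ((n : ℝ) - 1) ∧
        f (n + 1) = c * ((n : ℝ) + 1) ^ 2 + d * (n : ℝ) := by
    intro n hn
    induction n, hn using Nat.le_induction with
    | base =>
      intro _
      constructor
      · simp [hc]
      · simp only [hd]; norm_num; ring
    | succ n hn ih =>
      intro hnM
      obtain ⟨ih1, ih2⟩ := ih (by omega)
      refine ⟨by rw [ih2]; push_cast; ring, ?_⟩
      have h1 := hrec (n + 1) (by omega) (by omega)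
      rw [Nat.add_sub_cancel, ih1, ih2] at h1
      push_cast
      linarith
  -- the pair (3, 2)
  have h32 : f 5 + f 1 = 2 * f 3 + 2 * f 2 := by
    have h1 := h (3 : ZMod M) 2
      (by have := dsckl_natCast_ne_zero (M := M) (n := 3) (by omega) (by omega); simpa using this)
      (by have := dsckl_natCast_ne_zero (M := M) (n := 2) (by omega) (by omega); simpa using this)
      (by
        intro heq
        have h3 : ((1 : ℕ) : ZMod M) = 0 := by
          have : (3 : ZMod M) - 2 = 0 := by rw [heq]; ring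
          push_cast; rw [← this]; ring
        exact dsckl_natCast_ne_zero (by omega) (by omega) h3)
      (by
        intro heq
        have h3 : ((5 : ℕ) : ZMod M) = 0 := by
          have : (3 : ZMod M) + 2 = 0 := by rw [heq]; ring
          push_cast; rw [← this]; ring
        exact dsckl_natCast_ne_zero (by omega) (by omega) h3)
    have e1 : (3 : ZMod M) + 2 = ((5 : ℕ) : ZMod M) := by push_cast; ring
    have e2 : (3 : ZMod M) - 2 = ((1 : ℕ) : ZMod M) := by push_cast; ring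
    have e3 : (3 : ZMod M) = ((3 : ℕ) : ZMod M) := by push_cast; rfl
    have e4 : (2 : ZMod M) = ((2 : ℕ) : ZMod M) := by push_cast; rfl
    rw [e1, e2, e3, e4] at h1
    exact h1
  have hd0 : d = 0 := by
    have h5 := (hform 4 (by omega) (by omega)).2
    have h3 := (hform 2 (by omega) (by omega)).2
    have h2 := (hform 1 (by omega) (by omega)).2
    norm_num at h5 h3 h2
    rw [h5, h3, h2] at h32
    linarith
  -- evenness at `1`
  have hc0 : c = 0 := by
    have h1 : f (M - 1) = f 1 := by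
      simp only [hf]
      rw [Nat.cast_sub (by omega), ZMod.natCast_self, zero_sub]
      push_cast
      exact heven 1
    have h2 := (hform (M - 2) (by omega) (by omega)).2
    have e : M - 2 + 1 = M - 1 := by omega
    rw [e, h1, hd0] at h2
    have hM' : ((M - 2 : ℕ) : ℝ) = (M : ℝ) - 2 := by
      rw [Nat.cast_sub (by omega)]; simp
    rw [hM'] at h2
    have hMr : (6 : ℝ) ≤ M := by exact_mod_cast hM
    have h3 : c * (((M : ℝ) - 2 + 1) ^ 2 - 1) = 0 := by
      have : f 1 = c := rfl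
      rw [this] at h2
      linarith
    rcases mul_eq_zero.mp h3 with h4 | h4
    · exact h4
    · nlinarith
  intro t ht
  have htv : t.val ≠ 0 := fun h0 => ht ((ZMod.val_eq_zero t).mp h0)
  have hlt := ZMod.val_lt t
  have e : φ t = f t.val := by simp [hf]
  rw [e]
  by_cases hlast : t.val + 2 ≤ M
  · rw [(hform t.val (by omega) hlast).1, hc0, hd0]; ring
  · have h1 := (hform (t.val - 1) (by omega) (by omega)).2
    have e2 : t.val - 1 + 1 = t.val := by omega
    rw [e2] at h1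
    rw [h1, hc0, hd0]; ring


/-! ### the key identity -/

/-- `|x|` : the distance of `x ∈ ℤ/M` to `0` -/
def dscklAbs (x : ZMod M) : ℕ := min x.val (M - x.val)

theorem dsckl_val_add_real (x y : ZMod M) :
    ((x + y).val : ℝ) / M = (x.val : ℝ) / M + (y.val : ℝ) / M -
      (if x.val + y.val < M then 0 else 1) := by
  have hM : (M : ℝ) ≠ 0 := Nat.cast_ne_zero.mpr (NeZero.ne M)
  split_ifs with h
  · rw [ZMod.val_add_of_lt h]; push_cast; ring
  · have h2 := ZMod.val_add_val_of_le (not_lt.mp h)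
    have h3 : ((x + y).val : ℝ) = (x.val : ℝ) + y.val - M := by
      have : (((x + y).val + M : ℕ) : ℝ) = ((x.val + y.val : ℕ) : ℝ) := by rw [h2]
      push_cast at this
      linarith
    rw [h3]
    field_simp

theorem dsckl_val_sub_real (x y : ZMod M) :
    ((x - y).val : ℝ) / M = (x.val : ℝ) / M - (y.val : ℝ) / M +
      (if y.val ≤ x.val then 0 else 1) := by
  have h := dsckl_val_add_real (x - y) y
  rw [sub_add_cancel] at h
  split_ifs with h1
  · rw [ZMod.val_sub h1, Nat.cast_sub h1]; ring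
  · have h2 : ¬ ((x - y).val + y.val < M) := by
      intro h3
      have h4 := ZMod.val_add_of_lt h3
      rw [sub_add_cancel] at h4
      omega
    rw [if_neg h2] at h
    linarith

theorem dsckl_B_neg (x : ZMod M) : dscklB (-x) = dscklB x := by
  have hM : (M : ℝ) ≠ 0 := Nat.cast_ne_zero.mpr (NeZero.ne M)
  unfold dscklB
  rw [ZMod.neg_val]
  split_ifs with h
  · rw [h, ZMod.val_zero]
  · have hlt := (ZMod.val_lt x).le
    rw [Nat.cast_sub hlt]
    field_simp
    ring

theorem dsckl_Abs_neg (x : ZMod M) : dscklAbs (-x) = dscklAbs x := by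
  unfold dscklAbs
  rw [ZMod.neg_val]
  split_ifs with h
  · rw [h, ZMod.val_zero]
  · have hlt := ZMod.val_lt x
    have h0 : x.val ≠ 0 := fun h0 => h ((ZMod.val_eq_zero x).mp h0)
    rw [min_comm]
    congr 1
    omega

theorem dsckl_Abs_real (x : ZMod M) :
    ((dscklAbs x : ℕ) : ℝ) / M = min ((x.val : ℝ) / M) (1 - (x.val : ℝ) / M) := by
  have hM : (0 : ℝ) < M := Nat.cast_pos.mpr (NeZero.pos M)
  unfold dscklAbs
  rw [Nat.cast_min, Nat.cast_sub (ZMod.val_lt x).le, ← min_div_div_right hM.le]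
  congr 1
  field_simp

theorem dsckl_min_real (u v : ℝ) :
    min u v - max (u + v - 1) 0 = min (min u (1 - u)) (min v (1 - v)) := by
  rcases le_total u v with h1 | h1 <;> rcases le_total (u + v - 1) 0 with h2 | h2 <;>
    rcases le_total u (1 - u) with h3 | h3 <;> rcases le_total v (1 - v) with h4 | h4 <;>
    simp only [min_def, max_def] <;> split_ifs <;> linarith

/-- the key identity `6 min(|x|,|y|) - M = 3M (b(x+y) + b(x-y) - 2 b(x) - 2 b(y))` -/
theorem dsckl_min_eq (x y : ZMod M) :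
    6 * ((min (dscklAbs x) (dscklAbs y) : ℕ) : ℝ) - M =
      3 * M * (dscklB (x + y) + dscklB (x - y) - 2 * dscklB x - 2 * dscklB y) := by
  have hM : (0 : ℝ) < M := Nat.cast_pos.mpr (NeZero.pos M)
  have hx := dsckl_Abs_real x
  have hy := dsckl_Abs_real y
  have hmin : ((min (dscklAbs x) (dscklAbs y) : ℕ) : ℝ) / M =
      min (min ((x.val : ℝ) / M) (1 - (x.val : ℝ) / M))
        (min ((y.val : ℝ) / M) (1 - (y.val : ℝ) / M)) := by
    rw [Nat.cast_min, ← min_div_div_right hM.le, hx, hy]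
  rw [← dsckl_min_real] at hmin
  set u := (x.val : ℝ) / M with hu
  set v := (y.val : ℝ) / M with hv
  have hsum : dscklB (x + y) + dscklB (x - y) - 2 * dscklB x - 2 * dscklB y =
      2 * (min u v - max (u + v - 1) 0) - 1 / 3 := by
    unfold dscklB
    rw [dsckl_val_add_real, dsckl_val_sub_real, ← hu, ← hv]
    have hcast : (x.val + y.val < M) ↔ (u + v - 1 < 0) := by
      rw [hu, hv, ← add_div, sub_neg, div_lt_one hM]
      exact_mod_cast Iff.rfl
    have hcast2 : (y.val ≤ x.val) ↔ (v ≤ u) := by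
      rw [hu, hv, div_le_div_iff_of_pos_right hM]
      exact_mod_cast Iff.rfl
    by_cases h1 : x.val + y.val < M <;> by_cases h2 : y.val ≤ x.val
    · rw [if_pos h1, if_pos h2, min_eq_right (hcast2.mp h2), max_eq_right (hcast.mp h1).le]; ring
    · rw [if_pos h1, if_neg h2, min_eq_left (not_le.mp (mt hcast2.mpr h2)).le,
        max_eq_right (hcast.mp h1).le]; ring
    · rw [if_neg h1, if_pos h2, min_eq_right (hcast2.mp h2),
        max_eq_left (not_lt.mp (mt hcast.mpr h1))]; ring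
    · rw [if_neg h1, if_neg h2, min_eq_left (not_le.mp (mt hcast2.mpr h2)).le,
        max_eq_left (not_lt.mp (mt hcast.mpr h1))]; ring
  rw [hsum, ← hmin]
  field_simp
  ring


/-! ### the orbit statement -/

/-- two even weight functions on `ℤ/M` both satisfying all the unit relations are proportional -/
theorem dsckl_proportional (hM : 6 ≤ M) (a a' : ZMod M → ℝ) (ha : ∀ r, a (-r) = a r)
    (ha' : ∀ r, a' (-r) = a' r)
    (hrel : ∀ α β : ZMod M, α ≠ 0 → β ≠ 0 → α ≠ β → α ≠ -β →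
      ∑ r, a r * (6 * ((min (dscklAbs (α * r)) (dscklAbs (β * r)) : ℕ) : ℝ) - M) = 0)
    (hrel' : ∀ α β : ZMod M, α ≠ 0 → β ≠ 0 → α ≠ β → α ≠ -β →
      ∑ r, a' r * (6 * ((min (dscklAbs (α * r)) (dscklAbs (β * r)) : ℕ) : ℝ) - M) = 0) :
    ∀ r, (∑ s, a' s) * a r = (∑ s, a s) * a' r := by
  have hMr : (0 : ℝ) < M := Nat.cast_pos.mpr (NeZero.pos M)
  set δ : ZMod M → ℝ := fun r => (∑ s, a' s) * a r - (∑ s, a s) * a' r with hδ
  have hδeven : ∀ r, δ (-r) = δ r := fun r => by simp only [hδ, ha, ha']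
  have hδsum : ∑ r, δ r = 0 := by
    simp only [hδ]
    rw [Finset.sum_sub_distrib, ← Finset.mul_sum, ← Finset.mul_sum]
    ring
  have hδrel : ∀ α β : ZMod M, α ≠ 0 → β ≠ 0 → α ≠ β → α ≠ -β →
      ∑ r, δ r * (6 * ((min (dscklAbs (α * r)) (dscklAbs (β * r)) : ℕ) : ℝ) - M) = 0 := by
    intro α β h1 h2 h3 h4
    simp only [hδ, sub_mul, mul_assoc]
    rw [Finset.sum_sub_distrib, ← Finset.mul_sum, ← Finset.mul_sum, hrel α β h1 h2 h3 h4,
      hrel' α β h1 h2 h3 h4]
    ring
  set φ : ZMod M → ℝ := fun t => ∑ r, δ r * dscklB (t * r) with hφ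
  have hφeven : ∀ t, φ (-t) = φ t := fun t => by
    simp only [hφ, neg_mul, dsckl_B_neg]
  have hφpar : ∀ α β : ZMod M, α ≠ 0 → β ≠ 0 → α ≠ β → α ≠ -β →
      φ (α + β) + φ (α - β) = 2 * φ α + 2 * φ β := by
    intro α β h1 h2 h3 h4
    have h5 := hδrel α β h1 h2 h3 h4
    simp only [dsckl_min_eq] at h5
    have h6 : ∑ r, δ r * (3 * (M : ℝ) * (dscklB (α * r + β * r) + dscklB (α * r - β * r) -
        2 * dscklB (α * r) - 2 * dscklB (β * r))) =
        3 * (M : ℝ) * (φ (α + β) + φ (α - β) - 2 * φ α - 2 * φ β) := by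
      simp only [hφ, add_mul, sub_mul]
      simp only [Finset.mul_sum, ← Finset.sum_add_distrib, ← Finset.sum_sub_distrib]
      exact Finset.sum_congr rfl fun r _ => by ring
    rw [h6] at h5
    have h7 : φ (α + β) + φ (α - β) - 2 * φ α - 2 * φ β = 0 := by
      rcases mul_eq_zero.mp h5 with h8 | h8
      · exfalso; linarith
      · exact h8
    linarith
  have hφ0 := dsckl_parallelogram hM φ hφeven hφpar
  have hδ0 := dsckl_fourier δ hδeven hδsum hφ0
  intro r
  have := congrFun hδ0 r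
  simp only [hδ, Pi.zero_apply] at this
  linarith

/-- **the orbit statement**: `Ξ` = the conjugates (`r ξ` = first coordinate of the primitive vector
`ξ`, up to sign), `C ⊆ Ξ` a set containing every `ξ` with `r ξ = ± 1` (the orbit of `(1,0)` under
the inertia at `∞`).  If the unit relations `∑ (6 min(|α r_ξ|, |β r_ξ|) - M) = 0` hold over `Ξ` and
over `C` for all admissible `(α, β)`, then `C` is everything. -/
theorem dsckl_orbit_eq_univ (hM : 6 ≤ M) {Ξ : Type*} [Fintype Ξ] [DecidableEq Ξ]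
    (r : Ξ → ZMod M) (C : Finset Ξ)
    (hX : ∀ α β : ZMod M, α ≠ 0 → β ≠ 0 → α ≠ β → α ≠ -β →
      ∑ ξ : Ξ, (6 * ((min (dscklAbs (α * r ξ)) (dscklAbs (β * r ξ)) : ℕ) : ℝ) - M) = 0)
    (hC : ∀ α β : ZMod M, α ≠ 0 → β ≠ 0 → α ≠ β → α ≠ -β →
      ∑ ξ ∈ C, (6 * ((min (dscklAbs (α * r ξ)) (dscklAbs (β * r ξ)) : ℕ) : ℝ) - M) = 0)
    (h1 : ∀ ξ, (r ξ = 1 ∨ r ξ = -1) → ξ ∈ C) (h1' : ∃ ξ, r ξ = 1 ∨ r ξ = -1) :
    C = Finset.univ := by
  classical
  -- the weight of a subset
  set w : Finset Ξ → ZMod M → ℝ := fun S ρ =>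
    ∑ ξ ∈ S, ((if r ξ = ρ then (1 : ℝ) else 0) + (if r ξ = -ρ then (1 : ℝ) else 0)) with hw
  have hweven : ∀ S ρ, w S (-ρ) = w S ρ := by
    intro S ρ
    simp only [hw, neg_neg]
    exact Finset.sum_congr rfl fun ξ _ => add_comm _ _
  -- summation against an even function
  have hwsum : ∀ (S : Finset Ξ) (F : ZMod M → ℝ), (∀ ρ, F (-ρ) = F ρ) →
      ∑ ρ, w S ρ * F ρ = 2 * ∑ ξ ∈ S, F (r ξ) := by
    intro S F hF
    simp only [hw, Finset.sum_mul]
    rw [Finset.sum_comm, Finset.mul_sum]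
    refine Finset.sum_congr rfl fun ξ _ => ?_
    simp only [add_mul, ite_mul, one_mul, zero_mul]
    rw [Finset.sum_add_distrib, Finset.sum_ite_eq Finset.univ (r ξ)]
    have h2 : ∀ ρ : ZMod M, (r ξ = -ρ) ↔ (-r ξ = ρ) := fun ρ => by
      constructor
      · intro h; rw [h, neg_neg]
      · intro h; rw [← h, neg_neg]
    simp only [h2, Finset.sum_ite_eq Finset.univ (-r ξ), Finset.mem_univ, if_true, hF]
    ring
  have hFeven : ∀ α β : ZMod M, ∀ ρ : ZMod M,
      (6 * ((min (dscklAbs (α * -ρ)) (dscklAbs (β * -ρ)) : ℕ) : ℝ) - M) =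
      (6 * ((min (dscklAbs (α * ρ)) (dscklAbs (β * ρ)) : ℕ) : ℝ) - M) := by
    intro α β ρ
    rw [mul_neg, mul_neg, dsckl_Abs_neg, dsckl_Abs_neg]
  have hprop := dsckl_proportional hM (w C) (w Finset.univ) (hweven C) (hweven Finset.univ)
    (fun α β h1 h2 h3 h4 => by
      rw [hwsum C _ (hFeven α β), hC α β h1 h2 h3 h4, mul_zero])
    (fun α β h1 h2 h3 h4 => by
      rw [hwsum Finset.univ _ (hFeven α β), hX α β h1 h2 h3 h4, mul_zero]) 1
  -- total masses
  have hmass : ∀ S : Finset Ξ, ∑ ρ, w S ρ = 2 * (S.card : ℝ) := by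
    intro S
    have := hwsum S (fun _ => 1) (fun _ => rfl)
    simp only [mul_one, Finset.sum_const, nsmul_eq_mul] at this
    exact this
  -- the weights at `1` agree and are positive
  have hw1 : w C 1 = w Finset.univ 1 := by
    simp only [hw]
    rw [← Finset.sum_subset (Finset.subset_univ C)]
    intro ξ _ hξ
    have h2 : ¬ (r ξ = 1 ∨ r ξ = -1) := fun h => hξ (h1 ξ h)
    rw [not_or] at h2
    rw [if_neg h2.1, if_neg h2.2, add_zero]
  have hw1pos : 0 < w Finset.univ 1 := by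
    obtain ⟨ξ₀, hξ₀⟩ := h1'
    simp only [hw]
    have hnonneg : ∀ ξ ∈ (Finset.univ : Finset Ξ), (0 : ℝ) ≤
        ((if r ξ = 1 then (1 : ℝ) else 0) + (if r ξ = -1 then (1 : ℝ) else 0)) := by
      intro ξ _
      split_ifs <;> norm_num
    refine lt_of_lt_of_le ?_ (Finset.single_le_sum hnonneg (Finset.mem_univ ξ₀))
    rcases hξ₀ with h | h
    · rw [if_pos h]; split_ifs <;> norm_num
    · rw [if_pos h]; split_ifs <;> norm_num
  rw [hmass, hmass, hw1] at hprop
  have hcard : (C.card : ℝ) = ((Finset.univ : Finset Ξ).card : ℝ) := by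
    have := mul_right_cancel₀ hw1pos.ne' hprop
    linarith
  apply Finset.eq_univ_of_card
  have : C.card = (Finset.univ : Finset Ξ).card := by exact_mod_cast hcard
  rw [this, Finset.card_univ]

/-- the same with the orders as integers (as `key_abstract` of S28 delivers them) -/
theorem dsckl_orbit_eq_univ_int (hM : 6 ≤ M) {Ξ : Type*} [Fintype Ξ] [DecidableEq Ξ]
    (r : Ξ → ZMod M) (C : Finset Ξ)
    (hX : ∀ α β : ZMod M, α ≠ 0 → β ≠ 0 → α ≠ β → α ≠ -β →
      ∑ ξ : Ξ, (6 * ((min (dscklAbs (α * r ξ)) (dscklAbs (β * r ξ)) : ℕ) : ℤ) - M) = 0)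
    (hC : ∀ α β : ZMod M, α ≠ 0 → β ≠ 0 → α ≠ β → α ≠ -β →
      ∑ ξ ∈ C, (6 * ((min (dscklAbs (α * r ξ)) (dscklAbs (β * r ξ)) : ℕ) : ℤ) - M) = 0)
    (h1 : ∀ ξ, (r ξ = 1 ∨ r ξ = -1) → ξ ∈ C) (h1' : ∃ ξ, r ξ = 1 ∨ r ξ = -1) :
    C = Finset.univ := by
  refine dsckl_orbit_eq_univ hM r C (fun α β h1 h2 h3 h4 => ?_) (fun α β h1 h2 h3 h4 => ?_) h1 h1'
  · have := congrArg (fun z : ℤ => (z : ℝ)) (hX α β h1 h2 h3 h4)
    simpa using this
  · have := congrArg (fun z : ℤ => (z : ℝ)) (hC α β h1 h2 h3 h4)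
    simpa using this

end zmod

end Fermat.Agent.DS
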