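import Mathlib
import Fermat.Agent.DS.C.Igusa.Alg
import Fermat.Agent.DS.C.Igusa.KubertLang

/-!
# Program DS, package (C), row C3 (Igusa for `X₁(M)`): all the conjugates form ONE class (IG-ONECLASS)

Abstract form: `X` with a "first coordinate" `r : X → ℤ/M`, the units `W_{α,β}` of order
`6 min(|α r_ξ|, |β r_ξ|) - M` at `ξ`, and the points with `r_ξ = ±1` equivalent to `ξ₀`
(`T`-stability). Then (A2) of `Alg.lean` and the Kubert-Lang lemma `dsckl_orbit_eq_univ_int` give: every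
`ξ` is equivalent to `ξ₀`.
-/

set_option autoImplicit false

noncomputable section

namespace Fermat.Agent.DS

open Polynomial Fermat.Agent.S28

theorem dscig_one_class {M : ℕ} [NeZero M] (hM : 6 ≤ M) {k : Type*} [Field k]
    {X : Type*} [Fintype X] [DecidableEq X]
    {J : LaurentSeries k} {A : Subring (X → LaurentSeries k)} (h : DscigAlg J A)
    (r : X → ZMod M) (ξ₀ : X)
    (hunits : ∀ α β : ZMod M, α ≠ 0 → β ≠ 0 → α ≠ β → α ≠ -β →
      ∃ u ∈ A, ∃ u' ∈ A, (∀ ξ, u ξ * u' ξ = 1) ∧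
        ∀ ξ, (u ξ).order =
          6 * ((min (dscklAbs (α * r ξ)) (dscklAbs (β * r ξ)) : ℕ) : ℤ) - M)
    (hT : ∀ ξ, (r ξ = 1 ∨ r ξ = -1) → DscigRel A ξ₀ ξ)
    (h0 : r ξ₀ = 1 ∨ r ξ₀ = -1) :
    ∀ ξ, DscigRel A ξ₀ ξ := by
  classical
  set O : Finset X := Finset.univ.filter (fun ξ => DscigRel A ξ₀ ξ) with hOdef
  have hmem : ∀ ξ, ξ ∈ O ↔ DscigRel A ξ₀ ξ := fun ξ => by
    rw [hOdef, Finset.mem_filter]
    exact ⟨fun h => h.2, fun h => ⟨Finset.mem_univ ξ, h⟩⟩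
  have hO : ∀ ξ ∈ O, ∀ ξ', ξ' ∈ O ↔ DscigRel A ξ ξ' := by
    intro ξ hξ ξ'
    rw [hmem] at hξ
    rw [hmem]
    exact ⟨fun h' => hξ.symm.trans h', fun h' => hξ.trans h'⟩
  have hOuniv : O = Finset.univ := by
    refine dsckl_orbit_eq_univ_int hM r O ?_ ?_ (fun ξ hξ => (hmem ξ).2 (hT ξ hξ)) ⟨ξ₀, h0⟩
    · intro α β h1 h2 h3 h4
      obtain ⟨u, hu, u', hu', huu', hord⟩ := hunits α β h1 h2 h3 h4
      have := dscig_sum_order_univ h hu hu' huu'
      rw [← this]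
      exact Finset.sum_congr rfl fun ξ _ => (hord ξ).symm
    · intro α β h1 h2 h3 h4
      obtain ⟨u, hu, u', hu', huu', hord⟩ := hunits α β h1 h2 h3 h4
      have := dscig_sum_order h O hO hu hu' huu'
      rw [← this]
      exact Finset.sum_congr rfl fun ξ _ => (hord ξ).symm
  intro ξ
  rw [← hmem, hOuniv]
  exact Finset.mem_univ ξ

end Fermat.Agent.DS
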