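import Mathlib
import Fermat.Agent.DS.C.Defs
import Fermat.Agent.DS.C.U.Ord

/-!
# Program DS, package (C), row C3 (Igusa for `X₁(M)`), leaf IG-SEP0

`ξ₀ = (1,0)` is COLLISION-FREE for the cross-ratios: if `ξ = (r,t) ∈ (ℤ/M)²` has exact order `M`,
`6 ≤ M`, and `ξ ≠ ±ξ₀`, then there is an admissible triple `(a,b,c)` with
`R^ξ_{a,b,c} ≠ R^{ξ₀}_{a,b,c}`, where `R^ξ_{a,b,c} = (P_{aξ} - P_{bξ})/(P_{aξ} - P_{cξ})` and
`P_v = dscuoP M ζ v` are the formal conjugates of helper2's `U/Ord.lean` (any field `k` with a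
primitive `M`-th root of unity `ζ`, any characteristic).

* `r ≠ ±1` is excluded by the ORDERS `min(|ar|,|br|) - min(|ar|,|cr|)` (`dscigs_comb`);
* `r = ±1`, `t ≠ 0` : `P_{a(1,t)}(s) = P_{a(1,0)}(ζ^t s)` (`dscigs_X_rescale`), and
  `R^{ξ₀}_{2,3,1} = -s·(1 + …)` is not invariant under `s ↦ ζ^t s`.

Exports: `dscig_sep0` (cross-multiplied form in `k[[s]]`), `dscig_sep0_div` (quotient form in
`k((s))`).
-/

set_option autoImplicit false
set_option linter.unusedSectionVars false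
set_option linter.style.haveILetI false

noncomputable section

namespace Fermat.Agent.DS

open PowerSeries

section Comb

variable (M : ℕ) [NeZero M]

omit [NeZero M] in
theorem dscigs_abs_natCast (n : ℕ) (h : 2 * n ≤ M) (hn : n < M) :
    dscuoAbs M ((n : ℕ) : ZMod M) = n := by
  unfold dscuoAbs
  rw [ZMod.val_natCast_of_lt hn]
  omega

theorem dscigs_abs_one (hM : 3 ≤ M) : dscuoAbs M (1 : ZMod M) = 1 := by
  have := dscigs_abs_natCast M 1 (by omega) (by omega)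
  rwa [Nat.cast_one] at this

theorem dscigs_abs_two (hM : 4 ≤ M) : dscuoAbs M (2 : ZMod M) = 2 := by
  have := dscigs_abs_natCast M 2 (by omega) (by omega)
  rwa [Nat.cast_ofNat] at this

theorem dscigs_abs_three (hM : 6 ≤ M) : dscuoAbs M (3 : ZMod M) = 3 := by
  have := dscigs_abs_natCast M 3 (by omega) (by omega)
  rwa [Nat.cast_ofNat] at this

theorem dscigs_ne_of_abs_ne {a b : ZMod M} (h : dscuoAbs M a ≠ dscuoAbs M b) :
    a ≠ b ∧ a ≠ -b := by
  constructor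
  · rintro rfl
    exact h rfl
  · rintro rfl
    exact h (dscuoAbs_neg M b)

theorem dscigs_ne_zero_of_abs {a : ZMod M} (h : dscuoAbs M a ≠ 0) : a ≠ 0 := by
  rintro rfl
  exact h (dscuoAbs_zero M)

theorem dscigs_two_le_abs {a : ZMod M} (hM : 3 ≤ M) (ha : a ≠ 0) (h1 : a ≠ 1) (h2 : a ≠ -1) :
    2 ≤ dscuoAbs M a := by
  by_contra hlt
  have hpos := dscuoAbs_pos M ha
  have h1' : dscuoAbs M a = dscuoAbs M (1 : ZMod M) := by
    rw [dscigs_abs_one M hM]
    omega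
  have hone : (1 : ZMod M) ≠ 0 := dscigs_ne_zero_of_abs M (by rw [dscigs_abs_one M hM]; omega)
  rcases dscuoAbs_eq_iff M ha hone h1' with h | h
  · exact h1 h
  · exact h2 h

theorem dscigs_adm_of_abs {a b c : ZMod M} (ha : dscuoAbs M a ≠ 0) (hb : dscuoAbs M b ≠ 0)
    (hc : dscuoAbs M c ≠ 0) (hab : dscuoAbs M a ≠ dscuoAbs M b)
    (hac : dscuoAbs M a ≠ dscuoAbs M c) (hbc : dscuoAbs M b ≠ dscuoAbs M c) : DscAdm M a b c :=
  ⟨dscigs_ne_zero_of_abs M ha, dscigs_ne_zero_of_abs M hb, dscigs_ne_zero_of_abs M hc,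
    (dscigs_ne_of_abs_ne M hab).1, (dscigs_ne_of_abs_ne M hab).2,
    (dscigs_ne_of_abs_ne M hac).1, (dscigs_ne_of_abs_ne M hac).2,
    (dscigs_ne_of_abs_ne M hbc).1, (dscigs_ne_of_abs_ne M hbc).2⟩

/-- the combinatorial core: if the orders of all cross-ratios at `ξ = (r, *)` agree with those at
`ξ₀ = (1, 0)`, then `r = ±1`. -/
theorem dscigs_comb (hM : 6 ≤ M) (r : ZMod M)
    (H : ∀ a b c : ZMod M, DscAdm M a b c →
      min (dscuoAbs M (a * r)) (dscuoAbs M (b * r)) + min (dscuoAbs M a) (dscuoAbs M c) =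
      min (dscuoAbs M a) (dscuoAbs M b) + min (dscuoAbs M (a * r)) (dscuoAbs M (c * r))) :
    r = 1 ∨ r = -1 := by
  have h1 := dscigs_abs_one M (by omega)
  have h2 := dscigs_abs_two M (by omega)
  have h3 := dscigs_abs_three M hM
  have hone : (1 : ZMod M) ≠ 0 := dscigs_ne_zero_of_abs M (by rw [h1]; omega)
  haveI : Nontrivial (ZMod M) := ⟨⟨1, 0, hone⟩⟩
  have adm123 : DscAdm M 1 2 3 := dscigs_adm_of_abs M (by omega) (by omega) (by omega)
    (by omega) (by omega) (by omega)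
  have adm231 : DscAdm M 2 3 1 := dscigs_adm_of_abs M (by omega) (by omega) (by omega)
    (by omega) (by omega) (by omega)
  have E1 := H 1 2 3 adm123
  have E2 := H 2 3 1 adm231
  rw [h1, h2, h3] at E1 E2
  rw [one_mul] at E1 E2
  set f1 := dscuoAbs M r with hf1
  set f2 := dscuoAbs M (2 * r) with hf2
  set f3 := dscuoAbs M (3 * r) with hf3
  have hlt : f1 < f2 := by
    simp only [Nat.min_def] at E1 E2
    split_ifs at E1 E2 <;> omega
  have hr0 : r ≠ 0 := by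
    rintro rfl
    rw [hf2, mul_zero, dscuoAbs_zero] at hlt
    exact Nat.not_lt_zero _ hlt
  have hf1pos : 0 < f1 := dscuoAbs_pos M hr0
  -- an `a₀ ≠ 0` with `|a₀ r| ≤ 1`
  obtain ⟨a₀, ha₀, hfa₀⟩ : ∃ a₀ : ZMod M, a₀ ≠ 0 ∧ dscuoAbs M (a₀ * r) ≤ 1 := by
    by_cases hu : IsUnit r
    · obtain ⟨u, rfl⟩ := hu
      refine ⟨((u⁻¹ : (ZMod M)ˣ) : ZMod M), Units.ne_zero _, ?_⟩
      rw [Units.inv_mul, h1]
    · rw [isUnit_iff_mem_nonZeroDivisors_of_finite, mem_nonZeroDivisors_iff_right] at hu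
      rw [not_forall] at hu
      obtain ⟨x, hx'⟩ := hu
      rw [Classical.not_imp] at hx'
      obtain ⟨hx, hx0⟩ := hx'
      refine ⟨x, hx0, ?_⟩
      rw [hx, dscuoAbs_zero]
      omega
  by_cases hpm : a₀ = 1 ∨ a₀ = -1
  · have hf1le : f1 ≤ 1 := by
      rcases hpm with rfl | rfl
      · rwa [one_mul] at hfa₀
      · rwa [neg_mul, one_mul, dscuoAbs_neg] at hfa₀
    have hf1eq : dscuoAbs M r = dscuoAbs M (1 : ZMod M) := by
      rw [h1]
      omega
    exact dscuoAbs_eq_iff M hr0 hone hf1eq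
  · exfalso
    rw [not_or] at hpm
    have hga₀ : 2 ≤ dscuoAbs M a₀ := dscigs_two_le_abs M (by omega) ha₀ hpm.1 hpm.2
    -- choose `c ∈ {2, 3}` with `c ≠ ±a₀`
    obtain ⟨c, hc2, hcne, hcne'⟩ : ∃ c : ZMod M, 2 ≤ dscuoAbs M c ∧ dscuoAbs M c ≤ 3 ∧
        (a₀ ≠ c ∧ a₀ ≠ -c) := by
      by_cases h : dscuoAbs M a₀ = 2
      · exact ⟨3, by omega, by omega, dscigs_ne_of_abs_ne M (by omega)⟩
      · exact ⟨2, by omega, by omega, dscigs_ne_of_abs_ne M (by omega)⟩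
    have hc0 : c ≠ 0 := dscigs_ne_zero_of_abs M (by omega)
    have hc1 : c ≠ 1 ∧ c ≠ -1 := dscigs_ne_of_abs_ne M (by omega)
    have adm : DscAdm M a₀ c 1 :=
      ⟨ha₀, hc0, hone, hcne'.1, hcne'.2, hpm.1, hpm.2, hc1.1, hc1.2⟩
    have E3 := H a₀ c 1 adm
    rw [h1, one_mul] at E3
    simp only [Nat.min_def] at E3
    split_ifs at E3 <;> omega

/-- the easy half of SEP0, exported separately: for `r ≠ ±1` the ORDERS of some cross-ratio at
`ξ = (r, *)` and at `ξ₀ = (1, 0)` differ (as integers). -/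
theorem dscig_sep0_order (hM : 6 ≤ M) (r : ZMod M) (hr : r ≠ 1) (hr' : r ≠ -1) :
    ∃ a b c : ZMod M, DscAdm M a b c ∧
      ((min (dscuoAbs M (a * r)) (dscuoAbs M (b * r)) : ℕ) : ℤ) -
          ((min (dscuoAbs M (a * r)) (dscuoAbs M (c * r)) : ℕ) : ℤ) ≠
        ((min (dscuoAbs M a) (dscuoAbs M b) : ℕ) : ℤ) -
          ((min (dscuoAbs M a) (dscuoAbs M c) : ℕ) : ℤ) := by
  by_contra hcon
  have hall : ∀ a b c : ZMod M, DscAdm M a b c →
      ((min (dscuoAbs M (a * r)) (dscuoAbs M (b * r)) : ℕ) : ℤ) -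
          ((min (dscuoAbs M (a * r)) (dscuoAbs M (c * r)) : ℕ) : ℤ) =
        ((min (dscuoAbs M a) (dscuoAbs M b) : ℕ) : ℤ) -
          ((min (dscuoAbs M a) (dscuoAbs M c) : ℕ) : ℤ) := by
    intro a b c h
    by_contra h'
    exact hcon ⟨a, b, c, h, h'⟩
  rcases dscigs_comb M hM r (fun a b c h => by have := hall a b c h; omega) with h | h
  · exact hr h
  · exact hr' h

end Comb

section Series

variable {K : Type*} [Field K] {M : ℕ} [NeZero M] {ζ : K}

/-- `ζ^{(m·σ).val} = ζ^{m·σ.val}`. -/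
theorem dscigs_pow_mul_val (hζ : ζ ^ M = 1) (m : ℕ) (σ : ZMod M) :
    ζ ^ (((m : ZMod M) * σ).val) = ζ ^ (m * σ.val) := by
  have h : ((m : ZMod M) * σ) = ((m * σ.val : ℕ) : ZMod M) := by
    rw [Nat.cast_mul, ZMod.natCast_zmod_val]
  rw [h, dscuo_pow_cast hζ]

/-- `X_{a(1,σ)}(s) = X_{a(1,0)}(ζ^σ s)`. -/
theorem dscigs_X_rescale (hζ : ζ ^ M = 1) (a σ : ZMod M) :
    dscuoX M ζ a (a * σ) = PowerSeries.rescale (ζ ^ σ.val) (dscuoX M ζ a 0) := by
  ext n
  rw [PowerSeries.coeff_rescale, dscuoX_coeff, dscuoX_coeff, Finset.mul_sum]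
  apply Finset.sum_congr rfl
  intro e he
  have hen : n / e * e = n := Nat.div_mul_cancel (Nat.dvd_of_mem_divisors he)
  rw [mul_add]
  congr 1
  · split_ifs with h
    · rw [← h, pow_mul, dscigs_pow_mul_val hζ, ← pow_mul, ZMod.val_zero, Nat.zero_mul, pow_zero,
        mul_one, ← pow_mul, mul_comm (ζ ^ (σ.val * n)), mul_assoc (n / e) σ.val e,
        mul_comm σ.val e, ← mul_assoc (n / e) e σ.val, hen, mul_comm n σ.val]
    · rw [mul_zero]
  · split_ifs with h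
    · have h' : -(a * σ) = ((n / e : ℕ) : ZMod M) * σ := by rw [h, neg_mul]
      rw [h', pow_mul, dscigs_pow_mul_val hζ, ← pow_mul, neg_zero, ZMod.val_zero, Nat.zero_mul,
        pow_zero, mul_one, ← pow_mul, mul_comm (ζ ^ (σ.val * n)), mul_assoc (n / e) σ.val e,
        mul_comm σ.val e, ← mul_assoc (n / e) e σ.val, hen, mul_comm n σ.val]
    · rw [mul_zero]

/-- `P_{a(1,σ)}(s) = P_{a(1,0)}(ζ^σ s)` for `a ≠ 0`. -/
theorem dscigs_P_rescale (hζ : ζ ^ M = 1) {a : ZMod M} (ha : a ≠ 0) (σ : ZMod M) :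
    dscuoP M ζ a (a * σ) = PowerSeries.rescale (ζ ^ σ.val) (dscuoP M ζ a 0) := by
  rw [dscuoP_of_ne M ζ a _ ha, dscuoP_of_ne M ζ a _ ha, dscigs_X_rescale hζ]

/-- the coefficient of a product at the sum of the two (lower bounds of the) orders. -/
theorem dscigs_coeff_mul_lead (A B : PowerSeries K) (α β : ℕ)
    (hA : ∀ i < α, PowerSeries.coeff i A = 0) (hB : ∀ j < β, PowerSeries.coeff j B = 0) :
    PowerSeries.coeff (α + β) (A * B) = PowerSeries.coeff α A * PowerSeries.coeff β B := by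
  rw [PowerSeries.coeff_mul]
  rw [Finset.sum_eq_single (α, β)]
  · rintro ⟨i, j⟩ hij hne
    rw [Finset.HasAntidiagonal.mem_antidiagonal] at hij
    simp only at hij
    by_cases hi : i < α
    · rw [hA i hi, zero_mul]
    · by_cases hj : j < β
      · rw [hB j hj, mul_zero]
      · exfalso
        apply hne
        have : i = α ∧ j = β := by omega
        rw [this.1, this.2]
  · intro h
    exact absurd (Finset.HasAntidiagonal.mem_antidiagonal.2 (rfl : (α, β).1 + (α, β).2 = α + β)) h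

end Series

section Main

variable {K : Type*} [Field K] {M : ℕ} [NeZero M] {ζ : K}

/-- the rotation step: for `σ ≠ 0` the cross-ratio `R_{2,3,1}` separates `(1,σ)` from `(1,0)`. -/
theorem dscigs_rot (hM : 6 ≤ M) (hζ : IsPrimitiveRoot ζ M) {σ : ZMod M} (hσ : σ ≠ 0) :
    (dscuoP M ζ 2 (2 * σ) - dscuoP M ζ 3 (3 * σ)) * (dscuoP M ζ 2 0 - dscuoP M ζ 1 0) ≠
      (dscuoP M ζ 2 0 - dscuoP M ζ 3 0) * (dscuoP M ζ 2 (2 * σ) - dscuoP M ζ 1 (1 * σ)) := by
  intro heq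
  have hζ1 : ζ ^ M = 1 := hζ.pow_eq_one
  have h1 := dscigs_abs_one M (by omega)
  have h2 := dscigs_abs_two M (by omega)
  have h3 := dscigs_abs_three M hM
  have n1 : (1 : ZMod M) ≠ 0 := dscigs_ne_zero_of_abs M (by rw [h1]; omega)
  have n2 : (2 : ZMod M) ≠ 0 := dscigs_ne_zero_of_abs M (by rw [h2]; omega)
  have n3 : (3 : ZMod M) ≠ 0 := dscigs_ne_zero_of_abs M (by rw [h3]; omega)
  have n23 : (2 : ZMod M) ≠ 3 ∧ (2 : ZMod M) ≠ -3 := dscigs_ne_of_abs_ne M (by rw [h2, h3]; omega)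
  have n21 : (2 : ZMod M) ≠ 1 ∧ (2 : ZMod M) ≠ -1 := dscigs_ne_of_abs_ne M (by rw [h2, h1]; omega)
  rw [dscigs_P_rescale hζ1 n2, dscigs_P_rescale hζ1 n3, dscigs_P_rescale hζ1 n1, ← map_sub,
    ← map_sub] at heq
  set ω := ζ ^ σ.val with hω
  set A := dscuoP M ζ 2 0 - dscuoP M ζ 3 0 with hA
  set B := dscuoP M ζ 2 0 - dscuoP M ζ 1 0 with hB
  have hA0 : ∀ i < 2, PowerSeries.coeff i A = 0 := by
    intro i hi
    exact dscuo_order M ζ 2 0 3 0 (by rw [h2, h3]; simpa using hi)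
  have hB0 : ∀ j < 1, PowerSeries.coeff j B = 0 := by
    intro j hj
    exact dscuo_order M ζ 2 0 1 0 (by rw [h2, h1]; simpa using hj)
  have hA2 : PowerSeries.coeff 2 A = 1 := by
    have := dscuoX_zero_sub_lead M ζ n2 n3 n23.1 n23.2
    rw [h2, h3] at this
    rw [hA, dscuoP_of_ne M ζ 2 0 n2, dscuoP_of_ne M ζ 3 0 n3]
    simpa using this
  have hB1 : PowerSeries.coeff 1 B = -1 := by
    have := dscuoX_zero_sub_lead M ζ n2 n1 n21.1 n21.2
    rw [h2, h1] at this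
    rw [hB, dscuoP_of_ne M ζ 2 0 n2, dscuoP_of_ne M ζ 1 0 n1]
    simpa using this
  have hL := dscigs_coeff_mul_lead (PowerSeries.rescale ω A) B 2 1
    (fun i hi => by rw [PowerSeries.coeff_rescale, hA0 i hi, mul_zero]) hB0
  have hR := dscigs_coeff_mul_lead A (PowerSeries.rescale ω B) 2 1 hA0
    (fun j hj => by rw [PowerSeries.coeff_rescale, hB0 j hj, mul_zero])
  rw [heq, hR, PowerSeries.coeff_rescale, PowerSeries.coeff_rescale, hA2, hB1] at hL
  have hω0 : ω ≠ 0 := pow_ne_zero _ (hζ.ne_zero (NeZero.ne M))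
  have hω1 : ω = 1 := by
    have h : ω * (ω - 1) = 0 := by linear_combination hL
    rcases mul_eq_zero.1 h with h | h
    · exact absurd h hω0
    · exact sub_eq_zero.1 h
  have hdvd : M ∣ σ.val := (hζ.pow_eq_one_iff_dvd _).1 hω1
  have hval : σ.val = 0 := Nat.eq_zero_of_dvd_of_lt hdvd (ZMod.val_lt σ)
  exact hσ ((ZMod.val_eq_zero σ).1 hval)

theorem dscigs_P_neg_one (hζ1 : ζ ^ M = 1) (a t : ZMod M) :
    dscuoP M ζ (a * -1) (a * t) = dscuoP M ζ a (a * -t) := by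
  rw [← dscuoP_neg hζ1 a (a * -t)]
  congr 1 <;> ring

/-- **IG-SEP0** (cross-multiplied form in `k[[s]]`): `ξ₀ = (1,0)` is collision-free for the
cross-ratios. -/
theorem dscig_sep0 (hM : 6 ≤ M) (hζ : IsPrimitiveRoot ζ M) {r t : ZMod M}
    (hξ : ∀ a : ZMod M, a * r = 0 → a * t = 0 → a = 0)
    (hne : ¬ ((r = 1 ∧ t = 0) ∨ (r = -1 ∧ t = 0))) :
    ∃ a b c : ZMod M, DscAdm M a b c ∧
      (dscuoP M ζ (a * r) (a * t) - dscuoP M ζ (b * r) (b * t)) *
          (dscuoP M ζ a 0 - dscuoP M ζ c 0) ≠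
        (dscuoP M ζ a 0 - dscuoP M ζ b 0) *
          (dscuoP M ζ (a * r) (a * t) - dscuoP M ζ (c * r) (c * t)) := by
  by_contra hcon
  have hall : ∀ a b c : ZMod M, DscAdm M a b c →
      (dscuoP M ζ (a * r) (a * t) - dscuoP M ζ (b * r) (b * t)) *
          (dscuoP M ζ a 0 - dscuoP M ζ c 0) =
        (dscuoP M ζ a 0 - dscuoP M ζ b 0) *
          (dscuoP M ζ (a * r) (a * t) - dscuoP M ζ (c * r) (c * t)) := by
    intro a b c h
    by_contra h'
    exact hcon ⟨a, b, c, h, h'⟩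
  have hζ1 : ζ ^ M = 1 := hζ.pow_eq_one
  have hunit := dscuo_hunit_of_field M hζ
  have h1 := dscigs_abs_one M (by omega)
  have h2 := dscigs_abs_two M (by omega)
  have h3 := dscigs_abs_three M hM
  have adm231 : DscAdm M 2 3 1 := dscigs_adm_of_abs M (by omega) (by omega) (by omega)
    (by omega) (by omega) (by omega)
  have H : ∀ a b c : ZMod M, DscAdm M a b c →
      min (dscuoAbs M (a * r)) (dscuoAbs M (b * r)) + min (dscuoAbs M a) (dscuoAbs M c) =
      min (dscuoAbs M a) (dscuoAbs M b) + min (dscuoAbs M (a * r)) (dscuoAbs M (c * r)) := by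
    intro a b c h
    have hadm := h
    obtain ⟨ha, hb, hc, hab, hab', hac, hac', -, -⟩ := h
    have o1 := dscuo_order_smul_eq hζ1 hunit hξ ha hb hab hab'
    have o4 := dscuo_order_smul_eq hζ1 hunit hξ ha hc hac hac'
    have o2 : PowerSeries.order (dscuoP M ζ a 0 - dscuoP M ζ c 0) =
        ((min (dscuoAbs M a) (dscuoAbs M c) : ℕ) : ℕ∞) :=
      dscuo_order_eq hζ1 hunit (fun h => ha h.1) (fun h => hc h.1) (fun h => hac h.1)
        (fun h => hac' h.1)
    have o3 : PowerSeries.order (dscuoP M ζ a 0 - dscuoP M ζ b 0) =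
        ((min (dscuoAbs M a) (dscuoAbs M b) : ℕ) : ℕ∞) :=
      dscuo_order_eq hζ1 hunit (fun h => ha h.1) (fun h => hb h.1) (fun h => hab h.1)
        (fun h => hab' h.1)
    have := congrArg PowerSeries.order (hall a b c hadm)
    rw [PowerSeries.order_mul, PowerSeries.order_mul, o1, o2, o3, o4] at this
    exact_mod_cast this
  have E := hall 2 3 1 adm231
  rcases dscigs_comb M hM r H with rfl | rfl
  · have ht : t ≠ 0 := fun h => hne (Or.inl ⟨rfl, h⟩)
    simp only [mul_one] at E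
    have := dscigs_rot hM hζ ht
    rw [one_mul] at this
    rw [one_mul] at E
    exact this E
  · have ht : -t ≠ 0 := fun h => hne (Or.inr ⟨rfl, neg_eq_zero.1 h⟩)
    rw [dscigs_P_neg_one hζ1, dscigs_P_neg_one hζ1, dscigs_P_neg_one hζ1] at E
    exact dscigs_rot hM hζ ht E

/-- **IG-SEP0** (quotient form in `k((s))`). -/
theorem dscig_sep0_div (hM : 6 ≤ M) (hζ : IsPrimitiveRoot ζ M) {r t : ZMod M}
    (hξ : ∀ a : ZMod M, a * r = 0 → a * t = 0 → a = 0)
    (hne : ¬ ((r = 1 ∧ t = 0) ∨ (r = -1 ∧ t = 0))) :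
    ∃ a b c : ZMod M, DscAdm M a b c ∧
      HahnSeries.ofPowerSeries ℤ K (dscuoP M ζ (a * r) (a * t) - dscuoP M ζ (b * r) (b * t)) /
          HahnSeries.ofPowerSeries ℤ K (dscuoP M ζ (a * r) (a * t) - dscuoP M ζ (c * r) (c * t)) ≠
        HahnSeries.ofPowerSeries ℤ K (dscuoP M ζ a 0 - dscuoP M ζ b 0) /
          HahnSeries.ofPowerSeries ℤ K (dscuoP M ζ a 0 - dscuoP M ζ c 0) := by
  obtain ⟨a, b, c, hadm, hsep⟩ := dscig_sep0 hM hζ hξ hne
  refine ⟨a, b, c, hadm, ?_⟩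
  have hζ1 : ζ ^ M = 1 := hζ.pow_eq_one
  have hunit := dscuo_hunit_of_field M hζ
  obtain ⟨ha, hb, hc, hab, hab', hac, hac', -, -⟩ := hadm
  have hinj := HahnSeries.ofPowerSeries_injective (Γ := ℤ) (R := K)
  have d1 : HahnSeries.ofPowerSeries ℤ K
      (dscuoP M ζ (a * r) (a * t) - dscuoP M ζ (c * r) (c * t)) ≠ 0 := by
    rw [Ne, ← map_zero (HahnSeries.ofPowerSeries ℤ K), hinj.eq_iff]
    intro h0
    have := (dscuo_lead_smul hζ1 hunit hξ ha hc hac hac').ne_zero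
    rw [h0, map_zero] at this
    exact this rfl
  have d2 : HahnSeries.ofPowerSeries ℤ K (dscuoP M ζ a 0 - dscuoP M ζ c 0) ≠ 0 := by
    rw [Ne, ← map_zero (HahnSeries.ofPowerSeries ℤ K), hinj.eq_iff]
    intro h0
    have := (dscuo_lead hζ1 hunit (r := a) (s := 0) (r' := c) (s' := 0) (fun h => ha h.1)
      (fun h => hc h.1) (fun h => hac h.1) (fun h => hac' h.1)).ne_zero
    rw [h0, map_zero] at this
    exact this rfl
  intro heq
  rw [div_eq_div_iff d1 d2, ← map_mul, ← map_mul, hinj.eq_iff] at heq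
  exact hsep heq

end Main

end Fermat.Agent.DS
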