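import Mathlib
import Fermat.Agent.S28.Key
import Fermat.Agent.S18.V.DegreeDown

/-!
# DS-C row C3, leaf SWAP : from the degree over `k(j(q^M))` to the degree over `k(j(q))`

The Igusa key of row C3 works with the lattice `⟨1, Mτ⟩`, `J = j(q^M)`, and bounds
`[F_k : k(j(q^M))]` from below; the consumers (`DscvIgusa`, `S18Coord`, ...) need `[F_k : k(j(q))]`.
For every field `k` of characteristic `ℓ ∤ M` and every intermediate field `F ∋ j(q), j(q^M)` of `k((q))`:
`[F : k(j)] = [F : k(j, j_M)] · [k(j, j_M) : k(j)]`, `[F : k(j_M)] = [F : k(j, j_M)] · [k(j, j_M) : k(j_M)]`,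
* `[k(j, j_M) : k(j)] ≥ ψ(M)` : S18 `s18v_indep_jM` (from S28 `key_irreducible`);
* `[k(j, j_M) : k(j_M)] ≤ ψ(M)` : `j(q)` is a root of the reduction mod `ℓ` of the modular polynomial
  `∏_ξ (X - ξ • j(Mτ))` of S28 (`dscsw_exists_relation`; the coset of `S` gives the root `j(τ/M)`, whose
  expansion in `s = exp(2πiτ/M)` is `j(s)`), transported to `k` by the basis trick.
Private prefix `dscsw_`.  Imports main's S28 + S18/V only.
-/

set_option autoImplicit false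
set_option linter.unusedSectionVars false

noncomputable section

namespace Fermat.Agent.DS

open UpperHalfPlane ModularCurve Polynomial Fermat.Agent.S24 Fermat.Agent.S28 Fermat.Agent.S18
open scoped MatrixGroups

section KBar

variable (N : ℕ) [NeZero N] (ℓ : ℕ) [Fact ℓ.Prime]

/-- `(S • j(N·))(τ) = j(τ/N)`. -/
theorem dscsw_S_smul_jdHol_apply (τ : ℍ) :
    ((ModularGroup.S • jdHol N : HolRing) : ℍ → ℂ) τ = jFun (Fermat.Agent.S23.utGL 1 0 N • τ) := by
  have hN : N ≠ 0 := NeZero.ne N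
  rw [HolRing.smul_apply, jdHol_apply]
  have h1 : (ModularGroup.S⁻¹ • τ : ℍ) =
      (Matrix.SpecialLinearGroup.mapGL ℝ ModularGroup.S⁻¹ : GL (Fin 2) ℝ) • τ := rfl
  have h2 : Fermat.Agent.S23.utGL N 0 1 *
      (Matrix.SpecialLinearGroup.mapGL ℝ ModularGroup.S⁻¹ : GL (Fin 2) ℝ) =
      (Matrix.SpecialLinearGroup.mapGL ℝ ModularGroup.S⁻¹ : GL (Fin 2) ℝ) *
        Fermat.Agent.S23.utGL 1 0 N := by
    apply Matrix.GeneralLinearGroup.ext
    intro i j
    simp only [Matrix.GeneralLinearGroup.coe_mul, Fermat.Agent.S23.val_utGL hN one_ne_zero,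
      Fermat.Agent.S23.val_utGL one_ne_zero hN, Matrix.mul_apply, Fin.sum_univ_two,
      Fermat.Agent.S23.unstab_mapGL_apply]
    rw [Matrix.SpecialLinearGroup.SL2_inv_expl]
    fin_cases i <;> fin_cases j <;> simp [ModularGroup.S]
  rw [h1, ← mul_smul, h2, mul_smul]
  exact jFun_smul ModularGroup.S⁻¹ _

/-- the expansion of `j(τ/N)` in `s = exp(2πiτ/N)` is `j(s)`. -/
theorem dscsw_hasCuspExp_S_smul_jdHol :
    HasCuspExp N ((ModularGroup.S • jdHol N : HolRing) : ℍ → ℂ) (jqModC ℂ) := by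
  have h := HasCuspExp.comp_affine (a := 1) (d := N) one_ne_zero (NeZero.ne N) 0
    (Fermat.Agent.S23.utGL 1 0 N)
    (fun τ => Fermat.Agent.S23.coe_utGL_smul one_ne_zero (NeZero.ne N) 0 τ)
    hasCuspExp_jFun 1 (by simp)
  rw [bridge_rotLaurent_one, qExpand_one_apply] at h
  convert h using 1
  funext τ
  exact dscsw_S_smul_jdHol_apply N τ

/-- the pair `(j(τ/N), j(s))`. -/
def dscswPair : IntPair N ℓ :=
  ⟨((ModularGroup.S • jdHol N : HolRing), jqModC (OBar ℓ)), by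
    rw [mem_IntPair]
    show HasCuspExp N _ (coeffMap iotaBar (serO ℓ (jqModC (OBar ℓ))))
    rw [serO, coeffMap_jqModC, coeffMap_jqModC]
    exact dscsw_hasCuspExp_S_smul_jdHol N⟩

theorem dscsw_keyirrRho_pair : keyirrRho N ℓ (dscswPair N ℓ) = jqModC (kBar ℓ) := by
  show serRed ℓ (jqModC (OBar ℓ)) = _
  rw [serRed, coeffMap_jqModC]

/-- the conjugate of `j(Nτ)` at the coset of `S` is `j(τ/N)`. -/
theorem dscsw_keyirrXPair_S :
    keyirrXPair N ℓ ((ModularGroup.S : SL(2, ℤ)) : SL(2, ℤ) ⧸ CongruenceSubgroup.Gamma0 N) =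
      dscswPair N ℓ := by
  apply IntPair.ext_fst
  rw [fst_keyirrXPair]
  show _ = (ModularGroup.S • jdHol N : HolRing)
  obtain ⟨γ, hγ⟩ := QuotientGroup.mk_out_eq_mul (CongruenceSubgroup.Gamma0 N) ModularGroup.S
  rw [hγ, mul_smul, keyirr_smul_jdHol N _ γ.2]

/-- the modular equation mod `ℓ` over `kBar ℓ`: `j(q)` has degree `≤ ψ(N)` over `kBar(j(q^N))`. -/
theorem dscsw_relation_kBar :
    ∃ c : Fin (Nat.card (SL(2, ℤ) ⧸ CongruenceSubgroup.Gamma0 N) + 1) → (kBar ℓ)[X], c ≠ 0 ∧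
      ∑ i, aeval (jqNModC (kBar ℓ) N) (c i) * jqModC (kBar ℓ) ^ (i : ℕ) = 0 := by
  classical
  let _ : Fintype (SL(2, ℤ) ⧸ CongruenceSubgroup.Gamma0 N) := keyirrFintypeQuot N
  set n := Nat.card (SL(2, ℤ) ⧸ CongruenceSubgroup.Gamma0 N) with hn
  have hcard : Fintype.card (SL(2, ℤ) ⧸ CongruenceSubgroup.Gamma0 N) = n := by
    rw [hn, Nat.card_eq_fintype_card]
  set Φ : (LaurentSeries (kBar ℓ))[X] :=
    ∏ ξ : SL(2, ℤ) ⧸ CongruenceSubgroup.Gamma0 N,
      (X - C (keyirrRho N ℓ (keyirrXPair N ℓ ξ))) with hΦ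
  have hmonic : Φ.Monic := monic_prod_of_monic _ _ fun ξ _ => monic_X_sub_C _
  have hdeg : Φ.natDegree = n := by
    rw [hΦ, natDegree_finsetProd_X_sub_C_eq_card, Finset.card_univ, hcard]
  have hmem : ∀ i : ℕ, Φ.coeff i ∈ polyRange (keyirrJ N ℓ) := fun i =>
    keyirr_prod_mem N ℓ (jdHol N) (keyirr_smul_jdHol N) (keyirrXPair N ℓ) (fst_keyirrXPair N ℓ) i
  have hroot : Φ.eval (jqModC (kBar ℓ)) = 0 := by
    rw [hΦ, eval_prod]
    refine Finset.prod_eq_zero (Finset.mem_univ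
      ((ModularGroup.S : SL(2, ℤ)) : SL(2, ℤ) ⧸ CongruenceSubgroup.Gamma0 N)) ?_
    rw [dscsw_keyirrXPair_S, dscsw_keyirrRho_pair, eval_sub, eval_X, eval_C, sub_self]
  choose c hc using fun i : ℕ => hmem i
  refine ⟨fun i => c (i : ℕ), ?_, ?_⟩
  · intro h0
    have h1 := congrFun h0 (Fin.last n)
    have h2 : Φ.coeff n = 0 := by
      rw [← hc n]
      have : c n = 0 := h1
      rw [this, map_zero]
    have h3 : Φ.coeff n = 1 := by rw [← hdeg]; exact hmonic.coeff_natDegree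
    rw [h3] at h2
    exact one_ne_zero h2
  · have h1 : ∀ i : Fin (n + 1), aeval (jqNModC (kBar ℓ) N) (c (i : ℕ)) = Φ.coeff (i : ℕ) :=
      fun i => hc (i : ℕ)
    simp_rw [h1]
    rw [← hroot, eval_eq_sum_range, hdeg, Finset.sum_range]
    rfl

end KBar

section General

variable (N : ℕ) [NeZero N] (ℓ : ℕ) [Fact ℓ.Prime]

/-- base change of a polynomial relation along a field extension. -/
theorem dscsw_relation_map {k₀ E : Type*} [Field k₀] [Field E] [Algebra k₀ E]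
    (x y : LaurentSeries k₀) (n : ℕ) (c : Fin n → k₀[X])
    (h : ∑ i, aeval x (c i) * y ^ (i : ℕ) = 0) :
    ∑ i, aeval (coeffMap (algebraMap k₀ E) x) ((c i).map (algebraMap k₀ E)) *
      coeffMap (algebraMap k₀ E) y ^ (i : ℕ) = 0 := by
  have h1 : ∀ p : k₀[X], aeval (coeffMap (algebraMap k₀ E) x) (p.map (algebraMap k₀ E)) =
      coeffMap (algebraMap k₀ E) (aeval x p) := by
    intro p
    induction p using Polynomial.induction_on' with
    | add p q hp hq => rw [Polynomial.map_add, map_add, map_add, map_add, hp, hq]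
    | monomial m a =>
      rw [Polynomial.map_monomial, aeval_monomial, aeval_monomial, map_mul, map_pow,
        keyirr_algebraMap_eq_C, keyirr_algebraMap_eq_C, keyirr_coeffMap_C]
  have h2 := congrArg (coeffMap (algebraMap k₀ E)) h
  rw [map_sum, map_zero] at h2
  rw [← h2]
  refine Finset.sum_congr rfl fun i _ => ?_
  rw [h1, map_mul, map_pow]

/-- (A) THE MODULAR EQUATION MOD `ℓ`, over any field `k` of characteristic `ℓ` : `j(q)` has degree
`≤ ψ(N)` over `k(j(q^N))`. -/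
theorem dscsw_exists_relation (k : Type*) [Field k] [CharP k ℓ] :
    ∃ c : Fin (Nat.card (SL(2, ℤ) ⧸ CongruenceSubgroup.Gamma0 N) + 1) → k[X], c ≠ 0 ∧
      ∑ i, aeval (jqNModC k N) (c i) * jqModC k ^ (i : ℕ) = 0 := by
  let _ : Algebra (ZMod ℓ) k := ZMod.algebra k ℓ
  let _ : Algebra (ZMod ℓ) (kBar ℓ) := ZMod.algebra (kBar ℓ) ℓ
  obtain ⟨c, hc0, hc⟩ := dscsw_relation_kBar N ℓ
  have h1 : jqModC (kBar ℓ) = coeffMap (algebraMap (ZMod ℓ) (kBar ℓ)) (jqModC (ZMod ℓ)) :=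
    (coeffMap_jqModC _).symm
  have h2 : jqNModC (kBar ℓ) N = coeffMap (algebraMap (ZMod ℓ) (kBar ℓ)) (jqNModC (ZMod ℓ) N) :=
    (coeffMap_jqNModC _ N).symm
  rw [h1, h2] at hc
  obtain ⟨c', hc'0, hc'⟩ := s18vd_exists_descent (k₀ := ZMod ℓ) _ _ _ c hc0 hc
  refine ⟨fun i => (c' i).map (algebraMap (ZMod ℓ) k), ?_, ?_⟩
  · intro h0
    apply hc'0
    funext i
    have := congrFun h0 i
    exact (Polynomial.map_eq_zero_iff (algebraMap (ZMod ℓ) k).injective).1 this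
  · have := dscsw_relation_map (E := k) _ _ _ c' hc'
    rwa [coeffMap_jqModC, coeffMap_jqNModC] at this

end General

section Swap

open IntermediateField
open scoped IntermediateField.algebraAdjoinAdjoin

/-- ABSTRACT SWAP: `x y : F`; `[k(x,y):k(x)] ≥ n` (linear independence of the powers of `y`), `y` separable over
`k(x)`, `[k(x,y):k(y)] ≤ n` (a nonzero polynomial of degree `≤ n` over `k(y)` killing `x`), `F/k(y)` finite.
Then `F/k(x)` is finite, `[F:k(y)] ≤ [F:k(x)]`, and `F/k(x)` is separable if `F/k(y)` is. -/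
theorem dscsw_swap_abs {k F : Type*} [Field k] [Field F] [Algebra k F] (x y : F) (n : ℕ)
    (hli : LinearIndependent ↥k⟮x⟯ (fun i : Fin n => y ^ (i : ℕ)))
    (hsep : IsSeparable ↥k⟮x⟯ y)
    (q : Polynomial ↥k⟮y⟯) (hq0 : q ≠ 0) (hqn : q.natDegree ≤ n) (hq : aeval x q = 0)
    [FiniteDimensional ↥k⟮y⟯ F] :
    FiniteDimensional ↥k⟮x⟯ F ∧ Module.finrank ↥k⟮y⟯ F ≤ Module.finrank ↥k⟮x⟯ F ∧
      (Algebra.IsSeparable ↥k⟮y⟯ F → Algebra.IsSeparable ↥k⟮x⟯ F) := by
  obtain ⟨K1, hK1⟩ : ∃ K1 : IntermediateField k F, K1 = k⟮x⟯ := ⟨_, rfl⟩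
  obtain ⟨K2, hK2⟩ : ∃ K2 : IntermediateField k F, K2 = k⟮y⟯ := ⟨_, rfl⟩
  subst hK1 hK2
  obtain ⟨E, hE⟩ : ∃ E : IntermediateField k F, E = restrictScalars k ((↥k⟮y⟯)⟮x⟯) := ⟨_, rfl⟩
  have hEeq : E = restrictScalars k ((↥k⟮x⟯)⟮y⟯) := by
    rw [hE, adjoin_adjoin_left, adjoin_adjoin_left, Set.union_comm]
  have hxE : x ∈ E := by
    rw [hE]
    exact mem_adjoin_simple_self (↥k⟮y⟯) x
  have hyE : y ∈ E := by
    rw [hEeq]
    exact mem_adjoin_simple_self (↥k⟮x⟯) y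
  have h1 : k⟮x⟯ ≤ E := by
    rw [adjoin_simple_le_iff]
    exact hxE
  have h2 : k⟮y⟯ ≤ E := by
    rw [adjoin_simple_le_iff]
    exact hyE
  have hE1 : extendScalars h1 = (↥k⟮x⟯)⟮y⟯ := by
    ext z
    rw [mem_extendScalars, hEeq]
    exact Iff.rfl
  have hE2 : extendScalars h2 = (↥k⟮y⟯)⟮x⟯ := by
    ext z
    rw [mem_extendScalars, hE]
    exact Iff.rfl
  -- the two relative degrees
  have hyint : IsIntegral ↥k⟮x⟯ y := hsep.isIntegral
  have hxint : IsIntegral ↥k⟮y⟯ x := isAlgebraic_iff_isIntegral.1 ⟨q, hq0, hq⟩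
  have hr1 : k⟮x⟯.relfinrank E = (minpoly ↥k⟮x⟯ y).natDegree := by
    rw [relfinrank_eq_finrank_of_le h1, hE1, adjoin.finrank hyint]
  have hr2 : k⟮y⟯.relfinrank E = (minpoly ↥k⟮y⟯ x).natDegree := by
    rw [relfinrank_eq_finrank_of_le h2, hE2, adjoin.finrank hxint]
  have hle2 : k⟮y⟯.relfinrank E ≤ n := by
    rw [hr2]
    exact (natDegree_le_natDegree (minpoly.degree_le_of_ne_zero (↥k⟮y⟯) x hq0 hq)).trans hqn
  have hle1 : n ≤ k⟮x⟯.relfinrank E := by
    rw [relfinrank_eq_finrank_of_le h1, hE1]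
    have : FiniteDimensional ↥k⟮x⟯ ↥((↥k⟮x⟯)⟮y⟯) := adjoin.finiteDimensional hyint
    have hli' : LinearIndependent ↥k⟮x⟯
        (fun i : Fin n => (AdjoinSimple.gen (↥k⟮x⟯) y) ^ (i : ℕ)) := by
      apply LinearIndependent.of_comp ((↥k⟮x⟯)⟮y⟯.val.toLinearMap)
      have : ((↥k⟮x⟯)⟮y⟯.val.toLinearMap) ∘
          (fun i : Fin n => (AdjoinSimple.gen (↥k⟮x⟯) y) ^ (i : ℕ)) = fun i : Fin n => y ^ (i : ℕ) := by
        funext i
        simp
      rw [this]
      exact hli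
    simpa using hli'.fintype_card_le_finrank
  have hm1 := relfinrank_mul_finrank_top h1
  have hm2 := relfinrank_mul_finrank_top h2
  have hpos2 : 0 < Module.finrank ↥k⟮y⟯ F := Module.finrank_pos
  have hposE : 0 < Module.finrank ↥E F := by
    rw [← hm2] at hpos2
    rcases Nat.eq_zero_or_pos (Module.finrank ↥E F) with h0 | h0
    · rw [h0, Nat.mul_zero] at hpos2
      exact absurd hpos2 (lt_irrefl _)
    · exact h0
  have hpos1 : 0 < k⟮x⟯.relfinrank E := by
    rw [hr1]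
    exact minpoly.natDegree_pos hyint
  have hfin : FiniteDimensional ↥k⟮x⟯ F := by
    apply Module.finite_of_finrank_pos
    rw [← hm1]
    exact Nat.mul_pos hpos1 hposE
  refine ⟨hfin, ?_, ?_⟩
  · rw [← hm1, ← hm2]
    exact Nat.mul_le_mul_right _ (hle2.trans hle1)
  · intro hsepF
    have s1 : Algebra.IsSeparable ↥k⟮x⟯ ↥(extendScalars h1) := by
      rw [hE1]
      exact (isSeparable_adjoin_simple_iff_isSeparable (↥k⟮x⟯) F).2 hsep
    have s2 : Algebra.IsSeparable ↥(extendScalars h2) F :=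
      Algebra.isSeparable_tower_top_of_isSeparable (↥k⟮y⟯) ↥(extendScalars h2) F
    have s3 : Algebra.IsSeparable ↥(extendScalars h1) F := s2
    exact Algebra.IsSeparable.trans (↥k⟮x⟯) ↥(extendScalars h1) F


/-- from polynomial coefficients to coefficients in `k(x)` (any field extension; cf. S18
`s18vc_linearIndependent_adjoin`). -/
theorem dscsw_linearIndependent_adjoin {k L : Type*} [Field k] [Field L] [Algebra k L] (x y : L)
    (n : ℕ) (hind : ∀ c : Fin n → k[X], ∑ i, aeval x (c i) * y ^ (i : ℕ) = 0 → c = 0) :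
    LinearIndependent ↥k⟮x⟯ (fun i : Fin n => y ^ (i : ℕ)) := by
  have h1 : LinearIndependent ↥(Algebra.adjoin k {x}) (fun i : Fin n => y ^ (i : ℕ)) := by
    rw [Fintype.linearIndependent_iff]
    intro g hg i
    have hg' : ∀ i, ∃ c : k[X], aeval x c = (g i : L) := fun i =>
      Algebra.adjoin_mem_exists_aeval k x (g i).2
    choose c hc using hg'
    have h2 : ∑ i, aeval x (c i) * y ^ (i : ℕ) = 0 := by
      rw [← hg]
      refine Finset.sum_congr rfl fun i _ => ?_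
      rw [hc]
      rfl
    have h3 := hind c h2
    apply Subtype.ext
    rw [← hc, h3]
    simp
  exact h1.localization (Rₛ := ↥k⟮x⟯) (nonZeroDivisors ↥(Algebra.adjoin k {x}))

variable {ℓ : ℕ} [Fact ℓ.Prime]

/-- (B), with the two Γ₀ inputs as hypotheses. -/
theorem dscsw_igusa_swap_aux (k : Type*) [Field k] [CharP k ℓ] (M : ℕ) [NeZero M] (hℓM : ¬ ℓ ∣ M)
    (F : IntermediateField k (LaurentSeries k)) (hj : jqModC k ∈ F) (hjM : jqNModC k M ∈ F)
    [FiniteDimensional ↥k⟮(⟨jqNModC k M, hjM⟩ : F)⟯ F] (n : ℕ)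
    (hind0 : ∀ c : Fin n → k[X],
      ∑ i, aeval (jqModC k) (c i) * jqNModC k M ^ (i : ℕ) = 0 → c = 0)
    (c : Fin (n + 1) → k[X]) (hc0 : c ≠ 0)
    (hc : ∑ i, aeval (jqNModC k M) (c i) * jqModC k ^ (i : ℕ) = 0) :
    FiniteDimensional ↥k⟮(⟨jqModC k, hj⟩ : F)⟯ F ∧
      Module.finrank ↥k⟮(⟨jqNModC k M, hjM⟩ : F)⟯ F ≤
        Module.finrank ↥k⟮(⟨jqModC k, hj⟩ : F)⟯ F ∧
      (Algebra.IsSeparable ↥k⟮(⟨jqNModC k M, hjM⟩ : F)⟯ F →
        Algebra.IsSeparable ↥k⟮(⟨jqModC k, hj⟩ : F)⟯ F) := by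
  set x : F := ⟨jqModC k, hj⟩ with hx
  set y : F := ⟨jqNModC k M, hjM⟩ with hy
  have hval : Function.Injective (F.val : F → LaurentSeries k) := F.val.injective
  have haev : ∀ (z : F) (p : k[X]), ((aeval z p : F) : LaurentSeries k) =
      aeval (z : LaurentSeries k) p := fun z p => (aeval_algHom_apply F.val z p).symm
  -- independence
  have hind : ∀ c : Fin n → k[X],
      ∑ i, aeval x (c i) * y ^ (i : ℕ) = 0 → c = 0 := by
    intro c hc
    refine hind0 c ?_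
    have h := congrArg (fun z : F => (z : LaurentSeries k)) hc
    simp only [AddSubmonoidClass.coe_finsetSum, MulMemClass.coe_mul, SubmonoidClass.coe_pow,
      ZeroMemClass.coe_zero, haev] at h
    exact h
  have hli := dscsw_linearIndependent_adjoin x y _ hind
  -- separability of `j_M` over `k(j)`
  have hsep : IsSeparable ↥k⟮x⟯ y :=
    s18vd_isSeparable_general k M hℓM (K := ↥k⟮x⟯) (R := F) (F.val : F →+* LaurentSeries k) hval
      (AdjoinSimple.gen k x) (fun c => by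
        show ((algebraMap k F c : F) : LaurentSeries k) = _
        rfl)
      (by rw [AdjoinSimple.algebraMap_gen]; rfl) y rfl
  -- the relation
  have hinj : ∀ p : k[X], aeval (AdjoinSimple.gen k y) p = 0 → p = 0 := by
    intro p hp
    have h1 : aeval (jqNModC k M) p = 0 := by
      have h2 := congrArg (fun z : ↥k⟮y⟯ => ((z : F) : LaurentSeries k)) hp
      simp only [ZeroMemClass.coe_zero] at h2
      rw [← h2]
      have h3 : ((aeval (AdjoinSimple.gen k y) p : ↥k⟮y⟯) : F) = aeval y p := by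
        rw [← AdjoinSimple.algebraMap_gen k y]
        exact (aeval_algHom_apply (k⟮y⟯.val) (AdjoinSimple.gen k y) p).symm
      rw [h3, haev]
    have hJ : (jqNModC k M).order < 0 := by
      have h1 : (jqNModC k M).coeff ((M : ℤ) * (-1)) = 1 := by
        rw [jqNModC, qExpand_coeff_mul, coeff_jqModC_neg_one]
      have h2 : (jqNModC k M).order ≤ (M : ℤ) * (-1) :=
        HahnSeries.order_le_of_coeff_ne_zero (by rw [h1]; exact one_ne_zero)
      have h3 : (0 : ℤ) < M := by exact_mod_cast Nat.pos_of_ne_zero (NeZero.ne M)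
      linarith
    exact keyabs_hom_injective (jqNModC k M) hJ (by rw [map_zero]; exact h1)
  let q : Polynomial ↥k⟮y⟯ :=
    ∑ i : Fin (n + 1), Polynomial.C (aeval (AdjoinSimple.gen k y) (c i)) * Polynomial.X ^ (i : ℕ)
  have hqcoeff : ∀ i : Fin (n + 1), q.coeff (i : ℕ) = aeval (AdjoinSimple.gen k y) (c i) := by
    intro i
    simp only [q, finsetSum_coeff, coeff_C_mul, coeff_X_pow]
    rw [Finset.sum_eq_single i]
    · simp
    · intro j _ hji
      rw [if_neg (fun h => hji (Fin.ext h.symm)), mul_zero]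
    · intro h
      exact absurd (Finset.mem_univ i) h
  have hq0 : q ≠ 0 := by
    intro h0
    apply hc0
    funext i
    have h1 := hqcoeff i
    rw [h0, coeff_zero] at h1
    exact hinj _ h1.symm
  have hqn : q.natDegree ≤ n := by
    refine natDegree_sum_le_of_forall_le _ _ fun i _ => ?_
    refine (natDegree_C_mul_le _ _).trans ?_
    rw [natDegree_X_pow]
    exact Nat.lt_succ_iff.1 i.2
  have hq : aeval x q = 0 := by
    apply hval
    simp only [q, map_sum, map_mul, map_pow, aeval_C, aeval_X]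
    have h3 : ∀ p : k[X], algebraMap ↥k⟮y⟯ F (aeval (AdjoinSimple.gen k y) p) = aeval y p := by
      intro p
      rw [← AdjoinSimple.algebraMap_gen k y]
      exact (aeval_algHom_apply (k⟮y⟯.val) (AdjoinSimple.gen k y) p).symm
    simp only [h3, ← aeval_algHom_apply, map_zero]
    exact hc
  exact dscsw_swap_abs x y n hli hsep q hq0 hqn hq

/-- (B) THE SWAP : for a field `k` of characteristic `ℓ ∤ M` and an intermediate field `F ∋ j(q), j(q^M)` of
`k((q))`, finite over `k(j(q^M))` : `F` is finite over `k(j(q))`, `[F : k(j(q^M))] ≤ [F : k(j(q))]`, and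
separability over `k(j(q^M))` implies separability over `k(j(q))`. -/
theorem dscsw_igusa_swap (k : Type*) [Field k] [CharP k ℓ] (M : ℕ) [NeZero M] (hℓM : ¬ ℓ ∣ M)
    (F : IntermediateField k (LaurentSeries k)) (hj : jqModC k ∈ F) (hjM : jqNModC k M ∈ F)
    [FiniteDimensional ↥k⟮(⟨jqNModC k M, hjM⟩ : F)⟯ F] :
    FiniteDimensional ↥k⟮(⟨jqModC k, hj⟩ : F)⟯ F ∧
      Module.finrank ↥k⟮(⟨jqNModC k M, hjM⟩ : F)⟯ F ≤
        Module.finrank ↥k⟮(⟨jqModC k, hj⟩ : F)⟯ F ∧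
      (Algebra.IsSeparable ↥k⟮(⟨jqNModC k M, hjM⟩ : F)⟯ F →
        Algebra.IsSeparable ↥k⟮(⟨jqModC k, hj⟩ : F)⟯ F) := by
  obtain ⟨c, hc0, hc⟩ := dscsw_exists_relation M ℓ k
  exact dscsw_igusa_swap_aux k M hℓM F hj hjM _
    (fun c' hc' => s18v_indep_jM k M hℓM _ le_rfl c' hc') c hc0 hc

/-- (B'), in the shape of `DscvIgusa` : (finite ∧ separable ∧ `d ≤` degree) over `k(j(q^M))` implies the same
over `k(j(q))`. -/
theorem dscsw_igusa_of_jM (k : Type*) [Field k] [CharP k ℓ] (M : ℕ) [NeZero M] (hℓM : ¬ ℓ ∣ M)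
    (F : IntermediateField k (LaurentSeries k)) (hj : jqModC k ∈ F) (hjM : jqNModC k M ∈ F) (d : ℕ)
    (h : FiniteDimensional ↥k⟮(⟨jqNModC k M, hjM⟩ : F)⟯ F ∧
      Algebra.IsSeparable ↥k⟮(⟨jqNModC k M, hjM⟩ : F)⟯ F ∧
        d ≤ Module.finrank ↥k⟮(⟨jqNModC k M, hjM⟩ : F)⟯ F) :
    FiniteDimensional ↥k⟮(⟨jqModC k, hj⟩ : F)⟯ F ∧
      Algebra.IsSeparable ↥k⟮(⟨jqModC k, hj⟩ : F)⟯ F ∧
        d ≤ Module.finrank ↥k⟮(⟨jqModC k, hj⟩ : F)⟯ F := by
  obtain ⟨hfin, hsep, hd⟩ := h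
  obtain ⟨h1, h2, h3⟩ := dscsw_igusa_swap k M hℓM F hj hjM
  exact ⟨h1, h3 hsep, hd.trans h2⟩

end Swap

end Fermat.Agent.DS
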