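import Mathlib
import Fermat.Agent.S28.Key
import Fermat.Agent.DS.C.V.Main
import Fermat.Agent.DS.C.U.OrdX
import Fermat.Agent.DS.C.Igusa.Alg
import Fermat.Agent.DS.C.Igusa.Cosets
import Fermat.Agent.DS.C.Igusa.Index
import Fermat.Agent.DS.C.Igusa.OneClass
import Fermat.Agent.DS.C.Igusa.Sep
import Fermat.Agent.DS.C.Igusa.Swap
import Fermat.Agent.DS.C.Igusa.Field

/-!
# Program DS, package (C), row C3 (Igusa for `X₁(M)`): the ASSEMBLY from the concrete inputs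

`dscig_igusa_of_inputs` : Igusa's theorem for `X₁(M)` mod `ℓ ∤ M` (`6 ≤ M`) in helper3's shape
`DscvIgusa (kBar ℓ) M 1 [SL₂(ℤ) : ±Γ₁(M)]`, from
* a ring `A` of families of conjugates indexed by `SL(2,ℤ) ⧸ dscigGamma M` (IG-PAIR) with the `T`-law,
* the units `W_{α,β}` (orders), the cross-ratio families `R_{a,b,c}` (values) and the `j(q^d)` families
  (value at the base point) (IG-FAM).
-/

set_option autoImplicit false
set_option linter.unusedSectionVars false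

noncomputable section

namespace Fermat.Agent.DS

open Polynomial Fermat.Agent.S28 IntermediateField ModularCurve
open scoped MatrixGroups

instance dscigGamma_finiteIndex (M : ℕ) [NeZero M] : (dscigGamma M).FiniteIndex := by
  refine Subgroup.finiteIndex_of_le (H := CongruenceSubgroup.Gamma M) ?_
  intro γ hγ
  rw [CongruenceSubgroup.Gamma_mem] at hγ
  rw [mem_dscigGamma_iff]
  exact Or.inl ⟨hγ.1, hγ.2.1⟩

section

variable (M : ℕ) [NeZero M]

local notation "XX" => SL(2, ℤ) ⧸ dscigGamma M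

variable {k : Type*} [Field k]

omit [NeZero M] in
/-- the `T`-law gives the stability of the classes under all powers of `T`. -/
theorem dscig_rel_T_pow {A : Subring (XX → LaurentSeries k)}
    (hT : ∃ θ : LaurentSeries k →+* LaurentSeries k,
      ∀ a ∈ A, ∀ ξ : XX, a (ModularGroup.T • ξ) = θ (a ξ))
    (n : ℕ) (ξ : XX) : DscigRel A ξ ((ModularGroup.T ^ n) • ξ) := by
  obtain ⟨θ, hθ⟩ := hT
  induction n with
  | zero => rw [pow_zero, one_smul]; exact DscigRel.refl ξ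
  | succ n ih =>
    rw [pow_succ', mul_smul]
    exact ih.trans (dscig_rel_of_endo θ (fun ξ : XX => ModularGroup.T • ξ) hθ _)

end

section Main

variable (M : ℕ) [NeZero M]

local notation "XX" => SL(2, ℤ) ⧸ dscigGamma M

/-- the formal conjugate `P_{a·v}` over `k` as a Laurent series. -/
def dscigP {k : Type*} [Field k] (ζ : k) (a : ZMod M) (v : ZMod M × ZMod M) : LaurentSeries k :=
  HahnSeries.ofPowerSeries ℤ k (dscuoP M ζ (a * v.1) (a * v.2))

theorem dscigP_base {k : Type*} [Field k] {ζ : k} (hζ1 : ζ ^ M = 1) {a : ZMod M} (ha : a ≠ 0)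
    {v : ZMod M × ZMod M} (hv : v = dscigE M ∨ v = -dscigE M) :
    dscigP M ζ a v = dscXR k M a := by
  unfold dscigP
  rw [dscuo_XR_eq M ζ a, ← dscuoP_of_ne M ζ a 0 ha]
  rcases hv with rfl | rfl
  · simp [dscigE]
  · have h1 : a * (-dscigE M).1 = -a := by simp [dscigE]
    have h2 : a * (-dscigE M).2 = -0 := by simp [dscigE]
    rw [h1, h2, dscuoP_neg hζ1]

variable (ℓ : ℕ) [Fact ℓ.Prime]

/-- **Igusa's theorem for `X₁(M)` mod `ℓ`**, from the concrete inputs (IG-PAIR, IG-FAM). -/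
theorem dscig_igusa_of_inputs (hM : 6 ≤ M) (hℓM : ¬ ℓ ∣ M)
    [Fintype XX] [DecidableEq XX]
    (A : Subring (XX → LaurentSeries (kBar ℓ))) (hA : DscigAlg (keyirrJ M ℓ) A)
    (ζ : kBar ℓ) (hζ : IsPrimitiveRoot ζ M)
    (hT : ∃ θ : LaurentSeries (kBar ℓ) →+* LaurentSeries (kBar ℓ),
      ∀ a ∈ A, ∀ ξ : XX, a (ModularGroup.T • ξ) = θ (a ξ))
    (hW : ∀ α β : ZMod M, α ≠ 0 → β ≠ 0 → α ≠ β → α ≠ -β →
      ∃ u ∈ A, ∃ u' ∈ A, (∀ ξ, u ξ * u' ξ = 1) ∧
        ∀ ξ : XX, (u ξ).order = 6 * ((min (dscuoAbs M (α * (dscigVec M ξ).1))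
          (dscuoAbs M (β * (dscigVec M ξ).1)) : ℕ) : ℤ) - M)
    (hR : ∀ a b c : ZMod M, DscAdm M a b c → ∃ R ∈ A, ∀ ξ : XX, R ξ =
      (dscigP M ζ a (dscigVec M ξ) - dscigP M ζ b (dscigVec M ξ)) /
        (dscigP M ζ a (dscigVec M ξ) - dscigP M ζ c (dscigVec M ξ)))
    (hj : ∀ (d : ℕ) [NeZero d], d ∣ M → ∃ g ∈ A,
      g ((1 : SL(2, ℤ)) : XX) = qExpand (kBar ℓ) d (jqModC (kBar ℓ))) :
    DscvIgusa (kBar ℓ) M 1 (dscbrGamma M).index := by
  set ξ₀ : XX := ((1 : SL(2, ℤ)) : XX) with hξ₀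
  set F : IntermediateField (kBar ℓ) (LaurentSeries (kBar ℓ)) := dscFieldC (kBar ℓ) M 1 with hF
  have hζ1 : ζ ^ M = 1 := hζ.pow_eq_one
  -- `X` is one class
  have hclass : ∀ ξ : XX, DscigRel A ξ₀ ξ := by
    refine dscig_one_class hM hA (fun ξ : XX => (dscigVec M ξ).1) ξ₀ ?_ ?_ ?_
    · intro α β h1 h2 h3 h4
      obtain ⟨u, hu, u', hu', huu', hord⟩ := hW α β h1 h2 h3 h4
      exact ⟨u, hu, u', hu', huu', fun ξ => hord ξ⟩
    · intro ξ hξ
      obtain ⟨n, hn⟩ := dscig_exists_T_pow M ξ hξ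
      have := dscig_rel_T_pow M hT n ξ
      rw [hn] at this
      exact this.symm
    · rcases dscigVec_one M with h | h
      · left; rw [h]; rfl
      · right; rw [h]; rfl
  -- membership of the generators
  have hJF : keyirrJ M ℓ ∈ F :=
    subset_adjoin _ _ (Or.inl ⟨M, inferInstance, by rw [mul_one], rfl⟩)
  have hbase : dscigVec M ξ₀ = dscigE M ∨ dscigVec M ξ₀ = -dscigE M := dscigVec_one M
  have hRbase : ∀ a b c : ZMod M, DscAdm M a b c → ∀ R : XX → LaurentSeries (kBar ℓ),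
      (∀ ξ : XX, R ξ = (dscigP M ζ a (dscigVec M ξ) - dscigP M ζ b (dscigVec M ξ)) /
        (dscigP M ζ a (dscigVec M ξ) - dscigP M ζ c (dscigVec M ξ))) →
      R ξ₀ = dscR (kBar ℓ) M a b c := by
    intro a b c hadm R hRv
    rw [hRv ξ₀, dscigP_base M hζ1 hadm.1 hbase, dscigP_base M hζ1 hadm.2.1 hbase,
      dscigP_base M hζ1 hadm.2.2.1 hbase]
    rfl
  have hRF : ∀ a b c : ZMod M, DscAdm M a b c → dscR (kBar ℓ) M a b c ∈ F := by
    intro a b c hadm
    refine subset_adjoin _ _ (Or.inr ⟨1, inferInstance, a, b, c, dvd_rfl, hadm, ?_⟩)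
    exact (qExpand_one_apply _).symm
  -- the subring of the families with value in `F` at the base point
  set A' : Subring (XX → LaurentSeries (kBar ℓ)) :=
    A ⊓ (F.toSubring.comap (Pi.evalRingHom (fun _ : XX => LaurentSeries (kBar ℓ)) ξ₀)) with hA'
  have hmemA' : ∀ a, a ∈ A' ↔ a ∈ A ∧ a ξ₀ ∈ F := fun a => by
    rw [hA', Subring.mem_inf, Subring.mem_comap]
    rfl
  have hA'alg : DscigAlg (keyirrJ M ℓ) A' := by
    refine ⟨hA.order_neg, fun c => (hmemA' _).2 ⟨hA.const_mem c, F.algebraMap_mem c⟩,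
      (hmemA' _).2 ⟨hA.J_mem, hJF⟩, fun a ha i => hA.prod_mem a ((hmemA' a).1 ha).1 i⟩
  have hone : ∀ a ∈ A', a ξ₀ = 0 → ∀ ξ, a ξ = 0 := fun a ha h0 ξ =>
    (hclass ξ a ((hmemA' a).1 ha).1).1 h0
  have hsep : ∀ ξ : XX, ξ ≠ ξ₀ → ∃ a ∈ A', a ξ ≠ a ξ₀ := by
    intro ξ hne
    have hprim := dscigRow_primitive M ξ.out
    have hne' : ¬ (((dscigVec M ξ).1 = 1 ∧ (dscigVec M ξ).2 = 0) ∨
        ((dscigVec M ξ).1 = -1 ∧ (dscigVec M ξ).2 = 0)) := by
      intro h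
      apply hne
      apply dscig_eq_one_of_vec M ξ
      rcases h with ⟨h1, h2⟩ | ⟨h1, h2⟩
      · left; exact Prod.ext h1 h2
      · right; exact Prod.ext h1 (by rw [h2]; simp [dscigE])
    obtain ⟨a, b, c, hadm, hneq⟩ := dscig_sep0_div (K := kBar ℓ) hM hζ hprim hne'
    obtain ⟨R, hRA, hRv⟩ := hR a b c hadm
    refine ⟨R, (hmemA' R).2 ⟨hRA, ?_⟩, ?_⟩
    · rw [hRbase a b c hadm R hRv]
      exact hRF a b c hadm
    · rw [hRbase a b c hadm R hRv, hRv ξ]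
      unfold dscigP dscR
      rw [dscuo_XR_eq M ζ a, dscuo_XR_eq M ζ b, dscuo_XR_eq M ζ c,
        ← dscuoP_of_ne M ζ a 0 hadm.1, ← dscuoP_of_ne M ζ b 0 hadm.2.1,
        ← dscuoP_of_ne M ζ c 0 hadm.2.2.1, ← map_sub, ← map_sub, ← map_sub, ← map_sub]
      exact hneq
  have hAF : ∀ a ∈ A', a ξ₀ ∈ F := fun a ha => ((hmemA' a).1 ha).2
  have hgen : ∀ x ∈ F, x ∈ IntermediateField.adjoin (kBar ℓ) {y | ∃ a ∈ A', y = a ξ₀} := by
    have hle : F ≤ IntermediateField.adjoin (kBar ℓ) {y | ∃ a ∈ A', y = a ξ₀} := by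
      rw [hF, dscFieldC]
      refine IntermediateField.adjoin.mono _ _ _ ?_
      rintro x (⟨d, hd0, hd, rfl⟩ | ⟨e, he0, a, b, c, he, hadm, rfl⟩)
      · rw [mul_one] at hd
        obtain ⟨g, hgA, hg⟩ := hj d hd
        refine ⟨g, (hmemA' g).2 ⟨hgA, ?_⟩, hg.symm⟩
        rw [hg]
        exact subset_adjoin _ _ (Or.inl ⟨d, hd0, by rw [mul_one]; exact hd, rfl⟩)
      · obtain rfl : e = 1 := Nat.dvd_one.mp he
        obtain ⟨R, hRA, hRv⟩ := hR a b c hadm
        have h1 : R ξ₀ = qExpand (kBar ℓ) 1 (dscR (kBar ℓ) M a b c) := by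
          rw [hRbase a b c hadm R hRv, qExpand_one_apply]
        refine ⟨R, (hmemA' R).2 ⟨hRA, ?_⟩, h1.symm⟩
        rw [hRbase a b c hadm R hRv]
        exact hRF a b c hadm
    exact fun x hx => hle hx
  have hend := dscig_field_endgame hA'alg ξ₀ hone hsep F hJF hAF hgen
  have hcard : Fintype.card XX = (dscbrGamma M).index := by
    rw [← dscigGamma_index, Subgroup.index_eq_card, Nat.card_eq_fintype_card]
  rw [hcard] at hend
  exact dscsw_igusa_of_jM (kBar ℓ) M hℓM F (dscv_jq_mem (kBar ℓ) M 1) hJF _ hend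

end Main

end Fermat.Agent.DS
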