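import Fermat.Agent.DS.C.Igusa.Act
import Fermat.Agent.DS.C.P.Level
import Fermat.Agent.DS.C.P.Slash
import Fermat.Agent.DS.C.U.Nonvanish
import Fermat.Agent.DS.C.U.OrdBridge
import Fermat.Agent.DS.C.Br.Inv
import Fermat.Agent.S28.Basic
import Fermat.Agent.S28.Key
import Fermat.Agent.S28.ConjJN
import Fermat.Agent.S28.UnitDefs
import Fermat.Agent.S28.UnitTransform
import Fermat.Agent.S28.DeltaExp
import Fermat.Agent.S24.Conj
import Fermat.Agent.S24.Bridge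
import Fermat.Agent.S24.JDeriv
import Fermat.Prelude.Thm_ModularCurve_coeffMap_qExpand

/-!
# Program DS (S48), package (C), row C3 (Igusa for `X₁(M)`), leaf IG-FAM  (helper2)

The `z`-world family (`z = Mτ`, width `M`, `s = e(z/M)`), in S28's ring `IntPair M ℓ` of pairs
(holomorphic function on `ℍ`, `ℓ`-integral expansion in `s`).  Conventions of the row chief (helper9):
row vectors `v = (r, t) : ZMod M × ZMod M`, `v · γ = dscigAct M γ v`, `(γ • f)(z) = f(γ⁻¹ z)`,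
`DscigAdm M v w := v ≠ 0 ∧ w ≠ 0 ∧ v ≠ w ∧ v ≠ -w` (`Igusa/Act.lean`).

* `dscigF M r t = dscpF (r/M) (t/M)` (`r t : ℤ`), `dscigFv M v` (`v ∈ (ℤ/M)²`): the Fricke function of the
  `M`-torsion point `(r z + t)/M` of `ℂ/⟨1, z⟩`; `dscigF_hasCuspExp`, `dscigFv_hasCuspExp` (expansion
  `ofPowerSeries (dscuoP M ζ r t)`), `dscigFv_mdiff`, `dscigFv_neg`, `dscigFv_sub_ne_zero`,
  `dscigFv_sub_smul` (weight two law of the differences);
* `dscigZeta M ℓ : OBar ℓ` (`iotaBar ζ = e(1/M)`, `dscigZeta_pow`, `dscigZeta_prim`, `dscig_hunit`),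
  `dscigZetaBar M ℓ : kBar ℓ` its reduction (`dscigZetaBar_prim` for `ℓ ∤ M`), `dscigSer`;
* `dscigDHol`, `dscigDInvHol : HolRing` and the SLASH laws `dscig_smul_ratio`, `dscig_smul_W`,
  `dscig_smul_WInv`;
* `dscigD M ℓ v w`, `dscigDInv M ℓ v w : IntPair M ℓ` : `D * DInv = 1` (`dscigD_mul_inv`), `dscigD_fst`,
  `dscigD_snd`, `dscigD_rho` (`ρ(D_{v,w}) = ofPowerSeries (P̄_v - P̄_w)` over `kBar ℓ`),
  `dscigD_rho_order` (`= min(|r_v|,|r_w|)`), `dscigDInv_rho_order`, `dscigD_neg`, `dscigDInv_neg`,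
  `dscigD_ratio_smul`;
* `dscigDeltaInv`, `dscigDelta : IntPair M ℓ` (`dscigDeltaInv_rho_order = -M`), the units
  `dscigW M ℓ v w = D⁶/Δ`, `dscigWInv` : `dscigW_mul_inv`, `dscigW_smul`, `dscigWInv_smul`,
  `dscigW_rho_order = 6 min(|r_v|,|r_w|) - M`, `dscigW_neg`;
* `dscigJdHol d'` (`z ↦ j(z/d')`), `dscigJd M ℓ d d' hM : IntPair M ℓ` (`ρ = j(s^d)`), invariance under
  `Γ⁰(d')` (`dscigJdHol_smul'`), the `SL(2,ℤ)`-family `dscigJdFam` of the conjugates (`dscigJdFam_fst`,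
  `dscigJdFam_one_rho`).
-/

set_option autoImplicit false
set_option linter.unusedSectionVars false

open UpperHalfPlane hiding I
open Complex Fermat.Agent.S24 Fermat.Agent.S28
open scoped Real MatrixGroups Manifold ModularForm

noncomputable section

namespace Fermat.Agent.DS

/-- the Fricke function of the `M`-torsion point `(r z + t)/M` of `ℂ/⟨1, z⟩`. -/
def dscigF (M : ℕ) (r t : ℤ) : ℍ → ℂ := dscpF ((r : ℝ) / M) ((t : ℝ) / M)

theorem dscigF_L (M : ℕ) (r t : ℤ) (τ : ℍ) : dscpL M r t τ = dscigF M r t (dscpMul M τ) := rfl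

/-- `z / M` in the upper half plane. -/
def dscigDiv (M : ℕ) [NeZero M] (z : ℍ) : ℍ :=
  ⟨(z : ℂ) / M, by
    have hM : (0 : ℝ) < M := by exact_mod_cast Nat.pos_of_ne_zero (NeZero.ne M)
    have : ((z : ℂ) / (M : ℂ)).im = z.im / M := by
      rw [show ((M : ℂ)) = ((M : ℝ) : ℂ) by push_cast; rfl, Complex.div_ofReal_im]
      rfl
    rw [this]
    exact div_pos z.im_pos hM⟩

theorem dscig_mul_div (M : ℕ) [NeZero M] (z : ℍ) : dscpMul M (dscigDiv M z) = z := by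
  apply UpperHalfPlane.ext
  rw [dscpl_coe_mul]
  have hM : (M : ℂ) ≠ 0 := by exact_mod_cast NeZero.ne M
  show (M : ℂ) * ((z : ℂ) / M) = z
  field_simp

/-- (F0) the expansion of `F_v` in `s = e(z/M)`. -/
theorem dscigF_hasCuspExp (M : ℕ) [NeZero M] {r t : ℤ} (h : DscpAdm M r t) :
    HasCuspExp M (dscigF M r t) (dscpS M r t) := by
  intro z
  have h1 := dscp_L_hasCuspExp M h (dscigDiv M z)
  rw [dscigF_L, dscig_mul_div] at h1
  convert h1 using 2 with m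
  congr 2
  show 2 * ↑π * Complex.I * ↑m * (z : ℂ) / ↑M = 2 * ↑π * Complex.I * ↑m * ((z : ℂ) / M) / ((1 : ℕ) : ℂ)
  rw [Nat.cast_one, div_one]
  ring

theorem dscigF_mdiff (M : ℕ) [NeZero M] {r t : ℤ} (h : DscpAdm M r t) : MDiff (dscigF M r t) :=
  dscp_F_mdiff (dscp_nonInt_of_adm M h)

/-! ### the root of unity in `OBar ℓ` and the integral series -/

section zeta

variable (M : ℕ) [NeZero M] (ℓ : ℕ)

theorem dscig_exists_zeta : ∃ z : QBar, iotaBar z = dsw_zeta M ∧ z ^ M = 1 := by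
  obtain ⟨z, hz⟩ := conj_mem_range_iotaBar_of_pow_eq_one (NeZero.ne M) (dscuo_zeta_pow M)
  refine ⟨z, hz, ?_⟩
  apply iotaBar_injective
  rw [map_pow, hz, dscuo_zeta_pow, map_one]

/-- `ζ_M` in `ℚ̄` (with `iotaBar ζ = e(1/M)`). -/
def dscigZetaQ : QBar := (dscig_exists_zeta M).choose

theorem dscigZetaQ_iota : iotaBar (dscigZetaQ M) = dsw_zeta M := (dscig_exists_zeta M).choose_spec.1

theorem dscigZetaQ_pow : dscigZetaQ M ^ M = 1 := (dscig_exists_zeta M).choose_spec.2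

variable [Fact ℓ.Prime]

/-- `ζ_M` in `OBar ℓ`. -/
def dscigZeta : OBar ℓ := ⟨dscigZetaQ M, mem_OBar_of_pow_eq_one ℓ (NeZero.ne M) (dscigZetaQ_pow M)⟩

/-- the embedding `OBar ℓ → ℂ`. -/
def dscigIota : OBar ℓ →+* ℂ := iotaBar.comp (OBar ℓ).subtype

theorem dscigIota_injective : Function.Injective (dscigIota ℓ) :=
  iotaBar_injective.comp Subtype.val_injective

theorem dscigIota_zeta : dscigIota ℓ (dscigZeta M ℓ) = dsw_zeta M := dscigZetaQ_iota M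

theorem dscigZeta_pow : dscigZeta M ℓ ^ M = 1 := by
  apply Subtype.ext
  exact dscigZetaQ_pow M

theorem dscigZeta_prim : IsPrimitiveRoot (dscigZeta M ℓ) M := by
  refine IsPrimitiveRoot.of_map_of_injective (f := dscigIota ℓ) ?_ (dscigIota_injective ℓ)
  rw [dscigIota_zeta]
  exact dscuo_zeta_prim M

/-- the unit hypothesis of `Ord.lean` holds in `OBar ℓ` for `ℓ ∤ M`. -/
theorem dscig_hunit (hℓ : ¬ ℓ ∣ M) :
    ∀ j : ZMod M, j ≠ 0 → IsUnit (1 - dscigZeta M ℓ ^ j.val) := by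
  intro j hj
  have hcop : M.Coprime ℓ :=
    (Nat.coprime_comm.mp ((Nat.Prime.coprime_iff_not_dvd (Fact.out : ℓ.Prime)).mpr hℓ))
  refine isUnit_one_sub_of_pow_eq_one ℓ hcop (dscigZeta M ℓ ^ j.val) ?_ ?_
  · rw [← pow_mul, mul_comm, pow_mul, dscigZeta_pow, one_pow]
  · intro h1
    have h2 : M ∣ j.val := ((dscigZeta_prim M ℓ).pow_eq_one_iff_dvd _).mp h1
    have h3 : j.val = 0 := Nat.eq_zero_of_dvd_of_lt h2 (ZMod.val_lt j)
    exact hj ((ZMod.val_eq_zero j).mp h3)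

/-- the `ℓ`-integral expansion of `F_{(r,t)}`. -/
def dscigSer (r t : ZMod M) : LaurentSeries (OBar ℓ) :=
  HahnSeries.ofPowerSeries ℤ (OBar ℓ) (dscuoP M (dscigZeta M ℓ) r t)

theorem dscigSer_iota (hℓ : ¬ ℓ ∣ M) {r t : ℤ} (hadm : DscpAdm M r t) :
    ModularCurve.coeffMap iotaBar (serO ℓ (dscigSer M ℓ (r : ZMod M) (t : ZMod M))) =
      dscpS M r t := by
  rw [dscuo_S_eq, dscigSer, serO, ModularCurve.coeffMap_coeffMap, ModularCurve.coeffMap_ofPowerSeries]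
  congr 1
  have h := dscuoP_map M (dscigZeta M ℓ) (dscigIota ℓ) (r : ZMod M) (t : ZMod M) ?_
  · rw [dscigIota_zeta] at h
    exact h
  · intro hr
    exact dscig_hunit M ℓ hℓ _ (fun ht => hadm ⟨hr, ht⟩)

end zeta

/-! ### `ℤ`-level: congruence, evenness, nonvanishing, the weight two law -/

section zlevel

variable (M : ℕ) [NeZero M]

theorem dscigF_congr {r t r' t' : ℤ} (hr : (r : ZMod M) = r') (ht : (t : ZMod M) = t') :
    dscigF M r t = dscigF M r' t' := by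
  have h1 : (M : ℤ) ∣ r - r' := by
    rw [← ZMod.intCast_zmod_eq_zero_iff_dvd]
    push_cast
    rw [hr, sub_self]
  have h2 : (M : ℤ) ∣ t - t' := by
    rw [← ZMod.intCast_zmod_eq_zero_iff_dvd]
    push_cast
    rw [ht, sub_self]
  obtain ⟨m, hm⟩ := h1
  obtain ⟨n, hn⟩ := h2
  have e1 : r = r' + M * m := by linarith
  have e2 : t = t' + M * n := by linarith
  have hM : (M : ℝ) ≠ 0 := by exact_mod_cast NeZero.ne M
  unfold dscigF
  have f1 : ((r : ℤ) : ℝ) / M = (r' : ℝ) / M + m := by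
    rw [e1]; push_cast; field_simp
  have f2 : ((t : ℤ) : ℝ) / M = (t' : ℝ) / M + n := by
    rw [e2]; push_cast; field_simp
  rw [f1, f2, dscp_F_add_int]

theorem dscigF_neg (r t : ℤ) : dscigF M (-r) (-t) = dscigF M r t := by
  unfold dscigF
  have e1 : (((-r : ℤ) : ℝ)) / M = -((r : ℝ) / M) := by push_cast; ring
  have e2 : (((-t : ℤ) : ℝ)) / M = -((t : ℝ) / M) := by push_cast; ring
  rw [e1, e2, dscp_F_neg]

theorem dscigF_sub_ne_zero {r t r' t' : ℤ} (hv : DscpAdm M r t) (hw : DscpAdm M r' t')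
    (hne : ¬((r : ZMod M) = r' ∧ (t : ZMod M) = t'))
    (hne' : ¬((r : ZMod M) = -r' ∧ (t : ZMod M) = -t')) (z : ℍ) :
    dscigF M r t z - dscigF M r' t' z ≠ 0 := by
  have h := dscu_L_sub_ne_zero M hv hw hne hne' (dscigDiv M z)
  rwa [dscigF_L, dscigF_L, dscig_mul_div] at h

/-- the right action of `SL(2, ℤ)` on integral row vectors `(r, t)`, first coordinate. -/
def dscigActR (γ : SL(2, ℤ)) (r t : ℤ) : ℤ := r * γ 0 0 + t * γ 1 0

/-- the right action of `SL(2, ℤ)` on integral row vectors `(r, t)`, second coordinate. -/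
def dscigActT (γ : SL(2, ℤ)) (r t : ℤ) : ℤ := r * γ 0 1 + t * γ 1 1

/-- the weight two law of the differences in the `z`-world. -/
theorem dscigF_sub_smul (γ : SL(2, ℤ)) {r t r' t' : ℤ} (hv : DscpAdm M r t) (hw : DscpAdm M r' t')
    (z : ℍ) :
    dscigF M r t (γ • z) - dscigF M r' t' (γ • z) = denom γ z ^ 2 *
      (dscigF M (dscigActR γ r t) (dscigActT γ r t) z -
        dscigF M (dscigActR γ r' t') (dscigActT γ r' t') z) := by
  have h := dscp_F_sub_smul γ (dscp_nonInt_of_adm M hv) (dscp_nonInt_of_adm M hw) z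
  unfold dscigF
  rw [h]
  have e : ∀ a b : ℤ, ((a : ℝ) / M * ((γ 0 0 : ℤ) : ℝ) + (b : ℝ) / M * ((γ 1 0 : ℤ) : ℝ)) =
      ((dscigActR γ a b : ℤ) : ℝ) / M := by
    intro a b
    unfold dscigActR
    push_cast
    ring
  have e' : ∀ a b : ℤ, ((a : ℝ) / M * ((γ 0 1 : ℤ) : ℝ) + (b : ℝ) / M * ((γ 1 1 : ℤ) : ℝ)) =
      ((dscigActT γ a b : ℤ) : ℝ) / M := by
    intro a b
    unfold dscigActT
    push_cast
    ring
  rw [e, e', e, e']

end zlevel

/-! ### the vector level: `v = (r, t) ∈ (ℤ/M)²` -/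

section vlevel

variable (M : ℕ) [NeZero M]

/-- the Fricke function `F_v`, `v ∈ (ℤ/M)²`. -/
def dscigFv (v : ZMod M × ZMod M) : ℍ → ℂ := dscigF M (v.1.val : ℤ) (v.2.val : ℤ)

theorem dscig_cast_val (a : ZMod M) : (((a.val : ℕ) : ℤ) : ZMod M) = a := by
  rw [Int.cast_natCast, ZMod.natCast_zmod_val]

theorem dscigFv_cast (r t : ℤ) : dscigFv M ((r : ZMod M), (t : ZMod M)) = dscigF M r t :=
  dscigF_congr M (dscig_cast_val M _) (dscig_cast_val M _)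

theorem dscig_adm_of_ne {v : ZMod M × ZMod M} (hv : v ≠ 0) :
    DscpAdm M (v.1.val : ℤ) (v.2.val : ℤ) := by
  rintro ⟨h1, h2⟩
  rw [dscig_cast_val] at h1 h2
  exact hv (Prod.ext h1 h2)

theorem dscigFv_mdiff {v : ZMod M × ZMod M} (hv : v ≠ 0) : MDiff (dscigFv M v) :=
  dscigF_mdiff M (dscig_adm_of_ne M hv)

theorem dscigFv_neg (v : ZMod M × ZMod M) : dscigFv M (-v) = dscigFv M v := by
  unfold dscigFv
  rw [← dscigF_neg M (v.1.val : ℤ) (v.2.val : ℤ)]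
  apply dscigF_congr
  · rw [dscig_cast_val, Int.cast_neg, dscig_cast_val]; rfl
  · rw [dscig_cast_val, Int.cast_neg, dscig_cast_val]; rfl

theorem dscigFv_sub_ne_zero {v w : ZMod M × ZMod M} (h : DscigAdm M v w) (z : ℍ) :
    dscigFv M v z - dscigFv M w z ≠ 0 := by
  obtain ⟨hv, hw, h1, h2⟩ := h
  apply dscigF_sub_ne_zero M (dscig_adm_of_ne M hv) (dscig_adm_of_ne M hw)
  · rintro ⟨e1, e2⟩
    rw [dscig_cast_val, dscig_cast_val] at e1 e2
    exact h1 (Prod.ext e1 e2)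
  · rintro ⟨e1, e2⟩
    rw [dscig_cast_val, dscig_cast_val] at e1 e2
    exact h2 (Prod.ext e1 e2)

/-- the weight two law of the differences, vector form. -/
theorem dscigFv_sub_smul (γ : SL(2, ℤ)) {v w : ZMod M × ZMod M} (hv : v ≠ 0) (hw : w ≠ 0)
    (z : ℍ) :
    dscigFv M v (γ • z) - dscigFv M w (γ • z) = denom γ z ^ 2 *
      (dscigFv M (dscigAct M γ v) z - dscigFv M (dscigAct M γ w) z) := by
  have h := dscigF_sub_smul M γ (dscig_adm_of_ne M hv) (dscig_adm_of_ne M hw) z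
  have e : ∀ u : ZMod M × ZMod M,
      dscigF M (dscigActR γ (u.1.val : ℤ) (u.2.val : ℤ)) (dscigActT γ (u.1.val : ℤ) (u.2.val : ℤ)) =
        dscigFv M (dscigAct M γ u) := by
    intro u
    rw [← dscigFv_cast]
    congr 1
    unfold dscigActR dscigActT dscigAct
    ext
    · push_cast
      rw [ZMod.natCast_zmod_val, ZMod.natCast_zmod_val]
    · push_cast
      rw [ZMod.natCast_zmod_val, ZMod.natCast_zmod_val]
  rw [e, e] at h
  exact h

end vlevel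

/-! ### the holomorphic functions `D_{v,w} = F_v - F_w`, their inverses, the action of `SL(2, ℤ)` -/

section hol

variable (M : ℕ) [NeZero M]

open Classical in
/-- `F_v - F_w` as a holomorphic function (`0` unless `v, w ≠ 0`). -/
def dscigDHol (v w : ZMod M × ZMod M) : HolRing :=
  if h : v ≠ 0 ∧ w ≠ 0 then
    ⟨dscigFv M v - dscigFv M w, (dscigFv_mdiff M h.1).sub (dscigFv_mdiff M h.2)⟩
  else 0

theorem dscigDHol_apply {v w : ZMod M × ZMod M} (hv : v ≠ 0) (hw : w ≠ 0) (z : ℍ) :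
    (dscigDHol M v w : ℍ → ℂ) z = dscigFv M v z - dscigFv M w z := by
  unfold dscigDHol
  rw [dif_pos ⟨hv, hw⟩]
  rfl

open Classical in
/-- `(F_v - F_w)⁻¹` as a holomorphic function (`0` unless `(v, w)` is admissible). -/
def dscigDInvHol (v w : ZMod M × ZMod M) : HolRing :=
  if h : DscigAdm M v w then
    ⟨fun z => (dscigFv M v z - dscigFv M w z)⁻¹, fun z =>
      (((dscigFv_mdiff M h.1).sub (dscigFv_mdiff M h.2.1)) z).inv (dscigFv_sub_ne_zero M h z)⟩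
  else 0

theorem dscigDInvHol_apply {v w : ZMod M × ZMod M} (h : DscigAdm M v w) (z : ℍ) :
    (dscigDInvHol M v w : ℍ → ℂ) z = (dscigFv M v z - dscigFv M w z)⁻¹ := by
  unfold dscigDInvHol
  rw [dif_pos h]

theorem dscigDHol_mul_inv {v w : ZMod M × ZMod M} (h : DscigAdm M v w) :
    dscigDHol M v w * dscigDInvHol M v w = 1 := by
  apply Subtype.ext
  funext z
  show (dscigDHol M v w : ℍ → ℂ) z * (dscigDInvHol M v w : ℍ → ℂ) z = 1
  rw [dscigDHol_apply M h.1 h.2.1, dscigDInvHol_apply M h]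
  exact mul_inv_cancel₀ (dscigFv_sub_ne_zero M h z)

theorem dscigDHol_neg {v w : ZMod M × ZMod M} (hv : v ≠ 0) (hw : w ≠ 0) :
    dscigDHol M (-v) (-w) = dscigDHol M v w := by
  apply Subtype.ext
  funext z
  rw [dscigDHol_apply M (neg_ne_zero.mpr hv) (neg_ne_zero.mpr hw), dscigDHol_apply M hv hw,
    dscigFv_neg, dscigFv_neg]

theorem dscigDInvHol_neg {v w : ZMod M × ZMod M} (h : DscigAdm M v w) :
    dscigDInvHol M (-v) (-w) = dscigDInvHol M v w := by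
  apply Subtype.ext
  funext z
  rw [dscigDInvHol_apply M (dscigAdm_neg M h), dscigDInvHol_apply M h, dscigFv_neg, dscigFv_neg]

theorem dscig_ratio_apply (δ : SL(2, ℤ)) {v w w' : ZMod M × ZMod M} (hw : w ≠ 0)
    (h : DscigAdm M v w') (z : ℍ) :
    (dscigDHol M v w : ℍ → ℂ) (δ • z) * (dscigDInvHol M v w' : ℍ → ℂ) (δ • z) =
      (dscigDHol M (dscigAct M δ v) (dscigAct M δ w) : ℍ → ℂ) z *
        (dscigDInvHol M (dscigAct M δ v) (dscigAct M δ w') : ℍ → ℂ) z := by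
  have hv := h.1
  rw [dscigDHol_apply M hv hw, dscigDInvHol_apply M h,
    dscigDHol_apply M (dscigAct_ne_zero M δ hv) (dscigAct_ne_zero M δ hw),
    dscigDInvHol_apply M (dscigAdm_act M δ h), dscigFv_sub_smul M δ hv hw,
    dscigFv_sub_smul M δ hv h.2.1]
  have hj : denom δ z ^ 2 ≠ 0 := pow_ne_zero 2 (denom_ne_zero δ z)
  rw [mul_inv, mul_mul_mul_comm, mul_inv_cancel₀ hj, one_mul]

theorem dscig_W_apply (δ : SL(2, ℤ)) {v w : ZMod M × ZMod M} (hv : v ≠ 0) (hw : w ≠ 0) (z : ℍ) :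
    ((dscigDHol M v w : ℍ → ℂ) (δ • z)) ^ 6 * (ModularForm.discriminant (δ • z))⁻¹ =
      ((dscigDHol M (dscigAct M δ v) (dscigAct M δ w) : ℍ → ℂ) z) ^ 6 *
        (ModularForm.discriminant z)⁻¹ := by
  rw [dscigDHol_apply M hv hw,
    dscigDHol_apply M (dscigAct_ne_zero M δ hv) (dscigAct_ne_zero M δ hw),
    dscigFv_sub_smul M δ hv hw, ut_discriminant_smul]
  have hj : denom δ z ≠ 0 := denom_ne_zero δ z
  rw [mul_pow, mul_inv, ← pow_mul, mul_mul_mul_comm]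
  have : (denom δ z) ^ (2 * 6) * ((denom δ z) ^ (12 : ℤ))⁻¹ = 1 := by
    rw [show (2 * 6 : ℕ) = 12 by norm_num, ← zpow_natCast]
    exact mul_inv_cancel₀ (zpow_ne_zero _ hj)
  rw [this, one_mul]

theorem dscig_WInv_apply (δ : SL(2, ℤ)) {v w : ZMod M × ZMod M} (h : DscigAdm M v w) (z : ℍ) :
    ((dscigDInvHol M v w : ℍ → ℂ) (δ • z)) ^ 6 * (ModularForm.discriminant (δ • z)) =
      ((dscigDInvHol M (dscigAct M δ v) (dscigAct M δ w) : ℍ → ℂ) z) ^ 6 *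
        (ModularForm.discriminant z) := by
  rw [dscigDInvHol_apply M h, dscigDInvHol_apply M (dscigAdm_act M δ h),
    dscigFv_sub_smul M δ h.1 h.2.1, ut_discriminant_smul]
  have hj : denom δ z ≠ 0 := denom_ne_zero δ z
  rw [mul_inv, mul_pow, mul_mul_mul_comm, ← inv_pow, ← pow_mul]
  have : ((denom δ z)⁻¹) ^ (2 * 6) * ((denom δ z) ^ (12 : ℤ)) = 1 := by
    rw [show (2 * 6 : ℕ) = 12 by norm_num, ← zpow_natCast, inv_zpow]
    exact inv_mul_cancel₀ (zpow_ne_zero _ hj)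
  rw [this, one_mul]

/-- SLASH, ratios: `γ • (D_{v,w} / D_{v,w'}) = D_{vγ⁻¹,wγ⁻¹} / D_{vγ⁻¹,w'γ⁻¹}`. -/
theorem dscig_smul_ratio (γ : SL(2, ℤ)) {v w w' : ZMod M × ZMod M} (hw : w ≠ 0)
    (h : DscigAdm M v w') :
    γ • (dscigDHol M v w * dscigDInvHol M v w') =
      dscigDHol M (dscigAct M γ⁻¹ v) (dscigAct M γ⁻¹ w) *
        dscigDInvHol M (dscigAct M γ⁻¹ v) (dscigAct M γ⁻¹ w') := by
  apply Subtype.ext
  funext z
  rw [HolRing.smul_apply]
  exact dscig_ratio_apply M γ⁻¹ hw h z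

/-- SLASH, units: `γ • (D_{v,w}⁶ / Δ) = D_{vγ⁻¹,wγ⁻¹}⁶ / Δ`. -/
theorem dscig_smul_W (γ : SL(2, ℤ)) {v w : ZMod M × ZMod M} (hv : v ≠ 0) (hw : w ≠ 0) :
    γ • (dscigDHol M v w ^ 6 * deltaInvHol) =
      dscigDHol M (dscigAct M γ⁻¹ v) (dscigAct M γ⁻¹ w) ^ 6 * deltaInvHol := by
  apply Subtype.ext
  funext z
  rw [HolRing.smul_apply]
  exact dscig_W_apply M γ⁻¹ hv hw z

/-- SLASH, inverse units: `γ • (Δ / D_{v,w}⁶) = Δ / D_{vγ⁻¹,wγ⁻¹}⁶`. -/
theorem dscig_smul_WInv (γ : SL(2, ℤ)) {v w : ZMod M × ZMod M} (h : DscigAdm M v w) :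
    γ • (dscigDInvHol M v w ^ 6 * deltaHol) =
      dscigDInvHol M (dscigAct M γ⁻¹ v) (dscigAct M γ⁻¹ w) ^ 6 * deltaHol := by
  apply Subtype.ext
  funext z
  rw [HolRing.smul_apply]
  exact dscig_WInv_apply M γ⁻¹ h z

end hol

/-! ### the pairs `D_{v,w}`, `1/D_{v,w}` in `IntPair M ℓ` -/

section pairs

variable (M : ℕ) [NeZero M] (ℓ : ℕ) [Fact ℓ.Prime]

/-- the reduction `ζ̄ ∈ kBar ℓ` of `ζ_M`. -/
def dscigZetaBar : kBar ℓ := redBar ℓ (dscigZeta M ℓ)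

theorem dscigZetaBar_pow : dscigZetaBar M ℓ ^ M = 1 := by
  unfold dscigZetaBar
  rw [← map_pow, dscigZeta_pow, map_one]

theorem dscig_hunit_bar (hℓ : ¬ ℓ ∣ M) :
    ∀ j : ZMod M, j ≠ 0 → IsUnit (1 - dscigZetaBar M ℓ ^ j.val) := by
  intro j hj
  have := (dscig_hunit M ℓ hℓ j hj).map (redBar ℓ)
  rwa [map_sub, map_one, map_pow] at this

/-- `ζ̄` is a primitive `M`-th root of unity in `kBar ℓ` for `ℓ ∤ M`. -/
theorem dscigZetaBar_prim (hℓ : ¬ ℓ ∣ M) : IsPrimitiveRoot (dscigZetaBar M ℓ) M := by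
  refine IsPrimitiveRoot.mk_of_lt _ (Nat.pos_of_ne_zero (NeZero.ne M)) (dscigZetaBar_pow M ℓ) ?_
  intro l hl0 hlM h1
  have hl : ((l : ℕ) : ZMod M) ≠ 0 := by
    rw [Ne, ZMod.natCast_eq_zero_iff]
    intro hd
    exact absurd (Nat.le_of_dvd hl0 hd) (not_le.mpr hlM)
  have hu := dscig_hunit_bar M ℓ hℓ _ hl
  rw [ZMod.val_natCast, Nat.mod_eq_of_lt hlM, h1, sub_self] at hu
  exact not_isUnit_zero hu

theorem dscigSer_red (hℓ : ¬ ℓ ∣ M) {v : ZMod M × ZMod M} (hv : v ≠ 0) :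
    serRed ℓ (dscigSer M ℓ v.1 v.2) =
      HahnSeries.ofPowerSeries ℤ (kBar ℓ) (dscuoP M (dscigZetaBar M ℓ) v.1 v.2) := by
  rw [dscigSer, serRed, ModularCurve.coeffMap_ofPowerSeries]
  congr 1
  refine dscuoP_map M (dscigZeta M ℓ) (redBar ℓ) v.1 v.2 ?_
  intro hr
  refine dscig_hunit M ℓ hℓ _ (fun ht => hv (Prod.ext hr ht))

theorem dscigFv_hasCuspExp (hℓ : ¬ ℓ ∣ M) {v : ZMod M × ZMod M} (hv : v ≠ 0) :
    HasCuspExp M (dscigFv M v)
      (ModularCurve.coeffMap iotaBar (serO ℓ (dscigSer M ℓ v.1 v.2))) := by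
  have hadm := dscig_adm_of_ne M hv
  have h := dscigSer_iota M ℓ hℓ hadm
  rw [dscig_cast_val, dscig_cast_val] at h
  rw [h]
  exact dscigF_hasCuspExp M hadm

/-- the expansion of `F_v - F_w` has a unit leading coefficient at `min(|r_v|,|r_w|)`. -/
theorem dscigSer_sub_hasUnitLead (hℓ : ¬ ℓ ∣ M) {v w : ZMod M × ZMod M} (h : DscigAdm M v w) :
    HasUnitLead (dscigSer M ℓ v.1 v.2 - dscigSer M ℓ w.1 w.2)
      ((min (dscuoAbs M v.1) (dscuoAbs M w.1) : ℕ) : ℤ) := by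
  obtain ⟨hv, hw, h1, h2⟩ := h
  unfold dscigSer
  rw [← map_sub]
  constructor
  · rw [HahnSeries.ofPowerSeries_apply_coeff]
    refine dscuo_lead (dscigZeta_pow M ℓ) (dscig_hunit M ℓ hℓ) (fun e => hv (Prod.ext e.1 e.2))
      (fun e => hw (Prod.ext e.1 e.2)) (fun e => h1 (Prod.ext e.1 e.2))
      (fun e => h2 (Prod.ext e.1 e.2))
  · intro i hi
    rw [PowerSeries.coeff_coe]
    split_ifs with hneg
    · rfl
    · rw [not_lt] at hneg
      apply dscuo_order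
      omega

open Classical in
/-- the pair `D_{v,w} = (F_v - F_w, P_v - P_w)` (`0` unless `ℓ ∤ M`, `v, w ≠ 0`). -/
def dscigD (v w : ZMod M × ZMod M) : IntPair M ℓ :=
  if h : ¬ ℓ ∣ M ∧ v ≠ 0 ∧ w ≠ 0 then
    ⟨(dscigDHol M v w, dscigSer M ℓ v.1 v.2 - dscigSer M ℓ w.1 w.2), by
      have e : (dscigDHol M v w : ℍ → ℂ) = dscigFv M v - dscigFv M w := by
        funext z
        exact dscigDHol_apply M h.2.1 h.2.2 z
      show HasCuspExp M (dscigDHol M v w : ℍ → ℂ) _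
      rw [e, map_sub, map_sub, sub_eq_add_neg, sub_eq_add_neg]
      exact (dscigFv_hasCuspExp M ℓ h.1 h.2.1).add (dscigFv_hasCuspExp M ℓ h.1 h.2.2).neg⟩
  else 0

theorem dscigD_fst (hℓ : ¬ ℓ ∣ M) {v w : ZMod M × ZMod M} (hv : v ≠ 0) (hw : w ≠ 0) :
    IntPair.fst M ℓ (dscigD M ℓ v w) = dscigDHol M v w := by
  unfold dscigD
  rw [dif_pos ⟨hℓ, hv, hw⟩]
  rfl

theorem dscigD_snd (hℓ : ¬ ℓ ∣ M) {v w : ZMod M × ZMod M} (hv : v ≠ 0) (hw : w ≠ 0) :
    IntPair.snd M ℓ (dscigD M ℓ v w) =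
      HahnSeries.ofPowerSeries ℤ (OBar ℓ)
        (dscuoP M (dscigZeta M ℓ) v.1 v.2 - dscuoP M (dscigZeta M ℓ) w.1 w.2) := by
  unfold dscigD
  rw [dif_pos ⟨hℓ, hv, hw⟩, map_sub]
  rfl

/-- `ρ(D_{v,w}) = P̄_v - P̄_w` over `kBar ℓ`. -/
theorem dscigD_rho (hℓ : ¬ ℓ ∣ M) {v w : ZMod M × ZMod M} (hv : v ≠ 0) (hw : w ≠ 0) :
    keyirrRho M ℓ (dscigD M ℓ v w) =
      HahnSeries.ofPowerSeries ℤ (kBar ℓ)
        (dscuoP M (dscigZetaBar M ℓ) v.1 v.2 - dscuoP M (dscigZetaBar M ℓ) w.1 w.2) := by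
  show serRed ℓ (IntPair.snd M ℓ (dscigD M ℓ v w)) = _
  rw [dscigD_snd M ℓ hℓ hv hw, map_sub, map_sub, map_sub]
  have h1 := dscigSer_red M ℓ hℓ hv
  have h2 := dscigSer_red M ℓ hℓ hw
  unfold dscigSer at h1 h2
  rw [h1, h2]

theorem dscigD_hasUnitLead (hℓ : ¬ ℓ ∣ M) {v w : ZMod M × ZMod M} (h : DscigAdm M v w) :
    HasUnitLead (IntPair.snd M ℓ (dscigD M ℓ v w))
      ((min (dscuoAbs M v.1) (dscuoAbs M w.1) : ℕ) : ℤ) := by
  have := dscigSer_sub_hasUnitLead M ℓ hℓ h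
  unfold dscigSer at this
  rw [← map_sub] at this
  rw [dscigD_snd M ℓ hℓ h.1 h.2.1]
  exact this

/-- `ord_s ρ(D_{v,w}) = min(|r_v|, |r_w|)`. -/
theorem dscigD_rho_order (hℓ : ¬ ℓ ∣ M) {v w : ZMod M × ZMod M} (h : DscigAdm M v w) :
    (keyirrRho M ℓ (dscigD M ℓ v w)).order =
      ((min (dscuoAbs M v.1) (dscuoAbs M w.1) : ℕ) : ℤ) :=
  (dscigD_hasUnitLead M ℓ hℓ h).order_serRed

theorem dscigD_neg (hℓ : ¬ ℓ ∣ M) {v w : ZMod M × ZMod M} (hv : v ≠ 0) (hw : w ≠ 0) :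
    dscigD M ℓ (-v) (-w) = dscigD M ℓ v w := by
  apply Subtype.ext
  apply Prod.ext
  · show IntPair.fst M ℓ (dscigD M ℓ (-v) (-w)) = IntPair.fst M ℓ (dscigD M ℓ v w)
    rw [dscigD_fst M ℓ hℓ (neg_ne_zero.mpr hv) (neg_ne_zero.mpr hw), dscigD_fst M ℓ hℓ hv hw,
      dscigDHol_neg M hv hw]
  · show IntPair.snd M ℓ (dscigD M ℓ (-v) (-w)) = IntPair.snd M ℓ (dscigD M ℓ v w)
    rw [dscigD_snd M ℓ hℓ (neg_ne_zero.mpr hv) (neg_ne_zero.mpr hw), dscigD_snd M ℓ hℓ hv hw]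
    simp only [Prod.fst_neg, Prod.snd_neg]
    rw [dscuoP_neg (dscigZeta_pow M ℓ), dscuoP_neg (dscigZeta_pow M ℓ)]

/-- the inverse of a series with unit leading coefficient at `m` has unit leading coefficient at
`-m`. -/
theorem dscig_hasUnitLead_inv {S T : LaurentSeries (OBar ℓ)} {m : ℤ} (hS : HasUnitLead S m)
    (hST : S * T = 1) : HasUnitLead T (-m) := by
  have hSo : S.order = m := basic_order_eq hS.1.ne_zero hS.2
  have hS0 : S ≠ 0 := HahnSeries.ne_zero_of_coeff_ne_zero hS.1.ne_zero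
  have hT0 : T ≠ 0 := by
    rintro rfl
    rw [mul_zero] at hST
    exact zero_ne_one hST
  have hord : S.order + T.order = 0 := by
    rw [← HahnSeries.order_mul hS0 hT0, hST, HahnSeries.order_one]
  have hTo : T.order = -m := by rw [← hSo]; omega
  have hc : S.coeff m * T.coeff (-m) = 1 := by
    have h1 := HahnSeries.coeff_mul_order_add_order S T
    rw [hST, hord, HahnSeries.leadingCoeff_eq, HahnSeries.leadingCoeff_eq, hSo, hTo] at h1
    rw [← h1]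
    rw [HahnSeries.coeff_one, if_pos rfl]
  refine ⟨IsUnit.of_mul_eq_one _ (by rw [mul_comm]; exact hc), ?_⟩
  intro i hi
  exact HahnSeries.coeff_eq_zero_of_lt_order (by rw [hTo]; exact hi)

open Classical in
/-- the pair `(1/(F_v - F_w), 1/(P_v - P_w))` (`0` unless `ℓ ∤ M` and `(v, w)` admissible). -/
def dscigDInv (v w : ZMod M × ZMod M) : IntPair M ℓ :=
  if h : ¬ ℓ ∣ M ∧ DscigAdm M v w then
    ⟨(dscigDInvHol M v w,
      (((dscigSer_sub_hasUnitLead M ℓ h.1 h.2).isUnit.unit)⁻¹ : (LaurentSeries (OBar ℓ))ˣ)), by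
      have e : (dscigDInvHol M v w : ℍ → ℂ) = fun z => (dscigFv M v z - dscigFv M w z)⁻¹ := by
        funext z
        exact dscigDInvHol_apply M h.2 z
      show HasCuspExp M (dscigDInvHol M v w : ℍ → ℂ) _
      rw [e, ← RingHom.comp_apply, map_units_inv, IsUnit.unit_spec, RingHom.comp_apply, map_sub,
        map_sub]
      have hexp : HasCuspExp M (dscigFv M v - dscigFv M w)
          (ModularCurve.coeffMap iotaBar (serO ℓ (dscigSer M ℓ v.1 v.2)) -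
            ModularCurve.coeffMap iotaBar (serO ℓ (dscigSer M ℓ w.1 w.2))) := by
        rw [sub_eq_add_neg, sub_eq_add_neg]
        exact (dscigFv_hasCuspExp M ℓ h.1 h.2.1).add (dscigFv_hasCuspExp M ℓ h.1 h.2.2.1).neg
      exact dscbr_hasCuspExp_inv ((dscigFv_mdiff M h.2.1).sub (dscigFv_mdiff M h.2.2.1)) hexp
        (dscigFv_sub_ne_zero M h.2)⟩
  else 0

theorem dscigDInv_fst (hℓ : ¬ ℓ ∣ M) {v w : ZMod M × ZMod M} (h : DscigAdm M v w) :
    IntPair.fst M ℓ (dscigDInv M ℓ v w) = dscigDInvHol M v w := by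
  unfold dscigDInv
  rw [dif_pos ⟨hℓ, h⟩]
  rfl

theorem dscigD_mul_inv (hℓ : ¬ ℓ ∣ M) {v w : ZMod M × ZMod M} (h : DscigAdm M v w) :
    dscigD M ℓ v w * dscigDInv M ℓ v w = 1 := by
  apply Subtype.ext
  apply Prod.ext
  · show IntPair.fst M ℓ (dscigD M ℓ v w * dscigDInv M ℓ v w) = 1
    rw [map_mul, dscigD_fst M ℓ hℓ h.1 h.2.1, dscigDInv_fst M ℓ hℓ h, dscigDHol_mul_inv M h]
  · unfold dscigD dscigDInv
    rw [dif_pos ⟨hℓ, h.1, h.2.1⟩, dif_pos ⟨hℓ, h⟩]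
    exact IsUnit.mul_val_inv (dscigSer_sub_hasUnitLead M ℓ hℓ h).isUnit

theorem dscigDInv_hasUnitLead (hℓ : ¬ ℓ ∣ M) {v w : ZMod M × ZMod M} (h : DscigAdm M v w) :
    HasUnitLead (IntPair.snd M ℓ (dscigDInv M ℓ v w))
      (-((min (dscuoAbs M v.1) (dscuoAbs M w.1) : ℕ) : ℤ)) := by
  refine dscig_hasUnitLead_inv ℓ (dscigD_hasUnitLead M ℓ hℓ h) ?_
  have := congrArg (IntPair.snd M ℓ) (dscigD_mul_inv M ℓ hℓ h)
  rwa [map_mul, map_one] at this

theorem dscigDInv_rho_order (hℓ : ¬ ℓ ∣ M) {v w : ZMod M × ZMod M} (h : DscigAdm M v w) :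
    (keyirrRho M ℓ (dscigDInv M ℓ v w)).order =
      -((min (dscuoAbs M v.1) (dscuoAbs M w.1) : ℕ) : ℤ) :=
  (dscigDInv_hasUnitLead M ℓ hℓ h).order_serRed

theorem dscigDInv_neg (hℓ : ¬ ℓ ∣ M) {v w : ZMod M × ZMod M} (h : DscigAdm M v w) :
    dscigDInv M ℓ (-v) (-w) = dscigDInv M ℓ v w := by
  have h1 := dscigD_mul_inv M ℓ hℓ (dscigAdm_neg M h)
  rw [dscigD_neg M ℓ hℓ h.1 h.2.1] at h1
  have h2 := dscigD_mul_inv M ℓ hℓ h
  calc dscigDInv M ℓ (-v) (-w) = (dscigDInv M ℓ v w * dscigD M ℓ v w) * dscigDInv M ℓ (-v) (-w) := by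
        rw [mul_comm (dscigDInv M ℓ v w), h2, one_mul]
    _ = dscigDInv M ℓ v w := by rw [mul_assoc, h1, mul_one]

end pairs

/-! ### the `Δ`-pairs and the units `W_{v,w} = D_{v,w}⁶/Δ` -/

section units

variable (M : ℕ) [NeZero M] (ℓ : ℕ) [Fact ℓ.Prime]

/-- the pair `(1/Δ(z), 1/Δ(s^M))`. -/
def dscigDeltaInv : IntPair M ℓ :=
  ⟨(deltaInvHol, ModularCurve.qExpand (OBar ℓ) M (deltaInvSer (OBar ℓ))), by
    show HasCuspExp M (fun z : ℍ => (ModularForm.discriminant z)⁻¹) _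
    rw [serO, ModularCurve.coeffMap_coeffMap, ModularCurve.coeffMap_qExpand, coeffMap_deltaInvSer]
    have := hasCuspExp_deltaInv.qExpand M
    rwa [one_mul] at this⟩

/-- the pair `(Δ(z), Δ(s^M))`. -/
def dscigDelta : IntPair M ℓ :=
  ⟨(deltaHol, ModularCurve.qExpand (OBar ℓ) M (deltaSer (OBar ℓ))), by
    show HasCuspExp M (fun z : ℍ => ModularForm.discriminant z) _
    rw [serO, ModularCurve.coeffMap_coeffMap, ModularCurve.coeffMap_qExpand, coeffMap_deltaSer]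
    have := hasCuspExp_delta.qExpand M
    rwa [one_mul] at this⟩

theorem dscigDeltaInv_fst : IntPair.fst M ℓ (dscigDeltaInv M ℓ) = deltaInvHol := rfl

theorem dscigDeltaInv_snd : IntPair.snd M ℓ (dscigDeltaInv M ℓ) =
    ModularCurve.qExpand (OBar ℓ) M (deltaInvSer (OBar ℓ)) := rfl

theorem dscigDelta_fst : IntPair.fst M ℓ (dscigDelta M ℓ) = deltaHol := rfl

theorem dscigDelta_mul_inv : dscigDelta M ℓ * dscigDeltaInv M ℓ = 1 := by
  apply Subtype.ext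
  apply Prod.ext
  · exact deltaHol_mul_deltaInvHol
  · show ModularCurve.qExpand (OBar ℓ) M (deltaSer (OBar ℓ)) *
      ModularCurve.qExpand (OBar ℓ) M (deltaInvSer (OBar ℓ)) = 1
    rw [← map_mul, deltaSer_mul_deltaInvSer, map_one]

theorem dscig_qExpand_hasUnitLead {S : LaurentSeries (OBar ℓ)} {m : ℤ} (h : HasUnitLead S m) :
    HasUnitLead (ModularCurve.qExpand (OBar ℓ) M S) ((M : ℤ) * m) := by
  constructor
  · rw [ModularCurve.qExpand_coeff_mul]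
    exact h.1
  · intro i hi
    by_cases hd : (M : ℤ) ∣ i
    · obtain ⟨k, rfl⟩ := hd
      rw [ModularCurve.qExpand_coeff_mul]
      apply h.2
      have hM : (0 : ℤ) < M := by exact_mod_cast Nat.pos_of_ne_zero (NeZero.ne M)
      exact lt_of_mul_lt_mul_left hi hM.le
    · exact ModularCurve.qExpand_coeff_of_not_dvd M S hd

theorem dscigDeltaInv_hasUnitLead :
    HasUnitLead (IntPair.snd M ℓ (dscigDeltaInv M ℓ)) (-(M : ℤ)) := by
  have h : HasUnitLead (deltaInvSer (OBar ℓ)) (-1) :=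
    ⟨by rw [deltaInvSer_coeff_neg_one]; exact isUnit_one,
      fun i hi => deltaInvSer_coeff_of_lt (OBar ℓ) hi⟩
  have := dscig_qExpand_hasUnitLead M ℓ h
  rwa [mul_neg, mul_one] at this

theorem dscigDelta_hasUnitLead :
    HasUnitLead (IntPair.snd M ℓ (dscigDelta M ℓ)) (M : ℤ) := by
  have h : HasUnitLead (deltaSer (OBar ℓ)) 1 :=
    ⟨by rw [deltaSer_coeff_one]; exact isUnit_one,
      fun i hi => deltaSer_coeff_of_lt (OBar ℓ) hi⟩
  have := dscig_qExpand_hasUnitLead M ℓ h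
  rwa [mul_one] at this

/-- `ord_s ρ(1/Δ) = -M`. -/
theorem dscigDeltaInv_rho_order : (keyirrRho M ℓ (dscigDeltaInv M ℓ)).order = -(M : ℤ) :=
  (dscigDeltaInv_hasUnitLead M ℓ).order_serRed

theorem dscig_hasUnitLead_pow {S : LaurentSeries (OBar ℓ)} {m : ℤ} (h : HasUnitLead S m) (n : ℕ) :
    HasUnitLead (S ^ n) ((n : ℤ) * m) := by
  induction n with
  | zero =>
    rw [pow_zero, Nat.cast_zero, zero_mul]
    refine ⟨by rw [HahnSeries.coeff_one, if_pos rfl]; exact isUnit_one, fun i hi => ?_⟩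
    rw [HahnSeries.coeff_one, if_neg hi.ne]
  | succ n ih =>
    rw [pow_succ]
    have := ih.mul h
    have e : ((n + 1 : ℕ) : ℤ) * m = (n : ℤ) * m + m := by push_cast; ring
    rwa [e]

/-- the unit `W_{v,w} = D_{v,w}⁶ / Δ`. -/
def dscigW (v w : ZMod M × ZMod M) : IntPair M ℓ := dscigD M ℓ v w ^ 6 * dscigDeltaInv M ℓ

/-- its inverse `Δ / D_{v,w}⁶`. -/
def dscigWInv (v w : ZMod M × ZMod M) : IntPair M ℓ := dscigDInv M ℓ v w ^ 6 * dscigDelta M ℓ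

theorem dscigW_mul_inv (hℓ : ¬ ℓ ∣ M) {v w : ZMod M × ZMod M} (h : DscigAdm M v w) :
    dscigW M ℓ v w * dscigWInv M ℓ v w = 1 := by
  unfold dscigW dscigWInv
  rw [mul_mul_mul_comm, ← mul_pow, dscigD_mul_inv M ℓ hℓ h, one_pow, one_mul, mul_comm,
    dscigDelta_mul_inv]

theorem dscigW_fst (hℓ : ¬ ℓ ∣ M) {v w : ZMod M × ZMod M} (hv : v ≠ 0) (hw : w ≠ 0) :
    IntPair.fst M ℓ (dscigW M ℓ v w) = dscigDHol M v w ^ 6 * deltaInvHol := by
  unfold dscigW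
  rw [map_mul, map_pow, dscigD_fst M ℓ hℓ hv hw]
  rfl

theorem dscigWInv_fst (hℓ : ¬ ℓ ∣ M) {v w : ZMod M × ZMod M} (h : DscigAdm M v w) :
    IntPair.fst M ℓ (dscigWInv M ℓ v w) = dscigDInvHol M v w ^ 6 * deltaHol := by
  unfold dscigWInv
  rw [map_mul, map_pow, dscigDInv_fst M ℓ hℓ h]
  rfl

/-- SLASH for the `W`-pairs. -/
theorem dscigW_smul (hℓ : ¬ ℓ ∣ M) (γ : SL(2, ℤ)) {v w : ZMod M × ZMod M} (hv : v ≠ 0)
    (hw : w ≠ 0) :
    γ • IntPair.fst M ℓ (dscigW M ℓ v w) =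
      IntPair.fst M ℓ (dscigW M ℓ (dscigAct M γ⁻¹ v) (dscigAct M γ⁻¹ w)) := by
  rw [dscigW_fst M ℓ hℓ hv hw,
    dscigW_fst M ℓ hℓ (dscigAct_ne_zero M γ⁻¹ hv) (dscigAct_ne_zero M γ⁻¹ hw),
    dscig_smul_W M γ hv hw]

theorem dscigWInv_smul (hℓ : ¬ ℓ ∣ M) (γ : SL(2, ℤ)) {v w : ZMod M × ZMod M}
    (h : DscigAdm M v w) :
    γ • IntPair.fst M ℓ (dscigWInv M ℓ v w) =
      IntPair.fst M ℓ (dscigWInv M ℓ (dscigAct M γ⁻¹ v) (dscigAct M γ⁻¹ w)) := by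
  rw [dscigWInv_fst M ℓ hℓ h, dscigWInv_fst M ℓ hℓ (dscigAdm_act M γ⁻¹ h), dscig_smul_WInv M γ h]

/-- SLASH for the ratio pairs `D_{v,w} / D_{v,w'}`. -/
theorem dscigD_ratio_smul (hℓ : ¬ ℓ ∣ M) (γ : SL(2, ℤ)) {v w w' : ZMod M × ZMod M} (hw : w ≠ 0)
    (h : DscigAdm M v w') :
    γ • IntPair.fst M ℓ (dscigD M ℓ v w * dscigDInv M ℓ v w') =
      IntPair.fst M ℓ (dscigD M ℓ (dscigAct M γ⁻¹ v) (dscigAct M γ⁻¹ w) *
        dscigDInv M ℓ (dscigAct M γ⁻¹ v) (dscigAct M γ⁻¹ w')) := by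
  rw [map_mul, map_mul, dscigD_fst M ℓ hℓ h.1 hw, dscigDInv_fst M ℓ hℓ h,
    dscigD_fst M ℓ hℓ (dscigAct_ne_zero M γ⁻¹ h.1) (dscigAct_ne_zero M γ⁻¹ hw),
    dscigDInv_fst M ℓ hℓ (dscigAdm_act M γ⁻¹ h), dscig_smul_ratio M γ hw h]

/-- `ord_s W_{v,w} = 6 min(|r_v|, |r_w|) - M`, with unit leading coefficient. -/
theorem dscigW_hasUnitLead (hℓ : ¬ ℓ ∣ M) {v w : ZMod M × ZMod M} (h : DscigAdm M v w) :
    HasUnitLead (IntPair.snd M ℓ (dscigW M ℓ v w))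
      (6 * ((min (dscuoAbs M v.1) (dscuoAbs M w.1) : ℕ) : ℤ) - (M : ℤ)) := by
  unfold dscigW
  rw [map_mul, map_pow]
  have h1 := dscig_hasUnitLead_pow ℓ (dscigD_hasUnitLead M ℓ hℓ h) 6
  have h2 := h1.mul (dscigDeltaInv_hasUnitLead M ℓ)
  have e : ((6 : ℕ) : ℤ) * ((min (dscuoAbs M v.1) (dscuoAbs M w.1) : ℕ) : ℤ) + -(M : ℤ) =
      6 * ((min (dscuoAbs M v.1) (dscuoAbs M w.1) : ℕ) : ℤ) - (M : ℤ) := by push_cast; ring
  rwa [e] at h2

/-- `ord_s ρ(W_{v,w}) = 6 min(|r_v|, |r_w|) - M`. -/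
theorem dscigW_rho_order (hℓ : ¬ ℓ ∣ M) {v w : ZMod M × ZMod M} (h : DscigAdm M v w) :
    (keyirrRho M ℓ (dscigW M ℓ v w)).order =
      6 * ((min (dscuoAbs M v.1) (dscuoAbs M w.1) : ℕ) : ℤ) - (M : ℤ) :=
  (dscigW_hasUnitLead M ℓ hℓ h).order_serRed

theorem dscigW_neg (hℓ : ¬ ℓ ∣ M) {v w : ZMod M × ZMod M} (hv : v ≠ 0) (hw : w ≠ 0) :
    dscigW M ℓ (-v) (-w) = dscigW M ℓ v w := by
  unfold dscigW
  rw [dscigD_neg M ℓ hℓ hv hw]

end units

/-! ### the pairs `j(z/d')`, `d' ∣ M`, and their conjugates -/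

section jd

open Fermat.Agent.S23

/-- `z ↦ j(z/d')`. -/
def dscigJdHol (d' : ℕ) [NeZero d'] : HolRing :=
  HolRing.compGL (utGL 1 0 d') (det_utGL_pos one_ne_zero (NeZero.ne d') 0) jHol

theorem dscigJdHol_apply (d' : ℕ) [NeZero d'] (z : ℍ) :
    (dscigJdHol d' : ℍ → ℂ) z = jFun (utGL 1 0 d' • z) := rfl

/-- `j(z/d')` has the expansion `j(q)` in `e(z/d')`. -/
theorem dscigJdHol_hasCuspExp (d' : ℕ) [NeZero d'] :
    HasCuspExp d' (dscigJdHol d' : ℍ → ℂ) (ModularCurve.jqModC ℂ) := by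
  have h := HasCuspExp.comp_affine (a := 1) (d := d') one_ne_zero (NeZero.ne d') 0
    (utGL 1 0 d') (fun τ => coe_utGL_smul one_ne_zero (NeZero.ne d') 0 τ)
    hasCuspExp_jFun 1 (by simp)
  rw [bridge_rotLaurent_one, ModularCurve.qExpand_one_apply] at h
  exact h

/-- `j(z/d') = j(d' · S z)` : the function `j(z/d')` is the `S⁻¹`-conjugate of `j(d' z)`. -/
theorem dscigJdHol_eq_S (d' : ℕ) [NeZero d'] :
    dscigJdHol d' = ModularGroup.S⁻¹ • jdHol d' := by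
  apply Subtype.ext
  funext z
  rw [HolRing.inv_smul_apply, dscigJdHol_apply, jdHol_apply]
  have key : utGL d' 0 1 • (ModularGroup.S • z) = ModularGroup.S • (utGL 1 0 d' • z) := by
    apply UpperHalfPlane.ext
    have hd0 : (d' : ℂ) ≠ 0 := by exact_mod_cast NeZero.ne d'
    have hz0 : (z : ℂ) ≠ 0 := UpperHalfPlane.ne_zero z
    rw [coe_utGL_smul (NeZero.ne d') one_ne_zero 0, UpperHalfPlane.coe_specialLinearGroup_apply,
      UpperHalfPlane.coe_specialLinearGroup_apply, coe_utGL_smul one_ne_zero (NeZero.ne d') 0]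
    simp only [ModularGroup.coe_S, Matrix.of_apply, Matrix.cons_val', Matrix.cons_val_zero,
      Matrix.cons_val_one, Matrix.cons_val_fin_one, algebraMap_int_eq, eq_intCast, Int.cast_zero,
      Int.cast_neg, Int.cast_one]
    push_cast
    field_simp
    ring
  rw [key, jFun_smul]

variable (M : ℕ) [NeZero M] (ℓ : ℕ) [Fact ℓ.Prime]

/-- the pair `(j(z/d'), j(s^d))`, `d · d' = M`. -/
def dscigJd (d d' : ℕ) [NeZero d] [NeZero d'] (hM : d' * d = M) : IntPair M ℓ :=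
  ⟨(dscigJdHol d', ModularCurve.qExpand (OBar ℓ) d (ModularCurve.jqModC (OBar ℓ))), by
    show HasCuspExp M (dscigJdHol d' : ℍ → ℂ) _
    rw [serO, ModularCurve.coeffMap_coeffMap, ModularCurve.coeffMap_qExpand,
      ModularCurve.coeffMap_jqModC]
    have := (dscigJdHol_hasCuspExp d').qExpand d
    rwa [hM] at this⟩

theorem dscigJd_fst (d d' : ℕ) [NeZero d] [NeZero d'] (hM : d' * d = M) :
    IntPair.fst M ℓ (dscigJd M ℓ d d' hM) = dscigJdHol d' := rfl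

theorem dscigJd_snd (d d' : ℕ) [NeZero d] [NeZero d'] (hM : d' * d = M) :
    IntPair.snd M ℓ (dscigJd M ℓ d d' hM) =
      ModularCurve.qExpand (OBar ℓ) d (ModularCurve.jqModC (OBar ℓ)) := rfl

theorem dscigJd_rho (d d' : ℕ) [NeZero d] [NeZero d'] (hM : d' * d = M) :
    keyirrRho M ℓ (dscigJd M ℓ d d' hM) =
      ModularCurve.qExpand (kBar ℓ) d (ModularCurve.jqModC (kBar ℓ)) := by
  show serRed ℓ (ModularCurve.qExpand (OBar ℓ) d (ModularCurve.jqModC (OBar ℓ))) = _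
  rw [serRed, ModularCurve.coeffMap_qExpand, ModularCurve.coeffMap_jqModC]

/-- `j(z/d')` is invariant under `Γ⁰(d') = {γ | d' ∣ γ 0 1}`. -/
theorem dscigJdHol_smul (d' : ℕ) [NeZero d'] (γ : SL(2, ℤ)) (b' : ℤ) (hγ : γ 0 1 = d' * b') :
    γ⁻¹ • dscigJdHol d' = dscigJdHol d' := by
  apply Subtype.ext
  funext z
  rw [HolRing.inv_smul_apply, dscigJdHol_apply, dscigJdHol_apply]
  -- the conjugated matrix `[a, b'; c d', d]`
  have hdet : γ 0 0 * γ 1 1 - b' * (γ 1 0 * d') = 1 := by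
    have := dscig_sl_det γ
    rw [hγ] at this
    linear_combination this
  let γ' : SL(2, ℤ) := ⟨!![γ 0 0, b'; γ 1 0 * d', γ 1 1], by
    rw [Matrix.det_fin_two_of]
    exact hdet⟩
  have key : utGL 1 0 d' • (γ • z) = γ' • (utGL 1 0 d' • z) := by
    apply UpperHalfPlane.ext
    have hd0 : (d' : ℂ) ≠ 0 := by exact_mod_cast NeZero.ne d'
    rw [coe_utGL_smul one_ne_zero (NeZero.ne d') 0, UpperHalfPlane.coe_specialLinearGroup_apply,
      UpperHalfPlane.coe_specialLinearGroup_apply, coe_utGL_smul one_ne_zero (NeZero.ne d') 0]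
    have hden : ((γ 1 0 : ℤ) : ℂ) * (z : ℂ) + ((γ 1 1 : ℤ) : ℂ) ≠ 0 := by
      have := UpperHalfPlane.denom_ne_zero γ z
      simpa [UpperHalfPlane.denom] using this
    have e00 : γ' 0 0 = γ 0 0 := rfl
    have e01 : γ' 0 1 = b' := rfl
    have e10 : γ' 1 0 = γ 1 0 * d' := rfl
    have e11 : γ' 1 1 = γ 1 1 := rfl
    simp only [e00, e01, e10, e11, hγ, algebraMap_int_eq, eq_intCast]
    push_cast
    field_simp
    rw [add_zero, add_zero, mul_comm (z : ℂ) ((γ 1 0 : ℤ) : ℂ)]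
  rw [key, jFun_smul]

/-- the same with `γ` instead of `γ⁻¹`. -/
theorem dscigJdHol_smul' (d' : ℕ) [NeZero d'] (γ : SL(2, ℤ)) (hγ : (d' : ℤ) ∣ γ 0 1) :
    γ • dscigJdHol d' = dscigJdHol d' := by
  obtain ⟨b', hb'⟩ := hγ
  have h := dscigJdHol_smul d' γ b' hb'
  calc γ • dscigJdHol d' = γ • (γ⁻¹ • dscigJdHol d') := by rw [h]
    _ = dscigJdHol d' := by rw [smul_inv_smul]

/-- every conjugate of `j(z/d')` (`d' ∣ M`) has an `ℓ`-integral expansion in width `M`. -/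
theorem dscig_exists_jd (d d' : ℕ) [NeZero d] [NeZero d'] (hM : d' * d = M) (g : SL(2, ℤ)) :
    ∃ p : IntPair M ℓ, IntPair.fst M ℓ p = g • dscigJdHol d' := by
  obtain ⟨S, hS, -⟩ := exists_intPair_jN d' ℓ (g * ModularGroup.S⁻¹)
  refine ⟨⟨(g • dscigJdHol d', ModularCurve.qExpand (OBar ℓ) d S), ?_⟩, rfl⟩
  rw [mem_IntPair] at hS ⊢
  show HasCuspExp M ((g • dscigJdHol d' : HolRing) : ℍ → ℂ) _
  rw [dscigJdHol_eq_S, ← mul_smul, serO, ModularCurve.coeffMap_coeffMap,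
    ModularCurve.coeffMap_qExpand]
  have h := hS.qExpand d
  rw [hM, serO, ModularCurve.coeffMap_coeffMap] at h
  exact h

/-- the `SL(2, ℤ)`-family of pairs of the conjugates of `j(z/d')`. -/
def dscigJdFam (d d' : ℕ) [NeZero d] [NeZero d'] (hM : d' * d = M) (g : SL(2, ℤ)) : IntPair M ℓ :=
  (dscig_exists_jd M ℓ d d' hM g).choose

theorem dscigJdFam_fst (d d' : ℕ) [NeZero d] [NeZero d'] (hM : d' * d = M) (g : SL(2, ℤ)) :
    IntPair.fst M ℓ (dscigJdFam M ℓ d d' hM g) = g • dscigJdHol d' :=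
  (dscig_exists_jd M ℓ d d' hM g).choose_spec

theorem dscigJdFam_one (d d' : ℕ) [NeZero d] [NeZero d'] (hM : d' * d = M) :
    dscigJdFam M ℓ d d' hM 1 = dscigJd M ℓ d d' hM := by
  apply IntPair.ext_fst
  rw [dscigJdFam_fst, one_smul, dscigJd_fst]

theorem dscigJdFam_one_rho (d d' : ℕ) [NeZero d] [NeZero d'] (hM : d' * d = M) :
    keyirrRho M ℓ (dscigJdFam M ℓ d d' hM 1) =
      ModularCurve.qExpand (kBar ℓ) d (ModularCurve.jqModC (kBar ℓ)) := by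
  rw [dscigJdFam_one, dscigJd_rho]

end jd

end Fermat.Agent.DS
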