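import Mathlib
import Fermat.Agent.S28.Basic
import Fermat.Agent.S24.Conj

/-!
# Program DS, package (C), row C3 (IGUSA): the root of unity `e(1/M)` in `OBar ℓ` and its reduction

* `dscigpZeta M ℓ : (OBar ℓ)ˣ` with `iotaBar ζ_O = e(1/M)`, `ζ_O ^ M = 1`, primitive of order `M`;
* `dscigpZetaBar M ℓ : (kBar ℓ)ˣ` its reduction, `ζ̄ ^ M = 1`, and `ζ̄` is PRIMITIVE of order `M` when
  `ℓ ∤ M` (`dscigpZetaBar_isPrimitiveRoot`);
* `dscigpZetaC M ℓ : ℂˣ` its image in `ℂ`.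
-/

set_option autoImplicit false
set_option linter.unusedSectionVars false

noncomputable section

namespace Fermat.Agent.DS

open ModularCurve Fermat.Agent.S24 Fermat.Agent.S28
open scoped Real

variable (M : ℕ) [NeZero M] (ℓ : ℕ) [Fact ℓ.Prime]

/-- the root of unity `e(1/M)` as a unit of `OBar ℓ`. -/
theorem dscigp_exists_zeta :
    ∃ ζ : (OBar ℓ)ˣ, iotaBar ((ζ : OBar ℓ) : QBar) = Complex.exp (2 * π * Complex.I / M) ∧
      ζ ^ M = 1 := by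
  have hM : M ≠ 0 := NeZero.ne M
  have hMc : (M : ℂ) ≠ 0 := Nat.cast_ne_zero.2 hM
  have hpow : Complex.exp (2 * π * Complex.I / M) ^ M = 1 := by
    rw [← Complex.exp_nat_mul, mul_div_cancel₀ _ hMc]
    exact Complex.exp_two_pi_mul_I
  obtain ⟨z, hz⟩ := conj_mem_range_iotaBar_of_pow_eq_one hM hpow
  have hzM : z ^ M = 1 := by
    apply iotaBar_injective
    rw [map_pow, hz, hpow, map_one]
  have hzmem : z ∈ OBar ℓ := mem_OBar_of_pow_eq_one ℓ hM hzM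
  have hM1 : 1 ≤ M := Nat.one_le_iff_ne_zero.mpr hM
  have hinvmem : z ^ (M - 1) ∈ OBar ℓ := Subring.pow_mem _ hzmem _
  have hmul : z * z ^ (M - 1) = 1 := by
    rw [← pow_succ', Nat.sub_add_cancel hM1, hzM]
  refine ⟨⟨⟨z, hzmem⟩, ⟨z ^ (M - 1), hinvmem⟩, Subtype.ext hmul,
    Subtype.ext (by rw [mul_comm] at hmul; exact hmul)⟩, hz, ?_⟩
  apply Units.ext
  apply Subtype.ext
  rw [Units.val_pow_eq_pow_val, Units.val_one, SubmonoidClass.coe_pow]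
  exact hzM

/-- a chosen `ζ_O ∈ (OBar ℓ)ˣ` with `iotaBar ζ_O = e(1/M)`. -/
def dscigpZeta : (OBar ℓ)ˣ := (dscigp_exists_zeta M ℓ).choose

theorem dscigpZeta_spec :
    iotaBar (((dscigpZeta M ℓ : (OBar ℓ)ˣ) : OBar ℓ) : QBar) =
      Complex.exp (2 * π * Complex.I / M) :=
  (dscigp_exists_zeta M ℓ).choose_spec.1

theorem dscigpZeta_pow : dscigpZeta M ℓ ^ M = 1 := (dscigp_exists_zeta M ℓ).choose_spec.2

theorem dscigpZeta_val_pow : ((dscigpZeta M ℓ : (OBar ℓ)ˣ) : OBar ℓ) ^ M = 1 := by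
  rw [← Units.val_pow_eq_pow_val, dscigpZeta_pow, Units.val_one]

/-- `ζ_O` is a primitive `M`-th root of unity of `OBar ℓ`. -/
theorem dscigpZeta_isPrimitiveRoot :
    IsPrimitiveRoot ((dscigpZeta M ℓ : (OBar ℓ)ˣ) : OBar ℓ) M := by
  have hM : M ≠ 0 := NeZero.ne M
  have hprim : IsPrimitiveRoot (Complex.exp (2 * π * Complex.I / M)) M :=
    Complex.isPrimitiveRoot_exp M hM
  have hinj : Function.Injective (iotaBar.comp (OBar ℓ).subtype : OBar ℓ →+* ℂ) :=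
    fun a b hab => Subtype.ext (iotaBar_injective hab)
  refine IsPrimitiveRoot.of_map_of_injective (f := (iotaBar.comp (OBar ℓ).subtype : OBar ℓ →+* ℂ))
    ?_ hinj
  show IsPrimitiveRoot (iotaBar (((dscigpZeta M ℓ : (OBar ℓ)ˣ) : OBar ℓ) : QBar)) M
  rw [dscigpZeta_spec]
  exact hprim

/-- the reduction `ζ̄ ∈ (kBar ℓ)ˣ` of `ζ_O`. -/
def dscigpZetaBar : (kBar ℓ)ˣ := Units.map (redBar ℓ : OBar ℓ →* kBar ℓ) (dscigpZeta M ℓ)

theorem dscigpZetaBar_coe :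
    ((dscigpZetaBar M ℓ : (kBar ℓ)ˣ) : kBar ℓ) = redBar ℓ ((dscigpZeta M ℓ : (OBar ℓ)ˣ) : OBar ℓ) :=
  rfl

theorem dscigpZetaBar_pow : dscigpZetaBar M ℓ ^ M = 1 := by
  rw [dscigpZetaBar, ← map_pow, dscigpZeta_pow, map_one]

theorem dscigpZetaBar_val_pow : ((dscigpZetaBar M ℓ : (kBar ℓ)ˣ) : kBar ℓ) ^ M = 1 := by
  rw [← Units.val_pow_eq_pow_val, dscigpZetaBar_pow, Units.val_one]

/-- `∏_{0 < k < M} (1 - ζ_O^k) = M` in `OBar ℓ`. -/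
theorem dscigpZeta_prod_one_sub :
    ∏ k ∈ Finset.range (M - 1), (1 - ((dscigpZeta M ℓ : (OBar ℓ)ˣ) : OBar ℓ) ^ (k + 1)) =
      (M : OBar ℓ) := by
  have hM1 : 1 ≤ M := Nat.one_le_iff_ne_zero.mpr (NeZero.ne M)
  have hprim := dscigpZeta_isPrimitiveRoot M ℓ
  have hprim' : IsPrimitiveRoot ((dscigpZeta M ℓ : (OBar ℓ)ˣ) : OBar ℓ) (M - 1 + 1) := by
    rw [Nat.sub_add_cancel hM1]
    exact hprim
  have h := IsPrimitiveRoot.prod_one_sub_pow_eq_order hprim'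
  rw [h]
  have e : ((M - 1 : ℕ) : OBar ℓ) + 1 = ((M - 1 + 1 : ℕ) : OBar ℓ) := by
    rw [Nat.cast_add, Nat.cast_one]
  rw [e, Nat.sub_add_cancel hM1]

/-- `∏_{0 < k < M} (1 - ζ̄^k) = M` in `kBar ℓ`. -/
theorem dscigpZetaBar_prod_one_sub :
    ∏ k ∈ Finset.range (M - 1), (1 - ((dscigpZetaBar M ℓ : (kBar ℓ)ˣ) : kBar ℓ) ^ (k + 1)) =
      (M : kBar ℓ) := by
  have h := congrArg (redBar ℓ) (dscigpZeta_prod_one_sub M ℓ)
  rw [map_prod, map_natCast] at h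
  rw [← h]
  apply Finset.prod_congr rfl
  intro k _
  rw [map_sub, map_one, map_pow, dscigpZetaBar_coe]

/-- `M` is nonzero in `kBar ℓ` when `ℓ ∤ M`. -/
theorem dscigp_natCast_ne_zero (hℓ : ¬ ℓ ∣ M) : (M : kBar ℓ) ≠ 0 := by
  intro h
  exact hℓ ((CharP.cast_eq_zero_iff (kBar ℓ) ℓ M).mp h)

/-- `1 - ζ̄^k ≠ 0` for `0 < k < M`, `ℓ ∤ M`. -/
theorem dscigpZetaBar_one_sub_ne_zero (hℓ : ¬ ℓ ∣ M) {k : ℕ} (hk : 0 < k) (hkM : k < M) :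
    1 - ((dscigpZetaBar M ℓ : (kBar ℓ)ˣ) : kBar ℓ) ^ k ≠ 0 := by
  intro h0
  apply dscigp_natCast_ne_zero M ℓ hℓ
  rw [← dscigpZetaBar_prod_one_sub M ℓ]
  apply Finset.prod_eq_zero (i := k - 1)
  · rw [Finset.mem_range]
    omega
  · rw [Nat.sub_add_cancel hk]
    exact h0

/-- `ζ̄` is a primitive `M`-th root of unity of `kBar ℓ` when `ℓ ∤ M`. -/
theorem dscigpZetaBar_isPrimitiveRoot (hℓ : ¬ ℓ ∣ M) :
    IsPrimitiveRoot ((dscigpZetaBar M ℓ : (kBar ℓ)ˣ) : kBar ℓ) M := by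
  have hM : 0 < M := Nat.pos_of_ne_zero (NeZero.ne M)
  refine IsPrimitiveRoot.mk_of_lt _ hM (dscigpZetaBar_val_pow M ℓ) fun k hk hkM h1 => ?_
  apply dscigpZetaBar_one_sub_ne_zero M ℓ hℓ hk hkM
  rw [h1, sub_self]

/-- `1 - ζ_O^k` is a unit of `OBar ℓ` for `0 < k < M`, `ℓ ∤ M`. -/
theorem dscigpZeta_isUnit_one_sub (hℓ : ¬ ℓ ∣ M) {k : ℕ} (hk : 0 < k) (hkM : k < M) :
    IsUnit (1 - ((dscigpZeta M ℓ : (OBar ℓ)ˣ) : OBar ℓ) ^ k) := by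
  have hcop : M.Coprime ℓ :=
    ((Nat.Prime.coprime_iff_not_dvd (Fact.out : ℓ.Prime)).2 hℓ).symm
  refine isUnit_one_sub_of_pow_eq_one ℓ hcop _ ?_ ?_
  · rw [← pow_mul, mul_comm, pow_mul, dscigpZeta_val_pow, one_pow]
  · exact (dscigpZeta_isPrimitiveRoot M ℓ).pow_ne_one_of_pos_of_lt hk.ne' hkM

/-- the image of `ζ_O` in `ℂˣ`. -/
def dscigpZetaC : ℂˣ :=
  Units.map ((iotaBar.comp (OBar ℓ).subtype : OBar ℓ →+* ℂ) : OBar ℓ →* ℂ) (dscigpZeta M ℓ)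

theorem dscigpZetaC_coe :
    ((dscigpZetaC M ℓ : ℂˣ) : ℂ) = Complex.exp (2 * π * Complex.I / M) :=
  dscigpZeta_spec M ℓ

end Fermat.Agent.DS
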