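import Fermat.Agent.DS.C.Igusa.Orbit
import Fermat.Agent.DS.C.Igusa.Zeta
import Fermat.Agent.DS.C.Igusa.Alg
import Fermat.Agent.G.Conj.Formal

/-!
# Program DS, package (C), row C3 (IGUSA), leaf IG-PAIR

* `dscigRing Γ M ℓ` : the ring of families `a : SL(2,ℤ) ⧸ Γ → kBar ℓ((s))` which are the reductions of
  the `ℓ`-integral expansions (in `s = exp(2πiz/M)`) of ALL conjugates `ξ.out • f` of a `Γ`-invariant
  holomorphic function `f`; it contains the constants and `J = j(s^M)`, and the orbit polynomial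
  `∏_ξ (Y - a ξ)` of each member has coefficients in `kBar ℓ[J]`.
* T-LAW : if the function of the pair `p'` is `T •` the function of `p`, the reduced expansion of `p'`
  is the rotation `gcjfRot ζ̄⁻¹` of that of `p` (`ζ̄` the reduction of `e(1/M)`); hence
  `a (T • ξ) = gcjfRot ζ̄⁻¹ (a ξ)` for every `a ∈ dscigRing Γ M ℓ`.
-/

set_option autoImplicit false
set_option linter.unusedSectionVars false

noncomputable section

namespace Fermat.Agent.DS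

open UpperHalfPlane ModularCurve Fermat.Agent.S24 Fermat.Agent.S28 Fermat.Agent.G
open scoped MatrixGroups Real

variable (Γ : Subgroup SL(2, ℤ)) (M : ℕ) [NeZero M] (ℓ : ℕ) [Fact ℓ.Prime]

/-! ### the ring of conjugate families -/

/-- `a` is the family of the reduced expansions of the conjugates of a `Γ`-invariant function. -/
def DscigFam (a : SL(2, ℤ) ⧸ Γ → LaurentSeries (kBar ℓ)) : Prop :=
  ∃ f : HolRing, (∀ γ : SL(2, ℤ), γ ∈ Γ → γ • f = f) ∧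
    ∃ p : SL(2, ℤ) ⧸ Γ → IntPair M ℓ,
      (∀ ξ, IntPair.fst M ℓ (p ξ) = ξ.out • f) ∧ ∀ ξ, a ξ = keyirrRho M ℓ (p ξ)

/-- The ring of the families of reduced expansions of the conjugates of `Γ`-invariant holomorphic
functions all of whose conjugates have `ℓ`-integral expansions in `exp(2πiz/M)`. -/
def dscigRing : Subring (SL(2, ℤ) ⧸ Γ → LaurentSeries (kBar ℓ)) where
  carrier := {a | DscigFam Γ M ℓ a}
  mul_mem' := by
    rintro a b ⟨f, hf, p, hp, ha⟩ ⟨g, hg, q, hq, hb⟩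
    refine ⟨f * g, fun γ hγ => by rw [smul_mul', hf γ hγ, hg γ hγ], fun ξ => p ξ * q ξ,
      fun ξ => by rw [map_mul, hp, hq, smul_mul'], fun ξ => ?_⟩
    rw [Pi.mul_apply, ha, hb, map_mul]
  one_mem' :=
    ⟨1, fun γ _ => smul_one γ, fun _ => 1, fun ξ => by rw [map_one, smul_one],
      fun ξ => by rw [Pi.one_apply, map_one]⟩
  add_mem' := by
    rintro a b ⟨f, hf, p, hp, ha⟩ ⟨g, hg, q, hq, hb⟩
    refine ⟨f + g, fun γ hγ => by rw [smul_add, hf γ hγ, hg γ hγ], fun ξ => p ξ + q ξ,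
      fun ξ => by rw [map_add, hp, hq, smul_add], fun ξ => ?_⟩
    rw [Pi.add_apply, ha, hb, map_add]
  zero_mem' :=
    ⟨0, fun γ _ => smul_zero γ, fun _ => 0, fun ξ => by rw [map_zero, smul_zero],
      fun ξ => by rw [Pi.zero_apply, map_zero]⟩
  neg_mem' := by
    rintro a ⟨f, hf, p, hp, ha⟩
    refine ⟨-f, fun γ hγ => by rw [smul_neg, hf γ hγ], fun ξ => -p ξ,
      fun ξ => by rw [map_neg, hp, smul_neg], fun ξ => ?_⟩
    rw [Pi.neg_apply, ha, map_neg]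

variable {Γ M ℓ}

theorem mem_dscigRing {a : SL(2, ℤ) ⧸ Γ → LaurentSeries (kBar ℓ)} :
    a ∈ dscigRing Γ M ℓ ↔ DscigFam Γ M ℓ a := Iff.rfl

/-- constructor: the family of a `Γ`-invariant function with a family of pairs. -/
theorem dscigp_mem_of_pair (f : HolRing) (hf : ∀ γ : SL(2, ℤ), γ ∈ Γ → γ • f = f)
    (p : SL(2, ℤ) ⧸ Γ → IntPair M ℓ) (hp : ∀ ξ, IntPair.fst M ℓ (p ξ) = ξ.out • f) :
    (fun ξ => keyirrRho M ℓ (p ξ)) ∈ dscigRing Γ M ℓ :=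
  ⟨f, hf, p, hp, fun _ => rfl⟩

/-- a `Γ`-invariant function is moved in the same way by `g` and by the chosen representative of
its coset. -/
theorem dscigp_smul_eq_out_smul (f : HolRing) (hf : ∀ γ : SL(2, ℤ), γ ∈ Γ → γ • f = f)
    (g : SL(2, ℤ)) : g • f = ((g : SL(2, ℤ) ⧸ Γ)).out • f := by
  have h : ((g : SL(2, ℤ) ⧸ Γ)).out⁻¹ * g ∈ Γ := by
    rw [← QuotientGroup.eq, QuotientGroup.out_eq']
  have h1 : g = ((g : SL(2, ℤ) ⧸ Γ)).out * (((g : SL(2, ℤ) ⧸ Γ)).out⁻¹ * g) := by group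
  conv_lhs => rw [h1, mul_smul, hf _ h]

/-- constructor from an `SL(2, ℤ)`-indexed family of pairs `P g` of `g • f`. -/
theorem dscigp_mem_of_family (f : HolRing) (hf : ∀ γ : SL(2, ℤ), γ ∈ Γ → γ • f = f)
    (P : SL(2, ℤ) → IntPair M ℓ) (hP : ∀ g, IntPair.fst M ℓ (P g) = g • f) :
    (fun ξ : SL(2, ℤ) ⧸ Γ => keyirrRho M ℓ (P ξ.out)) ∈ dscigRing Γ M ℓ :=
  dscigp_mem_of_pair f hf (fun ξ => P ξ.out) fun ξ => hP ξ.out

/-- the value of the family of `dscigp_mem_of_family` at the coset of `g` is the reduced expansion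
of `P g`. -/
theorem dscigp_family_apply_mk (f : HolRing) (hf : ∀ γ : SL(2, ℤ), γ ∈ Γ → γ • f = f)
    (P : SL(2, ℤ) → IntPair M ℓ) (hP : ∀ g, IntPair.fst M ℓ (P g) = g • f) (g : SL(2, ℤ)) :
    keyirrRho M ℓ (P ((g : SL(2, ℤ) ⧸ Γ)).out) = keyirrRho M ℓ (P g) := by
  congr 1
  apply IntPair.ext_fst
  rw [hP, hP, ← dscigp_smul_eq_out_smul f hf]

variable (Γ M ℓ)

/-- the constants belong to the ring. -/
theorem dscig_ring_const_mem (c : kBar ℓ) :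
    (fun _ : SL(2, ℤ) ⧸ Γ => (HahnSeries.C c : LaurentSeries (kBar ℓ))) ∈ dscigRing Γ M ℓ := by
  obtain ⟨c', rfl⟩ := redBar_surjective ℓ c
  refine ⟨HolRing.C (iotaBar (c' : QBar)), fun γ _ => HolRing.C_smul γ _,
    fun _ => constPair M ℓ c', fun ξ => ?_, fun ξ => ?_⟩
  · show HolRing.C (iotaBar (c' : QBar)) = _
    rw [HolRing.C_smul]
  · rw [keyirrRho_constPair]

/-- the constants, in `algebraMap` form. -/
theorem dscig_ring_algebraMap_mem (c : kBar ℓ) :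
    (fun _ : SL(2, ℤ) ⧸ Γ => algebraMap (kBar ℓ) (LaurentSeries (kBar ℓ)) c) ∈
      dscigRing Γ M ℓ := by
  have h := dscig_ring_const_mem Γ M ℓ c
  have e : (fun _ : SL(2, ℤ) ⧸ Γ => algebraMap (kBar ℓ) (LaurentSeries (kBar ℓ)) c) =
      fun _ => (HahnSeries.C c : LaurentSeries (kBar ℓ)) := by
    funext ξ
    exact keyirr_algebraMap_eq_C c
  rw [e]
  exact h

/-- `J = j(s^M)` belongs to the ring. -/
theorem dscig_ring_J_mem :
    (fun _ : SL(2, ℤ) ⧸ Γ => keyirrJ M ℓ) ∈ dscigRing Γ M ℓ := by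
  refine ⟨jHol, fun γ _ => jHol_smul γ, fun _ => jPair M ℓ, fun ξ => ?_, fun ξ => ?_⟩
  · show jHol = _
    rw [jHol_smul]
  · rw [keyirrRho_jPair]

/-- every polynomial in `J` with constant coefficients belongs to the ring. -/
theorem dscig_ring_polyRange_mem (x : LaurentSeries (kBar ℓ)) (hx : x ∈ polyRange (keyirrJ M ℓ)) :
    (fun _ : SL(2, ℤ) ⧸ Γ => x) ∈ dscigRing Γ M ℓ := by
  obtain ⟨Q, rfl⟩ := hx
  show (fun _ : SL(2, ℤ) ⧸ Γ => Polynomial.aeval (keyirrJ M ℓ) Q) ∈ dscigRing Γ M ℓ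
  induction Q using Polynomial.induction_on' with
  | add P Q hP hQ =>
    have e : (fun _ : SL(2, ℤ) ⧸ Γ => Polynomial.aeval (keyirrJ M ℓ) (P + Q)) =
        (fun _ : SL(2, ℤ) ⧸ Γ => Polynomial.aeval (keyirrJ M ℓ) P) +
          (fun _ : SL(2, ℤ) ⧸ Γ => Polynomial.aeval (keyirrJ M ℓ) Q) := by
      funext ξ
      rw [map_add]
      rfl
    rw [e]
    exact (dscigRing Γ M ℓ).add_mem hP hQ
  | monomial n c =>
    have h1 := (dscigRing Γ M ℓ).mul_mem (dscig_ring_algebraMap_mem Γ M ℓ c)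
      ((dscigRing Γ M ℓ).pow_mem (dscig_ring_J_mem Γ M ℓ) n)
    have e : (fun _ : SL(2, ℤ) ⧸ Γ => Polynomial.aeval (keyirrJ M ℓ) (Polynomial.monomial n c)) =
        (fun _ : SL(2, ℤ) ⧸ Γ => algebraMap (kBar ℓ) (LaurentSeries (kBar ℓ)) c) *
          (fun _ : SL(2, ℤ) ⧸ Γ => keyirrJ M ℓ) ^ n := by
      funext ξ
      rw [Polynomial.aeval_monomial]
      rfl
    rw [e]
    exact h1

section Prod

variable [Fintype (SL(2, ℤ) ⧸ Γ)]

variable {Γ M ℓ}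

/-- the orbit polynomial of a member of the ring has coefficients in `kBar ℓ[J]`. -/
theorem dscig_ring_prod_mem {a : SL(2, ℤ) ⧸ Γ → LaurentSeries (kBar ℓ)}
    (ha : a ∈ dscigRing Γ M ℓ) (i : ℕ) :
    (∏ ξ, (Polynomial.X - Polynomial.C (a ξ))).coeff i ∈ polyRange (keyirrJ M ℓ) := by
  obtain ⟨f, hf, p, hp, hap⟩ := ha
  have e : a = fun ξ => keyirrRho M ℓ (p ξ) := funext hap
  rw [e]
  exact dscigo_prod_mem M ℓ f hf p hp i

/-- the Lagrange numerators of two members of the ring have coefficients in `kBar ℓ[J]`. -/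
theorem dscig_ring_lagrange_mem [DecidableEq (SL(2, ℤ) ⧸ Γ)]
    {a b : SL(2, ℤ) ⧸ Γ → LaurentSeries (kBar ℓ)}
    (ha : a ∈ dscigRing Γ M ℓ) (hb : b ∈ dscigRing Γ M ℓ) (i : ℕ) :
    (∑ ξ, Polynomial.C (b ξ) *
        ∏ ξ' ∈ Finset.univ.erase ξ, (Polynomial.X - Polynomial.C (a ξ'))).coeff i ∈
      polyRange (keyirrJ M ℓ) := by
  obtain ⟨f, hf, p, hp, hap⟩ := ha
  obtain ⟨g, hg, q, hq, hbq⟩ := hb
  have e : a = fun ξ => keyirrRho M ℓ (p ξ) := funext hap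
  have e' : b = fun ξ => keyirrRho M ℓ (q ξ) := funext hbq
  rw [e, e']
  exact dscigo_lagrange_mem M ℓ f g hf hg p q hp hq i

variable (Γ M ℓ)

/-- **the ring of conjugate families satisfies the standing hypotheses of IG-ALG.** -/
theorem dscig_ring_alg : DscigAlg (keyirrJ M ℓ) (dscigRing Γ M ℓ) where
  order_neg := keyirrJ_order_neg M ℓ
  const_mem := dscig_ring_algebraMap_mem Γ M ℓ
  J_mem := dscig_ring_J_mem Γ M ℓ
  prod_mem := fun _ ha i => dscig_ring_prod_mem ha i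

end Prod

/-! ### the translation law -/

variable {M ℓ}

/-- rotation commutes with the passage `OBar ℓ((s)) → ℂ((s))`. -/
theorem dscigp_coeffMap_rot (ζ : (OBar ℓ)ˣ) (S : LaurentSeries (OBar ℓ)) :
    coeffMap iotaBar (serO ℓ (gcjfRot ζ S)) =
      rotLaurent (Units.map ((iotaBar.comp (OBar ℓ).subtype : OBar ℓ →+* ℂ) : OBar ℓ →* ℂ) ζ)
        (coeffMap iotaBar (serO ℓ S)) := by
  ext m
  rw [coeffMap_coeff, serO_coeff, gcjfRot_coeff, rotLaurent_coeff, coeffMap_coeff, serO_coeff]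
  rw [Subring.coe_mul, map_mul]
  congr 1
  rw [← Units.val_zpow_eq_zpow_val, ← map_zpow, Units.coe_map]
  rfl

/-- **T-LAW**, `T⁻¹` form: if `fst p' = T⁻¹ • fst p` then the expansion of `p'` is the rotation by
`ζ_O` of that of `p`. -/
theorem dscigp_snd_of_T_inv_smul (p p' : IntPair M ℓ)
    (h : IntPair.fst M ℓ p' = (ModularGroup.T⁻¹ : SL(2, ℤ)) • IntPair.fst M ℓ p) :
    IntPair.snd M ℓ p' = gcjfRot (dscigpZeta M ℓ) (IntPair.snd M ℓ p) := by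
  have hp : HasCuspExp M ((IntPair.fst M ℓ p : HolRing) : ℍ → ℂ)
      (coeffMap iotaBar (serO ℓ (IntPair.snd M ℓ p))) := p.2
  have hp' : HasCuspExp M ((IntPair.fst M ℓ p' : HolRing) : ℍ → ℂ)
      (coeffMap iotaBar (serO ℓ (IntPair.snd M ℓ p'))) := p'.2
  have h2 := hp.comp_T (dscigpZetaC M ℓ) (dscigpZetaC_coe M ℓ)
  have hfun : ((IntPair.fst M ℓ p' : HolRing) : ℍ → ℂ) =
      fun τ => ((IntPair.fst M ℓ p : HolRing) : ℍ → ℂ) (ModularGroup.T • τ) := by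
    funext τ
    rw [h, HolRing.inv_smul_apply]
  rw [hfun] at hp'
  have h3 := hp'.unique h2
  rw [dscigpZetaC, ← dscigp_coeffMap_rot] at h3
  exact serO_injective ℓ (deg_coeffMap_injective iotaBar iotaBar_injective h3)

/-- **T-LAW**: if `fst p' = T • fst p` then the expansion of `p'` is the rotation by `ζ_O⁻¹` of
that of `p`. -/
theorem dscigp_snd_of_T_smul (p p' : IntPair M ℓ)
    (h : IntPair.fst M ℓ p' = (ModularGroup.T : SL(2, ℤ)) • IntPair.fst M ℓ p) :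
    IntPair.snd M ℓ p' = gcjfRot (dscigpZeta M ℓ)⁻¹ (IntPair.snd M ℓ p) := by
  have h1 : IntPair.fst M ℓ p = (ModularGroup.T⁻¹ : SL(2, ℤ)) • IntPair.fst M ℓ p' := by
    rw [h, inv_smul_smul]
  have h2 := dscigp_snd_of_T_inv_smul p' p h1
  rw [h2, ← gcjfRot_mul, inv_mul_cancel, gcjfRot_one]

/-- **T-LAW**, reduced: `keyirrRho p' = gcjfRot ζ̄⁻¹ (keyirrRho p)` when `fst p' = T • fst p`. -/
theorem dscigp_rho_of_T_smul (p p' : IntPair M ℓ)
    (h : IntPair.fst M ℓ p' = (ModularGroup.T : SL(2, ℤ)) • IntPair.fst M ℓ p) :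
    keyirrRho M ℓ p' = gcjfRot (dscigpZetaBar M ℓ)⁻¹ (keyirrRho M ℓ p) := by
  show serRed ℓ (IntPair.snd M ℓ p') = gcjfRot (dscigpZetaBar M ℓ)⁻¹ (serRed ℓ (IntPair.snd M ℓ p))
  rw [dscigp_snd_of_T_smul p p' h, serRed, gcjfRot_coeffMap, dscigpZetaBar, map_inv]

/-- **T-LAW** on the ring: `a (T • ξ) = θ (a ξ)`, `θ = gcjfRot ζ̄⁻¹`. -/
theorem dscig_ring_T_smul {Γ : Subgroup SL(2, ℤ)} {a : SL(2, ℤ) ⧸ Γ → LaurentSeries (kBar ℓ)}
    (ha : a ∈ dscigRing Γ M ℓ) (ξ : SL(2, ℤ) ⧸ Γ) :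
    a ((ModularGroup.T : SL(2, ℤ)) • ξ) = gcjfRot (dscigpZetaBar M ℓ)⁻¹ (a ξ) := by
  obtain ⟨f, hf, p, hp, hap⟩ := ha
  rw [hap, hap]
  refine dscigp_rho_of_T_smul (p ξ) (p ((ModularGroup.T : SL(2, ℤ)) • ξ)) ?_
  rw [hp, hp, dscigo_smul_out_smul f hf]

/-- **T-LAW**, `T⁻¹` form: `a (T⁻¹ • ξ) = gcjfRot ζ̄ (a ξ)`. -/
theorem dscig_ring_T_inv_smul {Γ : Subgroup SL(2, ℤ)}
    {a : SL(2, ℤ) ⧸ Γ → LaurentSeries (kBar ℓ)}
    (ha : a ∈ dscigRing Γ M ℓ) (ξ : SL(2, ℤ) ⧸ Γ) :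
    a ((ModularGroup.T⁻¹ : SL(2, ℤ)) • ξ) = gcjfRot (dscigpZetaBar M ℓ) (a ξ) := by
  have h := dscig_ring_T_smul ha ((ModularGroup.T⁻¹ : SL(2, ℤ)) • ξ)
  rw [smul_inv_smul] at h
  rw [h, ← gcjfRot_mul, mul_inv_cancel, gcjfRot_one]

variable (M ℓ) in
/-- **T-LAW**, existential form consumed by IG-MAIN (`dscig_rel_of_endo`). -/
theorem dscig_ring_exists_theta (Γ : Subgroup SL(2, ℤ)) :
    ∃ θ : LaurentSeries (kBar ℓ) →+* LaurentSeries (kBar ℓ),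
      ∀ a ∈ dscigRing Γ M ℓ, ∀ ξ : SL(2, ℤ) ⧸ Γ,
        a ((ModularGroup.T : SL(2, ℤ)) • ξ) = θ (a ξ) :=
  ⟨gcjfRot (dscigpZetaBar M ℓ)⁻¹, fun _ ha ξ => dscig_ring_T_smul ha ξ⟩

variable (M ℓ) in
/-- the classes of `DscigRel` are stable under `T`. -/
theorem dscig_ring_rel_T (Γ : Subgroup SL(2, ℤ)) (ξ : SL(2, ℤ) ⧸ Γ) :
    DscigRel (dscigRing Γ M ℓ) ξ ((ModularGroup.T : SL(2, ℤ)) • ξ) :=
  dscig_rel_of_endo (gcjfRot (dscigpZetaBar M ℓ)⁻¹) (fun ξ => (ModularGroup.T : SL(2, ℤ)) • ξ)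
    (fun _ ha ξ => dscig_ring_T_smul ha ξ) ξ

/-- `θ = gcjfRot ζ̄⁻¹` is injective. -/
theorem dscigp_rot_injective {R : Type*} [CommRing R] (ζ : Rˣ) :
    Function.Injective (gcjfRot ζ : LaurentSeries R → LaurentSeries R) := by
  intro x y h
  have := congrArg (gcjfRot ζ⁻¹) h
  rwa [← gcjfRot_mul, ← gcjfRot_mul, inv_mul_cancel, gcjfRot_one, gcjfRot_one] at this

/-- `θ` fixes `J = j(s^M)`. -/
theorem dscigp_rot_J : gcjfRot (dscigpZetaBar M ℓ)⁻¹ (keyirrJ M ℓ) = keyirrJ M ℓ := by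
  rw [keyirrJ]
  refine gcjfRot_qExpand ?_ _
  rw [inv_pow, dscigpZetaBar_pow, inv_one]

/-- `θ` fixes the constants. -/
theorem dscigp_rot_C {R : Type*} [CommRing R] (ζ : Rˣ) (c : R) :
    gcjfRot ζ (HahnSeries.C c : LaurentSeries R) = HahnSeries.C c := by
  ext m
  rw [gcjfRot_coeff, HahnSeries.C_apply, HahnSeries.coeff_single]
  split_ifs with h
  · subst h
    simp
  · simp

end Fermat.Agent.DS
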