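import Mathlib
import Fermat.Agent.DS.C.Igusa.Asm
import Fermat.Agent.DS.C.Igusa.Pair
import Fermat.Agent.DS.C.Igusa.Fam

/-!
# Program DS, package (C), row C3 (Igusa for `X₁(M)`): IG-MAIN, the instantiation

`dscig_igusa` : Igusa's theorem for `X₁(M)` mod `ℓ ∤ M` (`6 ≤ M`) in helper3's shape
`DscvIgusa (kBar ℓ) M 1 [SL₂(ℤ) : ±Γ₁(M)]`.  The ring of conjugate families is helper4's
`dscigRing (dscigGamma M) M ℓ` (IG-PAIR), the families are helper2's `z`-world Fricke pairs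
`dscigD`, `dscigDInv`, `dscigW`, `dscigWInv`, `dscigJdFam` (IG-FAM) evaluated at the multiples
`a · v_ξ` of the row vector `v_ξ = dscigVec M ξ` of the coset `ξ`; everything is fed to
`dscig_igusa_of_inputs` (`Igusa/Asm.lean`).
-/

set_option autoImplicit false
set_option linter.unusedSectionVars false
set_option linter.style.haveILetI false

noncomputable section

namespace Fermat.Agent.DS

open Fermat.Agent.S24 Fermat.Agent.S28 ModularCurve
open scoped MatrixGroups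

/-! ### multiples of row vectors -/

section Sc

variable (M : ℕ)

/-- the multiple `a · v` of a row vector. -/
def dscigiSc (a : ZMod M) (v : ZMod M × ZMod M) : ZMod M × ZMod M := (a * v.1, a * v.2)

theorem dscigiSc_act (γ : SL(2, ℤ)) (a : ZMod M) (v : ZMod M × ZMod M) :
    dscigAct M γ (dscigiSc M a v) = dscigiSc M a (dscigAct M γ v) :=
  dscigAct_smul M γ a v

theorem dscigiSc_neg (a : ZMod M) (v : ZMod M × ZMod M) :
    dscigiSc M a (-v) = -dscigiSc M a v := by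
  unfold dscigiSc
  ext <;> simp

/-- vectors of exact order `M`. -/
def DscigiPrim (v : ZMod M × ZMod M) : Prop :=
  ∀ a : ZMod M, a * v.1 = 0 → a * v.2 = 0 → a = 0

theorem dscigiPrim_E : DscigiPrim M (dscigE M) := by
  intro a h1 _
  simpa [dscigE] using h1

theorem dscigiPrim_row (g : SL(2, ℤ)) : DscigiPrim M (dscigRow M g) :=
  fun a h1 h2 => dscigRow_primitive M g a h1 h2

theorem dscigiPrim_vec (ξ : SL(2, ℤ) ⧸ dscigGamma M) : DscigiPrim M (dscigVec M ξ) :=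
  dscigiPrim_row M ξ.out

variable {M}

theorem dscigiSc_ne_zero {v : ZMod M × ZMod M} (hv : DscigiPrim M v) {a : ZMod M} (ha : a ≠ 0) :
    dscigiSc M a v ≠ 0 := by
  intro h
  exact ha (hv a (congrArg Prod.fst h) (congrArg Prod.snd h))

theorem dscigiSc_ne {v : ZMod M × ZMod M} (hv : DscigiPrim M v) {a b : ZMod M} (hab : a ≠ b) :
    dscigiSc M a v ≠ dscigiSc M b v := by
  intro h
  have h1 : a * v.1 = b * v.1 := congrArg Prod.fst h
  have h2 : a * v.2 = b * v.2 := congrArg Prod.snd h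
  have := hv (a - b) (by rw [sub_mul, h1, sub_self]) (by rw [sub_mul, h2, sub_self])
  exact hab (sub_eq_zero.mp this)

theorem dscigiSc_ne_neg {v : ZMod M × ZMod M} (hv : DscigiPrim M v) {a b : ZMod M}
    (hab : a ≠ -b) : dscigiSc M a v ≠ -dscigiSc M b v := by
  intro h
  have h1 : a * v.1 = -(b * v.1) := congrArg Prod.fst h
  have h2 : a * v.2 = -(b * v.2) := congrArg Prod.snd h
  have := hv (a + b) (by rw [add_mul, h1, neg_add_cancel]) (by rw [add_mul, h2, neg_add_cancel])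
  exact hab (eq_neg_of_add_eq_zero_left this)

theorem dscigi_adm {v : ZMod M × ZMod M} (hv : DscigiPrim M v) {a b : ZMod M} (ha : a ≠ 0)
    (hb : b ≠ 0) (h1 : a ≠ b) (h2 : a ≠ -b) :
    DscigAdm M (dscigiSc M a v) (dscigiSc M b v) :=
  ⟨dscigiSc_ne_zero hv ha, dscigiSc_ne_zero hv hb, dscigiSc_ne hv h1, dscigiSc_ne_neg hv h2⟩

end Sc

/-! ### families indexed by the row vector of the coset -/

section Fam

variable (M : ℕ) [NeZero M] (ℓ : ℕ) [Fact ℓ.Prime]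

/-- a vector-indexed family of pairs which satisfies the slash law and is even gives a member of
the ring of conjugate families. -/
theorem dscigi_mem_of_vec (Φ : ZMod M × ZMod M → IntPair M ℓ)
    (hslash : ∀ (g : SL(2, ℤ)) (v : ZMod M × ZMod M), DscigiPrim M v →
      g • IntPair.fst M ℓ (Φ v) = IntPair.fst M ℓ (Φ (dscigAct M g⁻¹ v)))
    (heven : ∀ v : ZMod M × ZMod M, DscigiPrim M v → Φ (-v) = Φ v) :
    (fun ξ : SL(2, ℤ) ⧸ dscigGamma M => keyirrRho M ℓ (Φ (dscigVec M ξ))) ∈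
      dscigRing (dscigGamma M) M ℓ := by
  have hE := dscigiPrim_E M
  refine dscigp_mem_of_family (IntPair.fst M ℓ (Φ (dscigE M))) ?_
    (fun g => Φ (dscigRow M g)) ?_
  · intro γ hγ
    rw [hslash γ _ hE]
    show IntPair.fst M ℓ (Φ (dscigRow M γ)) = _
    rcases (dscigRow_eq_iff M γ).2 hγ with h | h
    · rw [h]
    · rw [h, heven _ hE]
  · intro g
    rw [hslash g _ hE]
    rfl

variable {M ℓ}

/-- the `W`-units. -/
theorem dscigi_W_mem (hℓ : ¬ ℓ ∣ M) {α β : ZMod M} (h1 : α ≠ 0) (h2 : β ≠ 0) :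
    (fun ξ : SL(2, ℤ) ⧸ dscigGamma M =>
      keyirrRho M ℓ (dscigW M ℓ (dscigiSc M α (dscigVec M ξ)) (dscigiSc M β (dscigVec M ξ)))) ∈
      dscigRing (dscigGamma M) M ℓ := by
  refine dscigi_mem_of_vec M ℓ (fun v => dscigW M ℓ (dscigiSc M α v) (dscigiSc M β v)) ?_ ?_
  · intro g v hv
    show g • IntPair.fst M ℓ (dscigW M ℓ (dscigiSc M α v) (dscigiSc M β v)) = _
    rw [dscigW_smul M ℓ hℓ g (dscigiSc_ne_zero hv h1) (dscigiSc_ne_zero hv h2), dscigiSc_act,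
      dscigiSc_act]
  · intro v hv
    show dscigW M ℓ (dscigiSc M α (-v)) (dscigiSc M β (-v)) = _
    rw [dscigiSc_neg, dscigiSc_neg,
      dscigW_neg M ℓ hℓ (dscigiSc_ne_zero hv h1) (dscigiSc_ne_zero hv h2)]

/-- the inverses of the `W`-units. -/
theorem dscigi_WInv_mem (hℓ : ¬ ℓ ∣ M) {α β : ZMod M} (h1 : α ≠ 0) (h2 : β ≠ 0) (h3 : α ≠ β)
    (h4 : α ≠ -β) :
    (fun ξ : SL(2, ℤ) ⧸ dscigGamma M =>
      keyirrRho M ℓ (dscigWInv M ℓ (dscigiSc M α (dscigVec M ξ)) (dscigiSc M β (dscigVec M ξ)))) ∈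
      dscigRing (dscigGamma M) M ℓ := by
  refine dscigi_mem_of_vec M ℓ (fun v => dscigWInv M ℓ (dscigiSc M α v) (dscigiSc M β v)) ?_ ?_
  · intro g v hv
    show g • IntPair.fst M ℓ (dscigWInv M ℓ (dscigiSc M α v) (dscigiSc M β v)) = _
    rw [dscigWInv_smul M ℓ hℓ g (dscigi_adm hv h1 h2 h3 h4), dscigiSc_act, dscigiSc_act]
  · intro v hv
    show dscigWInv M ℓ (dscigiSc M α (-v)) (dscigiSc M β (-v)) = _
    unfold dscigWInv
    rw [dscigiSc_neg, dscigiSc_neg, dscigDInv_neg M ℓ hℓ (dscigi_adm hv h1 h2 h3 h4)]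

/-- the cross-ratio families. -/
theorem dscigi_ratio_mem (hℓ : ¬ ℓ ∣ M) {a b c : ZMod M} (ha : a ≠ 0) (hb : b ≠ 0) (hc : c ≠ 0)
    (h3 : a ≠ c) (h4 : a ≠ -c) :
    (fun ξ : SL(2, ℤ) ⧸ dscigGamma M =>
      keyirrRho M ℓ (dscigD M ℓ (dscigiSc M a (dscigVec M ξ)) (dscigiSc M b (dscigVec M ξ)) *
        dscigDInv M ℓ (dscigiSc M a (dscigVec M ξ)) (dscigiSc M c (dscigVec M ξ)))) ∈
      dscigRing (dscigGamma M) M ℓ := by
  refine dscigi_mem_of_vec M ℓ (fun v => dscigD M ℓ (dscigiSc M a v) (dscigiSc M b v) *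
    dscigDInv M ℓ (dscigiSc M a v) (dscigiSc M c v)) ?_ ?_
  · intro g v hv
    show g • IntPair.fst M ℓ (dscigD M ℓ (dscigiSc M a v) (dscigiSc M b v) *
      dscigDInv M ℓ (dscigiSc M a v) (dscigiSc M c v)) = _
    rw [dscigD_ratio_smul M ℓ hℓ g (dscigiSc_ne_zero hv hb) (dscigi_adm hv ha hc h3 h4),
      dscigiSc_act, dscigiSc_act, dscigiSc_act]
  · intro v hv
    show dscigD M ℓ (dscigiSc M a (-v)) (dscigiSc M b (-v)) *
      dscigDInv M ℓ (dscigiSc M a (-v)) (dscigiSc M c (-v)) = _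
    rw [dscigiSc_neg, dscigiSc_neg, dscigiSc_neg,
      dscigD_neg M ℓ hℓ (dscigiSc_ne_zero hv ha) (dscigiSc_ne_zero hv hb),
      dscigDInv_neg M ℓ hℓ (dscigi_adm hv ha hc h3 h4)]

/-- the value of a cross-ratio pair. -/
theorem dscigi_ratio_rho (hℓ : ¬ ℓ ∣ M) {a b c : ZMod M} (ha : a ≠ 0) (hb : b ≠ 0) (hc : c ≠ 0)
    (h3 : a ≠ c) (h4 : a ≠ -c) {v : ZMod M × ZMod M} (hv : DscigiPrim M v) :
    keyirrRho M ℓ (dscigD M ℓ (dscigiSc M a v) (dscigiSc M b v) *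
        dscigDInv M ℓ (dscigiSc M a v) (dscigiSc M c v)) =
      (dscigP M (dscigZetaBar M ℓ) a v - dscigP M (dscigZetaBar M ℓ) b v) /
        (dscigP M (dscigZetaBar M ℓ) a v - dscigP M (dscigZetaBar M ℓ) c v) := by
  have hadm := dscigi_adm hv ha hc h3 h4
  have hinv : keyirrRho M ℓ (dscigDInv M ℓ (dscigiSc M a v) (dscigiSc M c v)) =
      (keyirrRho M ℓ (dscigD M ℓ (dscigiSc M a v) (dscigiSc M c v)))⁻¹ := by
    apply eq_inv_of_mul_eq_one_right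
    rw [← map_mul, dscigD_mul_inv M ℓ hℓ hadm, map_one]
  rw [map_mul, hinv, dscigD_rho M ℓ hℓ (dscigiSc_ne_zero hv ha) (dscigiSc_ne_zero hv hb),
    dscigD_rho M ℓ hℓ (dscigiSc_ne_zero hv ha) (dscigiSc_ne_zero hv hc), map_sub, map_sub,
    div_eq_mul_inv]
  rfl

/-- the `j(q^d)`-families. -/
theorem dscigi_jd_mem (d : ℕ) [NeZero d] (hd : d ∣ M) :
    ∃ g ∈ dscigRing (dscigGamma M) M ℓ,
      g ((1 : SL(2, ℤ)) : SL(2, ℤ) ⧸ dscigGamma M) = qExpand (kBar ℓ) d (jqModC (kBar ℓ)) := by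
  have hM : M / d * d = M := Nat.div_mul_cancel hd
  have : NeZero (M / d) := ⟨fun h => by
    rw [h, zero_mul] at hM
    exact NeZero.ne M hM.symm⟩
  have hf : ∀ γ : SL(2, ℤ), γ ∈ dscigGamma M → γ • dscigJdHol (M / d) = dscigJdHol (M / d) := by
    intro γ hγ
    apply dscigJdHol_smul'
    have h0 : ((γ 0 1 : ℤ) : ZMod M) = 0 := by
      rcases (mem_dscigGamma_iff M).1 hγ with h | h
      · exact h.2
      · exact h.2
    have h1 : (M : ℤ) ∣ γ 0 1 := (ZMod.intCast_zmod_eq_zero_iff_dvd _ _).1 h0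
    exact (Int.natCast_dvd_natCast.2 (Dvd.intro _ hM)).trans h1
  refine ⟨_, dscigp_mem_of_family (dscigJdHol (M / d)) hf (dscigJdFam M ℓ d (M / d) hM)
    (dscigJdFam_fst M ℓ d (M / d) hM), ?_⟩
  show keyirrRho M ℓ (dscigJdFam M ℓ d (M / d) hM
    (((1 : SL(2, ℤ)) : SL(2, ℤ) ⧸ dscigGamma M)).out) = _
  rw [dscigp_family_apply_mk (dscigJdHol (M / d)) hf (dscigJdFam M ℓ d (M / d) hM)
    (dscigJdFam_fst M ℓ d (M / d) hM) 1, dscigJdFam_one_rho]

end Fam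

/-! ### Igusa's theorem -/

/-- **Igusa's theorem for `X₁(M)` mod `ℓ ∤ M`** (`6 ≤ M`): `F_{k̄}(M) / k̄(j)` is finite separable of
degree at least `[SL₂(ℤ) : ±Γ₁(M)]`. -/
theorem dscig_igusa (M : ℕ) [NeZero M] (hM : 6 ≤ M) {ℓ : ℕ} [Fact ℓ.Prime] (hℓ : ¬ ℓ ∣ M) :
    DscvIgusa (kBar ℓ) M 1 (dscbrGamma M).index := by
  letI : Fintype (SL(2, ℤ) ⧸ dscigGamma M) := dscigoFintypeQuot (dscigGamma M)
  letI : DecidableEq (SL(2, ℤ) ⧸ dscigGamma M) := dscigoDecEqQuot (dscigGamma M)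
  refine dscig_igusa_of_inputs M ℓ hM hℓ (dscigRing (dscigGamma M) M ℓ)
    (dscig_ring_alg (dscigGamma M) M ℓ) (dscigZetaBar M ℓ) (dscigZetaBar_prim M ℓ hℓ)
    (dscig_ring_exists_theta M ℓ (dscigGamma M)) ?_ ?_ ?_
  · intro α β h1 h2 h3 h4
    refine ⟨_, dscigi_W_mem hℓ h1 h2, _, dscigi_WInv_mem hℓ h1 h2 h3 h4, fun ξ => ?_, fun ξ => ?_⟩
    · show keyirrRho M ℓ _ * keyirrRho M ℓ _ = 1
      rw [← map_mul, dscigW_mul_inv M ℓ hℓ (dscigi_adm (dscigiPrim_vec M ξ) h1 h2 h3 h4), map_one]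
    · exact dscigW_rho_order M ℓ hℓ (dscigi_adm (dscigiPrim_vec M ξ) h1 h2 h3 h4)
  · intro a b c hadm
    obtain ⟨ha, hb, hc, -, -, h3, h4, -, -⟩ := hadm
    exact ⟨_, dscigi_ratio_mem hℓ ha hb hc h3 h4,
      fun ξ => dscigi_ratio_rho hℓ ha hb hc h3 h4 (dscigiPrim_vec M ξ)⟩
  · intro d _ hd
    exact dscigi_jd_mem d hd

end Fermat.Agent.DS
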