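import Mathlib
import Fermat.Agent.S28.Key

/-!
# Program DS, package (C), row C3 (IGUSA): orbit polynomials over a finite index subgroup

Port of the orbit lemmas of `S28/Key.lean` (`keyirr_smul_out_smul`, `keyirr_smul_prod_coeff`,
`keyirr_smul_lagrange_coeff`, `keyirr_prod_mem`, `keyirr_lagrange_mem`) from `Γ₀(N)` to an ARBITRARY
finite index subgroup `Γ ≤ SL(2, ℤ)` (ANY `Fintype` / `DecidableEq` instances on the coset space are
taken as arguments) and an arbitrary width `N` of the expansions: if `f` is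
`Γ`-invariant and `p ξ` is an `ℓ`-integral expansion pair of the conjugate `ξ.out • f`
(`ξ ∈ SL(2, ℤ) ⧸ Γ`), then the coefficients of `∏_ξ (X - red (p ξ))` (and of the Lagrange
numerators) are polynomials in `j(s^N) mod ℓ`.  `IntPair N ℓ`, `keyirrRho`, `keyirrJ`,
`keyirrRho_mem_polyRange`, `polyRange` of S28 are generic in `N` and imported.
-/

set_option autoImplicit false
set_option linter.unusedSectionVars false

noncomputable section

namespace Fermat.Agent.DS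

open UpperHalfPlane ModularCurve Fermat.Agent.S24 Fermat.Agent.S28
open scoped MatrixGroups

/-- A `Fintype` structure on the coset space of a finite index subgroup. -/
abbrev dscigoFintypeQuot (Γ : Subgroup SL(2, ℤ)) [Γ.FiniteIndex] : Fintype (SL(2, ℤ) ⧸ Γ) :=
  Fintype.ofFinite _

/-- classical decidable equality on the coset space. -/
abbrev dscigoDecEqQuot (Γ : Subgroup SL(2, ℤ)) : DecidableEq (SL(2, ℤ) ⧸ Γ) := Classical.decEq _

variable {Γ : Subgroup SL(2, ℤ)}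

/-- the conjugates of a `Γ`-invariant function are permuted by `SL(2, ℤ)`. -/
theorem dscigo_smul_out_smul (f : HolRing) (hf : ∀ γ : SL(2, ℤ), γ ∈ Γ → γ • f = f)
    (γ : SL(2, ℤ)) (ξ : SL(2, ℤ) ⧸ Γ) : γ • (ξ.out • f) = (γ • ξ).out • f := by
  rw [← mul_smul]
  have h : (γ • ξ).out⁻¹ * (γ * ξ.out) ∈ Γ := by
    rw [← QuotientGroup.eq, QuotientGroup.out_eq']
    conv_lhs => rw [← QuotientGroup.out_eq' ξ]
    rfl
  have h1 : γ * ξ.out = (γ • ξ).out * ((γ • ξ).out⁻¹ * (γ * ξ.out)) := by group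
  rw [h1, mul_smul, hf _ h]

variable [Fintype (SL(2, ℤ) ⧸ Γ)]

/-- the coefficients of an orbit polynomial are invariant. -/
theorem dscigo_smul_prod_coeff (F : SL(2, ℤ) ⧸ Γ → HolRing) (γ : SL(2, ℤ))
    (hF : ∀ ξ, γ • F ξ = F (γ • ξ)) (i : ℕ) :
    γ • (∏ ξ, (Polynomial.X - Polynomial.C (F ξ))).coeff i =
      (∏ ξ, (Polynomial.X - Polynomial.C (F ξ))).coeff i := by
  have h1 : γ • (∏ ξ, (Polynomial.X - Polynomial.C (F ξ))).coeff i =
      ((∏ ξ, (Polynomial.X - Polynomial.C (F ξ))).map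
        (MulSemiringAction.toRingHom SL(2, ℤ) HolRing γ)).coeff i := by
    rw [Polynomial.coeff_map]; rfl
  rw [h1]
  congr 1
  rw [Polynomial.map_prod]
  simp only [Polynomial.map_sub, Polynomial.map_X, Polynomial.map_C,
    MulSemiringAction.toRingHom_apply, hF]
  exact Fintype.prod_equiv (MulAction.toPerm γ) _ _ fun ξ => rfl

/-- the coefficients of a Lagrange numerator are invariant. -/
theorem dscigo_smul_lagrange_coeff [DecidableEq (SL(2, ℤ) ⧸ Γ)] (F G : SL(2, ℤ) ⧸ Γ → HolRing)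
    (γ : SL(2, ℤ)) (hF : ∀ ξ, γ • F ξ = F (γ • ξ)) (hG : ∀ ξ, γ • G ξ = G (γ • ξ)) (i : ℕ) :
    γ • (∑ ξ, Polynomial.C (G ξ) *
        ∏ ξ' ∈ Finset.univ.erase ξ, (Polynomial.X - Polynomial.C (F ξ'))).coeff i =
      (∑ ξ, Polynomial.C (G ξ) *
        ∏ ξ' ∈ Finset.univ.erase ξ, (Polynomial.X - Polynomial.C (F ξ'))).coeff i := by
  have h1 : γ • (∑ ξ, Polynomial.C (G ξ) *
        ∏ ξ' ∈ Finset.univ.erase ξ, (Polynomial.X - Polynomial.C (F ξ'))).coeff i =
      ((∑ ξ, Polynomial.C (G ξ) *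
        ∏ ξ' ∈ Finset.univ.erase ξ, (Polynomial.X - Polynomial.C (F ξ'))).map
        (MulSemiringAction.toRingHom SL(2, ℤ) HolRing γ)).coeff i := by
    rw [Polynomial.coeff_map]; rfl
  rw [h1]
  congr 1
  rw [Polynomial.map_sum]
  simp only [Polynomial.map_mul, Polynomial.map_prod, Polynomial.map_sub, Polynomial.map_X,
    Polynomial.map_C, MulSemiringAction.toRingHom_apply, hF, hG]
  refine Fintype.sum_equiv (MulAction.toPerm γ) _ _ fun ξ => ?_
  congr 1
  refine Finset.prod_equiv (MulAction.toPerm γ) (fun ξ' => ?_) fun ξ' _ => rfl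
  simp only [Finset.mem_erase, Finset.mem_univ, and_true, ne_eq, EmbeddingLike.apply_eq_iff_eq]

variable (N : ℕ) [NeZero N] (ℓ : ℕ) [Fact ℓ.Prime]

/-- the coefficients of the orbit polynomial of the reductions are polynomials in `j(s^N)`. -/
theorem dscigo_prod_mem (f : HolRing) (hf : ∀ γ : SL(2, ℤ), γ ∈ Γ → γ • f = f)
    (p : SL(2, ℤ) ⧸ Γ → IntPair N ℓ)
    (hp : ∀ ξ, IntPair.fst N ℓ (p ξ) = ξ.out • f) (i : ℕ) :
    (∏ ξ, (Polynomial.X - Polynomial.C (keyirrRho N ℓ (p ξ)))).coeff i ∈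
      polyRange (keyirrJ N ℓ) := by
  have h1 : (∏ ξ, (Polynomial.X - Polynomial.C (keyirrRho N ℓ (p ξ)))) =
      (∏ ξ, (Polynomial.X - Polynomial.C (p ξ))).map (keyirrRho N ℓ) := by
    rw [Polynomial.map_prod]
    simp only [Polynomial.map_sub, Polynomial.map_X, Polynomial.map_C]
  rw [h1, Polynomial.coeff_map]
  refine keyirrRho_mem_polyRange N ℓ _ fun γ => ?_
  have h2 : IntPair.fst N ℓ ((∏ ξ, (Polynomial.X - Polynomial.C (p ξ))).coeff i) =
      (∏ ξ : SL(2, ℤ) ⧸ Γ, (Polynomial.X - Polynomial.C (ξ.out • f))).coeff i := by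
    rw [← Polynomial.coeff_map, Polynomial.map_prod]
    simp only [Polynomial.map_sub, Polynomial.map_X, Polynomial.map_C, hp]
  rw [h2]
  exact dscigo_smul_prod_coeff _ γ (fun ξ => dscigo_smul_out_smul f hf γ ξ) i

/-- the coefficients of the Lagrange numerators of the reductions are polynomials in `j(s^N)`. -/
theorem dscigo_lagrange_mem [DecidableEq (SL(2, ℤ) ⧸ Γ)] (f g : HolRing)
    (hf : ∀ γ : SL(2, ℤ), γ ∈ Γ → γ • f = f) (hg : ∀ γ : SL(2, ℤ), γ ∈ Γ → γ • g = g)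
    (p q : SL(2, ℤ) ⧸ Γ → IntPair N ℓ)
    (hp : ∀ ξ, IntPair.fst N ℓ (p ξ) = ξ.out • f)
    (hq : ∀ ξ, IntPair.fst N ℓ (q ξ) = ξ.out • g) (i : ℕ) :
    (∑ ξ, Polynomial.C (keyirrRho N ℓ (q ξ)) *
        ∏ ξ' ∈ Finset.univ.erase ξ, (Polynomial.X - Polynomial.C (keyirrRho N ℓ (p ξ')))).coeff i ∈
      polyRange (keyirrJ N ℓ) := by
  have h1 : (∑ ξ, Polynomial.C (keyirrRho N ℓ (q ξ)) *
        ∏ ξ' ∈ Finset.univ.erase ξ, (Polynomial.X - Polynomial.C (keyirrRho N ℓ (p ξ')))) =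
      (∑ ξ, Polynomial.C (q ξ) *
        ∏ ξ' ∈ Finset.univ.erase ξ, (Polynomial.X - Polynomial.C (p ξ'))).map
          (keyirrRho N ℓ) := by
    rw [Polynomial.map_sum]
    simp only [Polynomial.map_mul, Polynomial.map_prod, Polynomial.map_sub, Polynomial.map_X,
      Polynomial.map_C]
  rw [h1, Polynomial.coeff_map]
  refine keyirrRho_mem_polyRange N ℓ _ fun γ => ?_
  have h2 : IntPair.fst N ℓ ((∑ ξ, Polynomial.C (q ξ) *
        ∏ ξ' ∈ Finset.univ.erase ξ, (Polynomial.X - Polynomial.C (p ξ'))).coeff i) =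
      (∑ ξ : SL(2, ℤ) ⧸ Γ, Polynomial.C (ξ.out • g) *
        ∏ ξ' ∈ Finset.univ.erase ξ, (Polynomial.X - Polynomial.C (ξ'.out • f))).coeff i := by
    rw [← Polynomial.coeff_map, Polynomial.map_sum]
    simp only [Polynomial.map_mul, Polynomial.map_prod, Polynomial.map_sub, Polynomial.map_X,
      Polynomial.map_C, hp, hq]
  rw [h2]
  exact dscigo_smul_lagrange_coeff _ _ γ (fun ξ => dscigo_smul_out_smul f hf γ ξ)
    (fun ξ => dscigo_smul_out_smul g hg γ ξ) i

end Fermat.Agent.DS
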